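/-
PROJECT E (S16), slice E-TR (TR5) (helper23): `q^{1/p}`-EXPANSIONS OF THE CONJUGATES.

Everything is at FUNCTION level (`F : ℍ → ℂ`), for functions that are `h`-periodic, holomorphic and
bounded at `i∞` (`IsQh h F`; `S23.QRing.IsQ = IsQh 1`).

* `IsQh` API: closure properties, `qExpansion h` is additive / multiplicative / injective on it.
* `qExpansion_nat_period` : a `1`-periodic `F` seen with period `p` has
  `qExpansion p F = expand p (qExpansion 1 F)`.
* `qExpansion_slash_heckeMatrix` : for `H` `1`-periodic, the `j`-th component of `U_p`,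
  `H ∣[k] heckeMatrix p j` (`= p⁻¹ H((τ + j)/p)`), is `p`-periodic with
  `qExpansion p (H ∣[k] heckeMatrix p j) = rescale (ζ_p ^ j) (p⁻¹ • qExpansion 1 H)`.
* translation by `1` permutes the `p` components cyclically; symmetric expressions descend.
-/
import Mathlib
import Fermat.Prelude.Def_ModularForm_HeckeOperator
import Fermat.Prelude.Thm_UpperHalfPlane_qExpansion_coeff_nat_mul
import Fermat.Prelude.Thm_UpperHalfPlane_qExpansion_prod
import Fermat.Agent.S23.QRing

set_option autoImplicit false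
set_option linter.unusedSectionVars false

noncomputable section

namespace Fermat.Agent.S16.Conjugates

open UpperHalfPlane Function ModularFormClass ModularForm Fermat.Agent.S23.QRing
open scoped Manifold ModularForm MatrixGroups Real

/-! ### Functions with a `q^{1/h}`-expansion -/

/-- `F` is `h`-periodic, holomorphic and bounded at `i∞`. -/
structure IsQh (h : ℝ) (F : ℍ → ℂ) : Prop where
  periodic : Periodic (F ∘ ofComplex) h
  holo : MDiff F
  bdd : IsBoundedAtImInfty F

theorem isQh_one_iff {F : ℍ → ℂ} : IsQh 1 F ↔ IsQ F :=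
  ⟨fun h => ⟨by simpa using h.periodic, h.holo, h.bdd⟩,
    fun h => ⟨by simpa using h.periodic, h.holo, h.bdd⟩⟩

namespace IsQh

variable {h : ℝ} {F G : ℍ → ℂ}

theorem analyticAt (hh : 0 < h) (hF : IsQh h F) : AnalyticAt ℂ (cuspFunction h F) 0 :=
  analyticAt_cuspFunction_zero hh hF.periodic hF.holo hF.bdd

theorem const (h : ℝ) (c : ℂ) : IsQh h (fun _ => c) where
  periodic := fun _ => rfl
  holo := mdifferentiable_const
  bdd := Filter.const_boundedAtFilter _ c

theorem zero (h : ℝ) : IsQh h (0 : ℍ → ℂ) := const h 0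

theorem one (h : ℝ) : IsQh h (1 : ℍ → ℂ) := const h 1

theorem add (hF : IsQh h F) (hG : IsQh h G) : IsQh h (F + G) where
  periodic := fun z => by
    have h1 := hF.periodic z
    have h2 := hG.periodic z
    simp only [comp_apply, Pi.add_apply] at h1 h2 ⊢
    rw [h1, h2]
  holo := hF.holo.add hG.holo
  bdd := hF.bdd.add hG.bdd

theorem mul (hF : IsQh h F) (hG : IsQh h G) : IsQh h (F * G) where
  periodic := fun z => by
    have h1 := hF.periodic z
    have h2 := hG.periodic z
    simp only [comp_apply, Pi.mul_apply] at h1 h2 ⊢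
    rw [h1, h2]
  holo := hF.holo.mul hG.holo
  bdd := hF.bdd.mul hG.bdd

theorem smul (c : ℂ) (hF : IsQh h F) : IsQh h (c • F) := by
  have : c • F = (fun _ => c) * F := by ext z; simp
  rw [this]
  exact (const h c).mul hF

theorem neg (hF : IsQh h F) : IsQh h (-F) := by
  have : -F = (-1 : ℂ) • F := by ext z; simp
  rw [this]
  exact hF.smul _

theorem sub (hF : IsQh h F) (hG : IsQh h G) : IsQh h (F - G) := by
  rw [sub_eq_add_neg]
  exact hF.add hG.neg

theorem pow (hF : IsQh h F) (n : ℕ) : IsQh h (F ^ n) := by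
  induction n with
  | zero => simpa using one h
  | succ n ih => rw [pow_succ]; exact ih.mul hF

theorem sum {ι : Type*} (s : Finset ι) {F : ι → ℍ → ℂ} (hF : ∀ i ∈ s, IsQh h (F i)) :
    IsQh h (∑ i ∈ s, F i) := by
  classical
  induction s using Finset.induction_on with
  | empty => simpa using zero h
  | insert a s ha ih =>
    rw [Finset.sum_insert ha]
    exact (hF a (Finset.mem_insert_self a s)).add
      (ih fun i hi => hF i (Finset.mem_insert_of_mem hi))

theorem prod {ι : Type*} (s : Finset ι) {F : ι → ℍ → ℂ} (hF : ∀ i ∈ s, IsQh h (F i)) :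
    IsQh h (∏ i ∈ s, F i) := by
  classical
  induction s using Finset.induction_on with
  | empty => simpa using one h
  | insert a s ha ih =>
    rw [Finset.prod_insert ha]
    exact (hF a (Finset.mem_insert_self a s)).mul
      (ih fun i hi => hF i (Finset.mem_insert_of_mem hi))

/-- The convergent `q^{1/h}`-expansion. -/
theorem hasSum (hh : 0 < h) (hF : IsQh h F) (τ : ℍ) :
    HasSum (fun m : ℕ => (qExpansion h F).coeff m • Periodic.qParam h τ ^ m) (F τ) :=
  hasSum_qExpansion hh hF.periodic hF.holo hF.bdd τ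

end IsQh

/-! ### `qExpansion h` on `IsQh h` -/

section qxh

variable {h : ℝ} {F G : ℍ → ℂ}

theorem qxh_add (hh : 0 < h) (hF : IsQh h F) (hG : IsQh h G) :
    qExpansion h (F + G) = qExpansion h F + qExpansion h G :=
  qExpansion_add (hF.analyticAt hh) (hG.analyticAt hh)

theorem qxh_mul (hh : 0 < h) (hF : IsQh h F) (hG : IsQh h G) :
    qExpansion h (F * G) = qExpansion h F * qExpansion h G :=
  qExpansion_mul (hF.analyticAt hh) (hG.analyticAt hh)

theorem qxh_smul (hh : 0 < h) (c : ℂ) (hF : IsQh h F) :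
    qExpansion h (c • F) = c • qExpansion h F :=
  qExpansion_smul (hF.analyticAt hh) c

theorem qxh_neg (hh : 0 < h) (hF : IsQh h F) : qExpansion h (-F) = -qExpansion h F :=
  qExpansion_neg (hF.analyticAt hh)

theorem qxh_sub (hh : 0 < h) (hF : IsQh h F) (hG : IsQh h G) :
    qExpansion h (F - G) = qExpansion h F - qExpansion h G :=
  qExpansion_sub (hF.analyticAt hh) (hG.analyticAt hh)

theorem qxh_const (hh : 0 < h) (c : ℂ) : qExpansion h (fun _ : ℍ => c) = PowerSeries.C c := by
  have h1 : (fun _ : ℍ => c) = c • (1 : ℍ → ℂ) := by ext z; simp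
  rw [h1, qxh_smul hh c (IsQh.one h), qExpansion_one, PowerSeries.smul_eq_C_mul, mul_one]

theorem qxh_pow (hh : 0 < h) (hF : IsQh h F) (n : ℕ) :
    qExpansion h (F ^ n) = qExpansion h F ^ n := by
  induction n with
  | zero => simpa using qExpansion_one h
  | succ n ih => rw [pow_succ, qxh_mul hh (hF.pow n) hF, ih, pow_succ]

theorem qxh_sum (hh : 0 < h) {ι : Type*} (s : Finset ι) {F : ι → ℍ → ℂ}
    (hF : ∀ i ∈ s, IsQh h (F i)) :
    qExpansion h (∑ i ∈ s, F i) = ∑ i ∈ s, qExpansion h (F i) := by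
  classical
  induction s using Finset.induction_on with
  | empty => simpa using qExpansion_zero h
  | insert a s ha ih =>
    rw [Finset.sum_insert ha, Finset.sum_insert ha,
      qxh_add hh (hF a (Finset.mem_insert_self a s))
        (IsQh.sum s fun i hi => hF i (Finset.mem_insert_of_mem hi)),
      ih fun i hi => hF i (Finset.mem_insert_of_mem hi)]

theorem qxh_prod (hh : 0 < h) {ι : Type*} (s : Finset ι) {F : ι → ℍ → ℂ}
    (hF : ∀ i ∈ s, IsQh h (F i)) :
    qExpansion h (∏ i ∈ s, F i) = ∏ i ∈ s, qExpansion h (F i) :=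
  UpperHalfPlane.qExpansion_prod s fun i hi => (hF i hi).analyticAt hh

/-- `qExpansion h` is injective on `IsQh h`. -/
theorem qxh_injective (hh : 0 < h) (hF : IsQh h F) (hG : IsQh h G)
    (hFG : qExpansion h F = qExpansion h G) : F = G := by
  funext τ
  have h1 := hF.hasSum hh τ
  have h2 := hG.hasSum hh τ
  rw [hFG] at h1
  exact h1.unique h2

/-- Uniqueness of the coefficients, for plain functions. -/
theorem qxh_coeff_unique (hh : 0 < h) (hF : IsQh h F) {c : ℕ → ℂ}
    (hs : ∀ τ : ℍ, HasSum (fun m : ℕ => c m • Periodic.qParam h τ ^ m) (F τ)) (m : ℕ) :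
    c m = (qExpansion h F).coeff m :=
  UpperHalfPlane.qExpansion_coeff_unique (ContinuousMap.mk F hF.holo.continuous) hh
    (hF.analyticAt hh) hs m

end qxh

/-! ### A `1`-periodic function seen with period `p` -/

section NatPeriod

variable {p : ℕ} {F : ℍ → ℂ}

theorem isQh_nat_of_isQ (hF : IsQ F) (p : ℕ) : IsQh (p : ℝ) F where
  periodic := by
    have h1 := hF.periodic.nat_mul p
    simpa using h1
  holo := hF.holo
  bdd := hF.bdd

/-- `qExpansion p F = expand p (qExpansion 1 F)` for a `1`-periodic `F`. -/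
theorem qExpansion_nat_period (hp : p ≠ 0) (hF : IsQ F) :
    qExpansion (p : ℝ) F = PowerSeries.expand p hp (qExpansion 1 F) := by
  ext n
  have h1 := UpperHalfPlane.qExpansion_coeff_nat_mul (h := 1) one_pos
    (by simpa using hF.periodic) hF.holo hF.bdd (Nat.pos_of_ne_zero hp) n
  rw [mul_one] at h1
  rw [h1, PowerSeries.coeff_expand]

theorem expand_injective (hp : p ≠ 0) {R : Type*} [CommRing R] :
    Function.Injective (PowerSeries.expand p hp : PowerSeries R → PowerSeries R) := by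
  intro a b hab
  ext n
  have := congrArg (PowerSeries.coeff (p * n)) hab
  simpa using this

end NatPeriod

/-! ### The components `H ∣[k] heckeMatrix p j` of `U_p` -/

/-- `ζ_p = exp(2πi/p)`. -/
def zetaP (p : ℕ) : ℂ := Complex.exp (2 * π * Complex.I / p)

theorem isPrimitiveRoot_zetaP {p : ℕ} (hp : p ≠ 0) : IsPrimitiveRoot (zetaP p) p :=
  Complex.isPrimitiveRoot_exp p hp

theorem zetaP_pow_self {p : ℕ} (hp : p ≠ 0) : zetaP p ^ p = 1 :=
  (isPrimitiveRoot_zetaP hp).pow_eq_one

section Components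

variable {p : ℕ} {H : ℍ → ℂ}

theorem qParam_one_heckeMatrix_smul (hp : p ≠ 0) (j : ℕ) (τ : ℍ) :
    Periodic.qParam 1 ((heckeMatrix p j • τ : ℍ) : ℂ)
      = zetaP p ^ j * Periodic.qParam (p : ℝ) τ := by
  have hp' : (p : ℂ) ≠ 0 := by exact_mod_cast hp
  rw [zetaP, Periodic.qParam, Periodic.qParam, coe_heckeMatrix_smul hp, ← Complex.exp_nat_mul,
    ← Complex.exp_add]
  congr 1
  push_cast
  field_simp
  ring

/-- `(H ∣[k] heckeMatrix p j)(τ + 1) = (H ∣[k] heckeMatrix p (j + 1))(τ)`. -/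
theorem slash_heckeMatrix_vadd (k : ℤ) (hp : p ≠ 0) (j : ℕ) (τ : ℍ) :
    (H ∣[k] heckeMatrix p j) ((1 : ℝ) +ᵥ τ) = (H ∣[k] heckeMatrix p (j + 1)) τ := by
  rw [slash_heckeMatrix_apply k hp, slash_heckeMatrix_apply k hp]
  congr 2
  apply UpperHalfPlane.ext
  rw [coe_heckeMatrix_smul hp, coe_heckeMatrix_smul hp, coe_vadd]
  push_cast
  ring

/-- For `1`-periodic `H`: `H ∣[k] heckeMatrix p (j + p) = H ∣[k] heckeMatrix p j`. -/
theorem slash_heckeMatrix_add_self (k : ℤ) (hp : p ≠ 0) (hH : Periodic (H ∘ ofComplex) 1)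
    (j : ℕ) : H ∣[k] heckeMatrix p (j + p) = H ∣[k] heckeMatrix p j := by
  funext τ
  rw [slash_heckeMatrix_apply k hp, slash_heckeMatrix_apply k hp]
  congr 1
  have hp' : (p : ℂ) ≠ 0 := by exact_mod_cast hp
  have h1 : ((heckeMatrix p (j + p) • τ : ℍ) : ℂ) = ((heckeMatrix p j • τ : ℍ) : ℂ) + 1 := by
    rw [coe_heckeMatrix_smul hp, coe_heckeMatrix_smul hp]
    push_cast
    field_simp
    ring
  have h2 := hH ((heckeMatrix p j • τ : ℍ) : ℂ)
  simp only [comp_apply] at h2
  rw [← h1, ofComplex_apply, ofComplex_apply] at h2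
  exact h2

theorem slash_heckeMatrix_mod (k : ℤ) (hp : p ≠ 0) (hH : Periodic (H ∘ ofComplex) 1)
    (j : ℕ) : H ∣[k] heckeMatrix p (j % p) = H ∣[k] heckeMatrix p j := by
  induction j using Nat.strong_induction_on with
  | _ j ih =>
    rcases lt_or_ge j p with hj | hj
    · rw [Nat.mod_eq_of_lt hj]
    · obtain ⟨i, rfl⟩ := Nat.exists_eq_add_of_le' hj
      rw [Nat.add_mod_right, ih i (by omega), slash_heckeMatrix_add_self k hp hH]

theorem apply_eq_of_coe_eq_add_one (hH : Periodic (H ∘ ofComplex) 1) {τ₁ τ₂ : ℍ}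
    (h : (τ₁ : ℂ) = τ₂ + 1) : H τ₁ = H τ₂ := by
  have h2 := hH (τ₂ : ℂ)
  simp only [comp_apply] at h2
  rw [← h, ofComplex_apply, ofComplex_apply] at h2
  exact h2

theorem periodic_comp_ofComplex_of_vadd {g : ℍ → ℂ} {h : ℝ}
    (hg : ∀ τ : ℍ, g (h +ᵥ τ) = g τ) : Periodic (g ∘ ofComplex) h := by
  intro w
  by_cases hw : 0 < Complex.im w
  · have hw' : 0 < Complex.im (w + h) := by simp [hw]
    simp only [comp_apply, ofComplex_apply_of_im_pos hw', ofComplex_apply_of_im_pos hw]
    convert hg ⟨w, hw⟩ using 2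
    apply UpperHalfPlane.ext
    simp [add_comm]
  · have hw1 : Complex.im (w + h) ≤ 0 := by simpa using hw
    have hw0 : Complex.im w ≤ 0 := not_lt.mp hw
    simp only [comp_apply, ofComplex_apply_eq_of_im_nonpos hw1 hw0]

theorem heckeMatrix_one_zero' (p j : ℕ) :
    ((heckeMatrix p j : GL (Fin 2) ℝ) : Matrix (Fin 2) (Fin 2) ℝ) 1 0 = 0 := by
  rcases eq_or_ne p 0 with rfl | hp
  · simp
  · rw [val_heckeMatrix hp]; rfl

/-- The components of `U_p` are `p`-periodic, holomorphic, bounded at `i∞`. -/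
theorem isQh_slash_heckeMatrix (k : ℤ) (hp : p ≠ 0) (hH : IsQ H) (j : ℕ) :
    IsQh (p : ℝ) (H ∣[k] heckeMatrix p j) where
  periodic := by
    refine periodic_comp_ofComplex_of_vadd fun τ => ?_
    rw [slash_heckeMatrix_apply k hp, slash_heckeMatrix_apply k hp]
    congr 1
    refine apply_eq_of_coe_eq_add_one hH.periodic ?_
    have hp' : (p : ℂ) ≠ 0 := by exact_mod_cast hp
    rw [coe_heckeMatrix_smul hp, coe_heckeMatrix_smul hp, coe_vadd]
    push_cast
    field_simp
    ring
  holo := hH.holo.slash k _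
  bdd := hH.bdd.slash k (heckeMatrix_one_zero' p j)

theorem hasSum_slash_heckeMatrix (k : ℤ) (hp : p ≠ 0) (hH : IsQ H) (j : ℕ) (τ : ℍ) :
    HasSum (fun m : ℕ => ((zetaP p ^ j) ^ m * ((p : ℂ)⁻¹ * (qExpansion 1 H).coeff m)) •
      Periodic.qParam (p : ℝ) τ ^ m) ((H ∣[k] heckeMatrix p j) τ) := by
  rw [slash_heckeMatrix_apply k hp]
  have h1 := hasSum_qExpansion one_pos (by simpa using hH.periodic) hH.holo hH.bdd
    (heckeMatrix p j • τ)
  rw [qParam_one_heckeMatrix_smul hp] at h1
  have h2 := h1.mul_left ((p : ℂ)⁻¹)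
  have h3 : (fun m : ℕ => ((zetaP p ^ j) ^ m * ((p : ℂ)⁻¹ * (qExpansion 1 H).coeff m)) •
      Periodic.qParam (p : ℝ) τ ^ m) = fun i : ℕ => (p : ℂ)⁻¹ *
        ((qExpansion 1 H).coeff i • (zetaP p ^ j * Periodic.qParam (p : ℝ) τ) ^ i) := by
    funext m
    simp only [smul_eq_mul, mul_pow]
    ring
  rw [h3]
  exact h2

/-- **`q^{1/p}`-expansion of the `j`-th component of `U_p`.** -/
theorem qExpansion_slash_heckeMatrix (k : ℤ) (hp : p ≠ 0) (hH : IsQ H) (j : ℕ) :
    qExpansion (p : ℝ) (H ∣[k] heckeMatrix p j)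
      = PowerSeries.rescale (zetaP p ^ j) ((p : ℂ)⁻¹ • qExpansion 1 H) := by
  ext m
  rw [PowerSeries.coeff_rescale, PowerSeries.coeff_smul, smul_eq_mul]
  exact (qxh_coeff_unique (Nat.cast_pos.2 (Nat.pos_of_ne_zero hp))
    (isQh_slash_heckeMatrix k hp hH j) (hasSum_slash_heckeMatrix k hp hH j) m).symm

theorem coeff_qExpansion_slash_heckeMatrix (k : ℤ) (hp : p ≠ 0) (hH : IsQ H) (j m : ℕ) :
    (qExpansion (p : ℝ) (H ∣[k] heckeMatrix p j)).coeff m
      = (zetaP p ^ j) ^ m * ((p : ℂ)⁻¹ * (qExpansion 1 H).coeff m) := by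
  rw [qExpansion_slash_heckeMatrix k hp hH, PowerSeries.coeff_rescale, PowerSeries.coeff_smul,
    smul_eq_mul]

end Components

/-! ### The algebra of `IsQh h` functions and `qExpansion h` as an algebra homomorphism -/

/-- The subalgebra of functions satisfying `IsQh h`. -/
def qhRing (h : ℝ) : Subalgebra ℂ (ℍ → ℂ) where
  carrier := {F | IsQh h F}
  mul_mem' := IsQh.mul
  add_mem' := IsQh.add
  algebraMap_mem' c := IsQh.const h c

theorem mem_qhRing {h : ℝ} {F : ℍ → ℂ} : F ∈ qhRing h ↔ IsQh h F := Iff.rfl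

/-- `qExpansion h` as an algebra homomorphism on `qhRing h`. -/
def qxhHom (h : ℝ) (hh : 0 < h) : qhRing h →ₐ[ℂ] PowerSeries ℂ where
  toFun F := qExpansion h F.1
  map_one' := qExpansion_one h
  map_mul' F G := qxh_mul hh F.2 G.2
  map_zero' := qExpansion_zero h
  map_add' F G := qxh_add hh F.2 G.2
  commutes' c := by
    show qExpansion h (fun _ => c) = _
    rw [qxh_const hh]
    rfl

@[simp] theorem qxhHom_apply (h : ℝ) (hh : 0 < h) (F : qhRing h) :
    qxhHom h hh F = qExpansion h F.1 := rfl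

theorem qxhHom_injective (h : ℝ) (hh : 0 < h) : Function.Injective (qxhHom h hh) :=
  fun F G hFG => Subtype.ext (qxh_injective hh F.2 G.2 hFG)

/-! ### The characteristic polynomial of the `p` components of `U_p` -/

section CharPoly

open Polynomial

variable (k : ℤ) (p : ℕ) [NeZero p] (H : ℍ → ℂ)

/-- The `j`-th component of `U_p`, indexed by `Fin p`. -/
def conjF (j : Fin p) : ℍ → ℂ := H ∣[k] heckeMatrix p j.val

/-- `∏_{j<p} (X - H ∣[k] heckeMatrix p j)`, a polynomial with function coefficients. -/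
def chiU : Polynomial (ℍ → ℂ) := ∏ j : Fin p, (X - C (conjF k p H j))

/-- `∏_{j<p} (X - rescale (ζ_p^j) ψ)`, `ψ = p⁻¹ • qExpansion 1 H`: the formal characteristic
polynomial of the `p` conjugates of `ψ(q^{1/p})`. -/
def chiFormal (ψ : PowerSeries ℂ) : Polynomial (PowerSeries ℂ) :=
  ∏ j : Fin p, (X - C (PowerSeries.rescale (zetaP p ^ j.val) ψ))

variable {k p H}

theorem conjF_vadd (hH : IsQ H) (j : Fin p) (τ : ℍ) :
    conjF k p H j ((1 : ℝ) +ᵥ τ) = conjF k p H (j + 1) τ := by
  have hp : p ≠ 0 := NeZero.ne p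
  unfold conjF
  rw [slash_heckeMatrix_vadd k hp, ← slash_heckeMatrix_mod k hp hH.periodic (j.val + 1)]
  rw [Fin.val_add, Fin.val_one', Nat.add_mod_mod]

theorem isQh_conjF (hH : IsQ H) (j : Fin p) : IsQh (p : ℝ) (conjF k p H j) :=
  isQh_slash_heckeMatrix k (NeZero.ne p) hH j.val

theorem qExpansion_conjF (hH : IsQ H) (j : Fin p) :
    qExpansion (p : ℝ) (conjF k p H j)
      = PowerSeries.rescale (zetaP p ^ j.val) ((p : ℂ)⁻¹ • qExpansion 1 H) :=
  qExpansion_slash_heckeMatrix k (NeZero.ne p) hH j.val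

/-- The same polynomial with coefficients in the subalgebra `qhRing p`. -/
def chiB (hH : IsQ H) : Polynomial (qhRing (p : ℝ)) :=
  ∏ j : Fin p, (X - C (⟨conjF k p H j, isQh_conjF hH j⟩ : qhRing (p : ℝ)))

theorem map_val_chiB (hH : IsQ H) :
    (chiB (k := k) (p := p) hH).map ((qhRing (p : ℝ)).val : qhRing (p : ℝ) →+* (ℍ → ℂ))
      = chiU k p H := by
  unfold chiB chiU
  rw [Polynomial.map_prod]
  refine Finset.prod_congr rfl fun j _ => ?_
  rw [Polynomial.map_sub, Polynomial.map_X, Polynomial.map_C]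
  rfl

theorem map_qxhHom_chiB (hH : IsQ H) :
    (chiB (k := k) (p := p) hH).map
        ((qxhHom (p : ℝ) (Nat.cast_pos.2 (Nat.pos_of_ne_zero (NeZero.ne p)))) :
          qhRing (p : ℝ) →+* PowerSeries ℂ)
      = chiFormal p ((p : ℂ)⁻¹ • qExpansion 1 H) := by
  unfold chiB chiFormal
  rw [Polynomial.map_prod]
  refine Finset.prod_congr rfl fun j _ => ?_
  rw [Polynomial.map_sub, Polynomial.map_X, Polynomial.map_C]
  congr 2
  exact qExpansion_conjF hH j

/-- The coefficients of `chiU` are `p`-periodic, holomorphic, bounded at `i∞`. -/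
theorem isQh_coeff_chiU (hH : IsQ H) (i : ℕ) : IsQh (p : ℝ) ((chiU k p H).coeff i) := by
  rw [← map_val_chiB hH, Polynomial.coeff_map]
  exact ((chiB (k := k) (p := p) hH).coeff i).2

/-- Translation by `1` permutes the components, hence fixes the characteristic polynomial. -/
theorem coeff_chiU_vadd (hH : IsQ H) (i : ℕ) (τ : ℍ) :
    (chiU k p H).coeff i ((1 : ℝ) +ᵥ τ) = (chiU k p H).coeff i τ := by
  have key : ∀ σ : ℍ, ((chiU k p H).map (Pi.evalRingHom (fun _ : ℍ => ℂ) σ))
      = ∏ j : Fin p, (X - C (conjF k p H j σ)) := by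
    intro σ
    unfold chiU
    rw [Polynomial.map_prod]
    refine Finset.prod_congr rfl fun j _ => ?_
    rw [Polynomial.map_sub, Polynomial.map_X, Polynomial.map_C]
    rfl
  have h1 : (chiU k p H).map (Pi.evalRingHom (fun _ : ℍ => ℂ) ((1 : ℝ) +ᵥ τ))
      = (chiU k p H).map (Pi.evalRingHom (fun _ : ℍ => ℂ) τ) := by
    rw [key, key]
    simp only [conjF_vadd hH]
    exact Equiv.prod_comp (Equiv.addRight (1 : Fin p))
      (fun j => (X - C (conjF k p H j τ) : Polynomial ℂ))
  have h2 := congrArg (fun P : Polynomial ℂ => P.coeff i) h1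
  simpa [Polynomial.coeff_map] using h2

/-- **The coefficients of the characteristic polynomial of the components of `U_p` are
`1`-periodic.** -/
theorem isQ_coeff_chiU (hH : IsQ H) (i : ℕ) : IsQ ((chiU k p H).coeff i) where
  periodic := by
    have := periodic_comp_ofComplex_of_vadd (h := 1)
      (coeff_chiU_vadd (k := k) (p := p) (H := H) hH i)
    simpa using this
  holo := (isQh_coeff_chiU hH i).holo
  bdd := (isQh_coeff_chiU hH i).bdd

/-- **`q`-expansions of the coefficients of the characteristic polynomial**: they are the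
coefficients of the formal characteristic polynomial `∏_j (X - ψ(ζ^j q^{1/p}))`,
`ψ = p⁻¹ • qExpansion 1 H`, which therefore lie in `ℂ⟦q⟧ = ℂ⟦(q^{1/p})^p⟧`. -/
theorem expand_qx_coeff_chiU (hH : IsQ H) (i : ℕ) :
    PowerSeries.expand p (NeZero.ne p) (qx ((chiU k p H).coeff i))
      = (chiFormal p ((p : ℂ)⁻¹ • qExpansion 1 H)).coeff i := by
  rw [← map_qxhHom_chiB (k := k) hH, Polynomial.coeff_map, qx,
    ← qExpansion_nat_period (NeZero.ne p) (isQ_coeff_chiU hH i)]
  show _ = qExpansion (p : ℝ) ((chiB (k := k) (p := p) hH).coeff i).1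
  congr 1
  rw [← map_val_chiB hH, Polynomial.coeff_map]
  rfl

theorem map_eval_chiU (τ : ℍ) :
    (chiU k p H).map (Pi.evalRingHom (fun _ : ℍ => ℂ) τ)
      = ∏ j : Fin p, (X - C (conjF k p H j τ)) := by
  unfold chiU
  rw [Polynomial.map_prod]
  refine Finset.prod_congr rfl fun j _ => ?_
  rw [Polynomial.map_sub, Polynomial.map_X, Polynomial.map_C]
  rfl

theorem monic_chiU : (chiU k p H).Monic :=
  Polynomial.monic_prod_of_monic _ _ fun _ _ => Polynomial.monic_X_sub_C _

theorem natDegree_chiU : (chiU k p H).natDegree = p := by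
  unfold chiU
  rw [Polynomial.natDegree_prod_of_monic _ _ fun j _ => Polynomial.monic_X_sub_C _]
  simp

theorem monic_chiFormal (ψ : PowerSeries ℂ) : (chiFormal p ψ).Monic :=
  Polynomial.monic_prod_of_monic _ _ fun _ _ => Polynomial.monic_X_sub_C _

theorem natDegree_chiFormal (ψ : PowerSeries ℂ) : (chiFormal p ψ).natDegree = p := by
  unfold chiFormal
  rw [Polynomial.natDegree_prod_of_monic _ _ fun j _ => Polynomial.monic_X_sub_C _]
  simp

/-- The coefficients of the formal characteristic polynomial lie in `ℂ⟦q⟧ ⊆ ℂ⟦q^{1/p}⟧`: the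
polynomial over `ℂ⟦q⟧` whose coefficients are the `q`-expansions of the coefficients of `chiU`. -/
def chiQ (k : ℤ) (p : ℕ) [NeZero p] (H : ℍ → ℂ) : Polynomial (PowerSeries ℂ) :=
  ∑ i ∈ Finset.range (p + 1), Polynomial.monomial i (qx ((chiU k p H).coeff i))

theorem coeff_chiQ (i : ℕ) :
    (chiQ k p H).coeff i = if i ≤ p then qx ((chiU k p H).coeff i) else 0 := by
  unfold chiQ
  rw [Polynomial.finsetSum_coeff]
  simp only [Polynomial.coeff_monomial]
  rw [Finset.sum_ite_eq' (Finset.range (p + 1)) i]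
  simp

/-- **The formal characteristic polynomial descends to `ℂ⟦q⟧`.** -/
theorem map_expand_chiQ (hH : IsQ H) :
    (chiQ k p H).map ((PowerSeries.expand p (NeZero.ne p) : PowerSeries ℂ →ₐ[ℂ] PowerSeries ℂ) :
        PowerSeries ℂ →+* PowerSeries ℂ)
      = chiFormal p ((p : ℂ)⁻¹ • qExpansion 1 H) := by
  ext1 i
  rw [Polynomial.coeff_map, coeff_chiQ]
  split_ifs with hi
  · exact expand_qx_coeff_chiU hH i
  · rw [map_zero]
    symm
    exact Polynomial.coeff_eq_zero_of_natDegree_lt (by rw [natDegree_chiFormal]; omega)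

/-! ### Evaluating at a `1`-periodic function: the norm of `A - (conjugates)` -/

/-- `∏_{j<p} (A - H ∣[k] heckeMatrix p j)` is `1`-periodic for `1`-periodic `A`. -/
theorem isQ_prod_sub_conjF (hH : IsQ H) {A : ℍ → ℂ} (hA : IsQ A) :
    IsQ (∏ j : Fin p, (A - conjF k p H j)) := by
  have h1 : IsQh (p : ℝ) (∏ j : Fin p, (A - conjF k p H j)) :=
    IsQh.prod _ fun j _ => (isQh_nat_of_isQ hA p).sub (isQh_conjF hH j)
  refine ⟨?_, h1.holo, h1.bdd⟩
  have := periodic_comp_ofComplex_of_vadd (h := 1)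
    (g := ∏ j : Fin p, (A - conjF k p H j)) (fun τ => ?_)
  · simpa using this
  · have hAτ : A ((1 : ℝ) +ᵥ τ) = A τ :=
      apply_eq_of_coe_eq_add_one hA.periodic (by rw [coe_vadd]; push_cast; ring)
    simp only [Finset.prod_apply, Pi.sub_apply, conjF_vadd hH, hAτ]
    exact Equiv.prod_comp (Equiv.addRight (1 : Fin p)) (fun j => A τ - conjF k p H j τ)

/-- **`q`-expansion of the norm** `∏_{j<p} (A - H ∣[k] heckeMatrix p j)`:
`expand p` of it is `∏_j (a(q) - ψ(ζ^j q^{1/p}))`, `a = qx A`, `ψ = p⁻¹ • qx H`. -/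
theorem expand_qx_prod_sub_conjF (hH : IsQ H) {A : ℍ → ℂ} (hA : IsQ A) :
    PowerSeries.expand p (NeZero.ne p) (qx (∏ j : Fin p, (A - conjF k p H j)))
      = ∏ j : Fin p, (PowerSeries.expand p (NeZero.ne p) (qx A)
          - PowerSeries.rescale (zetaP p ^ j.val) ((p : ℂ)⁻¹ • qExpansion 1 H)) := by
  have hp : (0 : ℝ) < (p : ℝ) := Nat.cast_pos.2 (Nat.pos_of_ne_zero (NeZero.ne p))
  rw [qx, ← qExpansion_nat_period (NeZero.ne p) (isQ_prod_sub_conjF hH hA),
    qxh_prod hp _ fun j _ => (isQh_nat_of_isQ hA p).sub (isQh_conjF hH j)]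
  refine Finset.prod_congr rfl fun j _ => ?_
  rw [qxh_sub hp (isQh_nat_of_isQ hA p) (isQh_conjF hH j), qExpansion_nat_period (NeZero.ne p) hA,
    qExpansion_conjF hH j]
  rfl

end CharPoly

end Fermat.Agent.S16.Conjugates
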