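import Mathlib

/-!
# PROJECT E (S16), algebraic lemma: the norm of a power series for `R⟦t⟧ / R⟦t^p⟧`

`R` a commutative ring, `p ≠ 0`.  `R⟦X⟧` is free over its subring of power series in `X ^ p`
(`PowerSeries.expand p`) with basis `1, X, …, X^(p-1)`:

* `sect p i h` : the `i`-th `p`-section `∑_k c_{pk+i} X^k` of `h = ∑ c_n X^n`;
  `sum_X_pow_mul_expand_sect : ∑_{i<p} X^i * expand p (sect p i h) = h`, `sect_sum` (uniqueness);
* `mulMatrix p h` : the matrix of multiplication by `h` in that basis (entries in `R⟦X⟧`, to be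
  expanded), `mulMatrix_mul`, `mulMatrix_expand`, `mulMatrix_map`;
* `normP p h := det (mulMatrix p h)`: multiplicative, `normP (expand p K) = K ^ p`, commutes with
  base change (so `h ≡ expand p K mod I` gives `normP h ≡ K ^ p mod I`);
* `prod_rescale_eq`: over a domain containing a primitive `p`-th root of unity `ζ`,
  `∏_{j<p} h(ζ^j X) = (normP p h)(X^p)`.

Use: the product of the `p` conjugates `g((z+j)/p)` of a `q`-expansion `g ∈ R⟦q^{1/p}⟧` has
`q`-expansion `normP p g ∈ R⟦q⟧` (no denominators, no roots of unity).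
-/

set_option autoImplicit false
set_option linter.unusedSectionVars false

namespace Fermat.Agent.S16.PowerSeriesNorm

open PowerSeries Finset

variable {R : Type*} [CommRing R] (p : ℕ) (hp : p ≠ 0)

/-- the `i`-th `p`-section `∑_k c_{pk+i} X^k` -/
noncomputable def sect (i : ℕ) (h : R⟦X⟧) : R⟦X⟧ := PowerSeries.mk fun k => coeff (p * k + i) h

@[simp]
theorem coeff_sect (i k : ℕ) (h : R⟦X⟧) : coeff k (sect p i h) = coeff (p * k + i) h :=
  coeff_mk _ _

include hp in
theorem coeff_X_pow_mul_expand {i : ℕ} (hi : i < p) (n : ℕ) (a : R⟦X⟧) :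
    coeff n (X ^ i * expand p hp a) = if n % p = i then coeff (n / p) a else 0 := by
  rw [coeff_X_pow_mul', coeff_expand]
  by_cases h : n % p = i
  · have h1 : i ≤ n := h ▸ Nat.mod_le n p
    have h2 : n - i = p * (n / p) := by
      have := Nat.div_add_mod n p
      omega
    rw [if_pos h, if_pos h1, if_pos ⟨n / p, h2⟩, h2, Nat.mul_div_cancel_left _ (Nat.pos_of_ne_zero hp)]
  · rw [if_neg h]
    split_ifs with h1 h2
    · exfalso
      obtain ⟨m, hm⟩ := h2
      apply h
      have : n = p * m + i := by omega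
      rw [this, Nat.mul_add_mod, Nat.mod_eq_of_lt hi]
    · rfl
    · rfl

include hp in
/-- the decomposition of a power series along the basis `1, X, …, X^(p-1)` -/
theorem sum_X_pow_mul_expand_sect (h : R⟦X⟧) :
    ∑ i ∈ range p, X ^ i * expand p hp (sect p i h) = h := by
  ext n
  rw [map_sum]
  rw [Finset.sum_congr rfl (fun i hi => coeff_X_pow_mul_expand p hp (mem_range.mp hi) n _)]
  rw [Finset.sum_ite_eq (range p) (n % p)]
  rw [if_pos (mem_range.mpr (Nat.mod_lt n (Nat.pos_of_ne_zero hp))), coeff_sect, Nat.div_add_mod]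

include hp in
/-- uniqueness of the decomposition -/
theorem sect_sum (a : ℕ → R⟦X⟧) {j : ℕ} (hj : j < p) :
    sect p j (∑ i ∈ range p, X ^ i * expand p hp (a i)) = a j := by
  ext k
  rw [coeff_sect, map_sum]
  rw [Finset.sum_congr rfl (fun i hi => coeff_X_pow_mul_expand p hp (mem_range.mp hi) _ _)]
  rw [Finset.sum_ite_eq (range p) ((p * k + j) % p)]
  rw [if_pos (mem_range.mpr (Nat.mod_lt _ (Nat.pos_of_ne_zero hp)))]
  rw [Nat.mul_add_mod, Nat.mod_eq_of_lt hj, Nat.mul_add_div (Nat.pos_of_ne_zero hp),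
    Nat.div_eq_of_lt hj, add_zero]

/-- the matrix of multiplication by `h` on `R⟦X⟧` over `R⟦X^p⟧` in the basis `1, …, X^(p-1)` -/
noncomputable def mulMatrix (h : R⟦X⟧) : Matrix (Fin p) (Fin p) R⟦X⟧ :=
  Matrix.of fun k i => sect p (k : ℕ) (X ^ (i : ℕ) * h)

include hp in
theorem X_pow_mul_eq (h : R⟦X⟧) (i : Fin p) :
    X ^ (i : ℕ) * h = ∑ k : Fin p, X ^ (k : ℕ) * expand p hp (mulMatrix p h k i) := by
  have h1 := sum_X_pow_mul_expand_sect p hp (X ^ (i : ℕ) * h)
  rw [Finset.sum_range] at h1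
  exact h1.symm

include hp in
theorem mulMatrix_unique (h : R⟦X⟧) (N : Matrix (Fin p) (Fin p) R⟦X⟧)
    (hN : ∀ i : Fin p, X ^ (i : ℕ) * h = ∑ k : Fin p, X ^ (k : ℕ) * expand p hp (N k i)) :
    mulMatrix p h = N := by
  refine Matrix.ext fun k i => ?_
  change sect p (k : ℕ) (X ^ (i : ℕ) * h) = N k i
  rw [hN i]
  have h1 : ∑ k : Fin p, X ^ (k : ℕ) * expand p hp (N k i) =
      ∑ m ∈ range p, X ^ m * expand p hp (if hm : m < p then N ⟨m, hm⟩ i else 0) := by
    rw [← Fin.sum_univ_eq_sum_range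
      (fun m => X ^ m * expand p hp (if hm : m < p then N ⟨m, hm⟩ i else 0)) p]
    refine Finset.sum_congr rfl fun m _ => ?_
    rw [dif_pos m.2]
  rw [h1, sect_sum p hp _ k.2, dif_pos k.2]

include hp in
theorem mulMatrix_mul (g h : R⟦X⟧) : mulMatrix p (g * h) = mulMatrix p h * mulMatrix p g := by
  refine mulMatrix_unique p hp _ _ fun i => ?_
  rw [← mul_assoc, X_pow_mul_eq p hp g i, Finset.sum_mul]
  have h1 : ∀ k : Fin p, X ^ (k : ℕ) * expand p hp (mulMatrix p g k i) * h =
      ∑ m : Fin p, X ^ (m : ℕ) * expand p hp (mulMatrix p h m k * mulMatrix p g k i) := by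
    intro k
    rw [mul_right_comm, X_pow_mul_eq p hp h k, Finset.sum_mul]
    refine Finset.sum_congr rfl fun m _ => ?_
    rw [map_mul, mul_assoc]
  rw [Finset.sum_congr rfl (fun k _ => h1 k), Finset.sum_comm]
  refine Finset.sum_congr rfl fun m _ => ?_
  rw [Matrix.mul_apply, map_sum, Finset.mul_sum]

include hp in
theorem mulMatrix_expand (K : R⟦X⟧) :
    mulMatrix p (expand p hp K) = Matrix.diagonal (fun _ : Fin p => K) := by
  refine mulMatrix_unique p hp _ _ fun i => ?_
  rw [Finset.sum_eq_single i]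
  · rw [Matrix.diagonal_apply_eq]
  · intro k _ hk
    rw [Matrix.diagonal_apply_ne _ hk, map_zero, mul_zero]
  · intro h
    exact absurd (Finset.mem_univ i) h

theorem mulMatrix_map {S : Type*} [CommRing S] (φ : R →+* S) (h : R⟦X⟧) :
    mulMatrix p (map φ h) = (mulMatrix p h).map (map φ) := by
  refine Matrix.ext fun k i => ?_
  change sect p (k : ℕ) (X ^ (i : ℕ) * map φ h) = map φ (sect p (k : ℕ) (X ^ (i : ℕ) * h))
  have h1 : map φ (X ^ (i : ℕ) * h) = X ^ (i : ℕ) * map φ h := by
    rw [map_mul, map_pow, map_X]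
  ext n
  rw [coeff_sect, coeff_map, coeff_sect, ← h1, coeff_map]

/-- **the norm** of `h` for `R⟦X⟧ / R⟦X^p⟧`, as a power series in the variable `X^p` -/
noncomputable def normP (h : R⟦X⟧) : R⟦X⟧ := (mulMatrix p h).det

include hp in
theorem normP_mul (g h : R⟦X⟧) : normP p (g * h) = normP p g * normP p h := by
  rw [normP, mulMatrix_mul p hp, Matrix.det_mul, mul_comm]
  rfl

include hp in
theorem normP_expand (K : R⟦X⟧) : normP p (expand p hp K) = K ^ p := by
  rw [normP, mulMatrix_expand p hp, Matrix.det_diagonal, Finset.prod_const, Finset.card_univ,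
    Fintype.card_fin]

include hp in
theorem normP_one : normP p (1 : R⟦X⟧) = 1 := by
  have := normP_expand p hp (1 : R⟦X⟧)
  rwa [map_one, one_pow] at this

theorem normP_map {S : Type*} [CommRing S] (φ : R →+* S) (h : R⟦X⟧) :
    normP p (map φ h) = map φ (normP p h) := by
  rw [normP, mulMatrix_map, normP, RingHom.map_det]
  rfl

include hp in
/-- if `h` is congruent to a series in `X^p` modulo an ideal, its norm is congruent to the `p`-th
power (stated with a ring homomorphism `φ`, e.g. `R → R ⧸ I`) -/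
theorem normP_map_of_map_eq_expand {S : Type*} [CommRing S] (φ : R →+* S) (h : R⟦X⟧) (K : S⟦X⟧)
    (hK : map φ h = expand p hp K) : map φ (normP p h) = K ^ p := by
  rw [← normP_map, hK, normP_expand]

/-! ### The product formula -/

section Product

variable [IsDomain R] {ζ : R}

include hp in
theorem rescale_expand_of_pow_eq_one {a : R} (ha : a ^ p = 1) (f : R⟦X⟧) :
    rescale a (expand p hp f) = expand p hp f := by
  ext n
  rw [coeff_rescale, coeff_expand]
  split_ifs with h
  · obtain ⟨m, rfl⟩ := h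
    rw [pow_mul, ha, one_pow, one_mul]
  · rw [mul_zero]

/-- the Vandermonde matrix of the conjugates of the basis -/
noncomputable def vand (ζ : R) : Matrix (Fin p) (Fin p) R⟦X⟧ :=
  Matrix.vandermonde (fun j : Fin p => C (ζ ^ (j : ℕ)) * X)

theorem det_vand_ne_zero (hζ : IsPrimitiveRoot ζ p) : (vand p ζ).det ≠ 0 := by
  rw [vand, Matrix.det_vandermonde]
  refine Finset.prod_ne_zero_iff.mpr fun i _ => Finset.prod_ne_zero_iff.mpr fun j hj => ?_
  rw [← sub_mul, ← map_sub]
  refine mul_ne_zero ?_ X_ne_zero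
  rw [Ne, map_eq_zero_iff _ (C_injective), sub_eq_zero]
  intro h
  have hij : (j : ℕ) = (i : ℕ) := hζ.pow_inj j.2 i.2 h
  exact (ne_of_gt (Finset.mem_Ioi.mp hj)) (Fin.ext hij)

include hp in
theorem vand_mul (hζ : IsPrimitiveRoot ζ p) (h : R⟦X⟧) :
    vand p ζ * (mulMatrix p h).map (expand p hp) =
      Matrix.diagonal (fun j : Fin p => rescale (ζ ^ (j : ℕ)) h) * vand p ζ := by
  ext j i
  rw [Matrix.mul_apply, Matrix.diagonal_mul]
  have h1 : ∀ k : Fin p, vand p ζ j k * ((mulMatrix p h).map (expand p hp)) k i =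
      rescale (ζ ^ (j : ℕ)) (X ^ (k : ℕ) * expand p hp (mulMatrix p h k i)) := by
    intro k
    rw [map_mul, map_pow, rescale_X, rescale_expand_of_pow_eq_one p hp
      (by rw [← pow_mul, mul_comm, pow_mul, hζ.pow_eq_one, one_pow])]
    rfl
  rw [Finset.sum_congr rfl (fun k _ => h1 k), ← map_sum, ← X_pow_mul_eq p hp h i, map_mul, map_pow,
    rescale_X, mul_comm]
  rfl

include hp in
/-- **the product of the conjugates is the norm**: `∏_{j<p} h(ζ^j X) = (normP p h)(X^p)` -/
theorem prod_rescale_eq (hζ : IsPrimitiveRoot ζ p) (h : R⟦X⟧) :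
    ∏ j : Fin p, rescale (ζ ^ (j : ℕ)) h = expand p hp (normP p h) := by
  have h1 := congrArg Matrix.det (vand_mul p hp hζ h)
  rw [Matrix.det_mul, Matrix.det_mul, Matrix.det_diagonal, mul_comm] at h1
  have h2 : ((mulMatrix p h).map (expand p hp)).det = expand p hp (normP p h) := by
    rw [normP]
    exact ((expand p hp (R := R)).toRingHom.map_det (mulMatrix p h)).symm
  rw [h2] at h1
  exact (mul_right_cancel₀ (det_vand_ne_zero p hζ) h1).symm

/-- if `V * M = N * V` with `det V ≠ 0` over a domain, `M` and `N` have the same characteristic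
polynomial -/
theorem charpoly_eq_of_mul_eq {A : Type*} [CommRing A] [IsDomain A] {n : Type*} [Fintype n]
    [DecidableEq n] (V M N : Matrix n n A) (hV : V.det ≠ 0) (h : V * M = N * V) :
    M.charpoly = N.charpoly := by
  have h1 : (Polynomial.C : A →+* Polynomial A).mapMatrix V * Matrix.charmatrix M =
      Matrix.charmatrix N * (Polynomial.C : A →+* Polynomial A).mapMatrix V := by
    rw [Matrix.charmatrix, Matrix.charmatrix, mul_sub, sub_mul, ← map_mul, ← map_mul, h]
    congr 1
    exact ((Matrix.scalar_commute (Polynomial.X : Polynomial A) (fun r' => Commute.all _ _) _)).symm.eq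
  have h2 := congrArg Matrix.det h1
  rw [Matrix.det_mul, Matrix.det_mul, mul_comm] at h2
  have h3 : ((Polynomial.C : A →+* Polynomial A).mapMatrix V).det ≠ 0 := by
    rw [← RingHom.map_det]
    exact (map_ne_zero_iff _ Polynomial.C_injective).mpr hV
  exact mul_right_cancel₀ h3 h2

include hp in
/-- **the characteristic polynomial of the conjugates**:
`∏_{j<p} (Y - h(ζ^j X)) = (charpoly (mulMatrix p h))(X^p)` (coefficientwise `expand p`) -/
theorem prod_X_sub_C_rescale_eq (hζ : IsPrimitiveRoot ζ p) (h : R⟦X⟧) :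
    ∏ j : Fin p, (Polynomial.X - Polynomial.C (rescale (ζ ^ (j : ℕ)) h)) =
      ((mulMatrix p h).charpoly).map (expand p hp (R := R)).toRingHom := by
  rw [← Matrix.charpoly_map, ← Matrix.charpoly_diagonal]
  exact (charpoly_eq_of_mul_eq _ _ _ (det_vand_ne_zero p hζ) (vand_mul p hp hζ h)).symm

end Product

/-! ### Linearity of `mulMatrix`, scalars, trace, constant term -/

theorem sect_add (i : ℕ) (g h : R⟦X⟧) : sect p i (g + h) = sect p i g + sect p i h := by
  ext k
  rw [coeff_sect, map_add, map_add, coeff_sect, coeff_sect]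

theorem mulMatrix_add (g h : R⟦X⟧) : mulMatrix p (g + h) = mulMatrix p g + mulMatrix p h := by
  refine Matrix.ext fun k i => ?_
  change sect p (k : ℕ) (X ^ (i : ℕ) * (g + h)) =
    sect p (k : ℕ) (X ^ (i : ℕ) * g) + sect p (k : ℕ) (X ^ (i : ℕ) * h)
  rw [mul_add, sect_add]

include hp in
theorem mulMatrix_expand_mul (K h : R⟦X⟧) :
    mulMatrix p (expand p hp K * h) = K • mulMatrix p h := by
  rw [mulMatrix_mul p hp, mulMatrix_expand p hp]
  refine Matrix.ext fun k i => ?_
  rw [Matrix.mul_diagonal, Matrix.smul_apply, smul_eq_mul, mul_comm]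

include hp in
theorem mulMatrix_C_mul (c : R) (h : R⟦X⟧) :
    mulMatrix p (C c * h) = (C c : R⟦X⟧) • mulMatrix p h := by
  have h1 : (C c : R⟦X⟧) = expand p hp (C c) := by
    rw [← algebraMap_eq, AlgHom.commutes]
  conv_lhs => rw [h1]
  exact mulMatrix_expand_mul p hp _ _

include hp in
theorem mulMatrix_one : mulMatrix p (1 : R⟦X⟧) = 1 := by
  have := mulMatrix_expand p hp (1 : R⟦X⟧)
  rwa [map_one, Matrix.diagonal_one] at this

include hp in
/-- the characteristic polynomial of a series in `X ^ p` -/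
theorem charpoly_mulMatrix_expand (K : R⟦X⟧) :
    (mulMatrix p (expand p hp K)).charpoly = (Polynomial.X - Polynomial.C K) ^ p := by
  rw [mulMatrix_expand p hp, Matrix.charpoly_diagonal, Finset.prod_const, Finset.card_univ,
    Fintype.card_fin]

theorem charpoly_mulMatrix_map {S : Type*} [CommRing S] (φ : R →+* S) (h : R⟦X⟧) :
    (mulMatrix p (map φ h)).charpoly = (mulMatrix p h).charpoly.map (map φ) := by
  rw [mulMatrix_map, Matrix.charpoly_map]

include hp in
/-- if `h ≡ K(X^p)` modulo an ideal, the characteristic polynomial of `h` is `≡ (Y - K)^p` -/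
theorem charpoly_map_of_map_eq_expand {S : Type*} [CommRing S] (φ : R →+* S) (h : R⟦X⟧)
    (K : S⟦X⟧) (hK : map φ h = expand p hp K) :
    (mulMatrix p h).charpoly.map (map φ) = (Polynomial.X - Polynomial.C K) ^ p := by
  rw [← charpoly_mulMatrix_map, hK, charpoly_mulMatrix_expand]

theorem sect_X_pow_mul {k : ℕ} (h : R⟦X⟧) : sect p k (X ^ k * h) = sect p 0 h := by
  ext n
  rw [coeff_sect, coeff_sect, coeff_X_pow_mul', if_pos (Nat.le_add_left _ _), Nat.add_sub_cancel,
    add_zero]

/-- the trace of `h` for `R⟦X⟧ / R⟦X^p⟧` -/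
theorem trace_mulMatrix (h : R⟦X⟧) : (mulMatrix p h).trace = (p : R⟦X⟧) * sect p 0 h := by
  rw [Matrix.trace]
  have h1 : ∀ i : Fin p, Matrix.diag (mulMatrix p h) i = sect p 0 h := fun i =>
    sect_X_pow_mul p h
  rw [Finset.sum_congr rfl (fun i _ => h1 i), Finset.sum_const, Finset.card_univ, Fintype.card_fin,
    nsmul_eq_mul]

/-- the constant coefficients of `mulMatrix p h` form a lower triangular matrix with diagonal
`h(0)` -/
theorem constantCoeff_mulMatrix (h : R⟦X⟧) (k i : Fin p) :
    constantCoeff (mulMatrix p h k i) = if (i : ℕ) ≤ (k : ℕ) then coeff ((k : ℕ) - (i : ℕ)) h else 0 := by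
  change constantCoeff (sect p (k : ℕ) (X ^ (i : ℕ) * h)) = _
  rw [← coeff_zero_eq_constantCoeff_apply, coeff_sect, mul_zero, zero_add, coeff_X_pow_mul']

theorem constantCoeff_normP (h : R⟦X⟧) :
    constantCoeff (normP p h) = (constantCoeff h) ^ p := by
  rw [normP, RingHom.map_det]
  rw [Matrix.det_of_isLowerTriangular]
  · have h1 : ∀ i : Fin p, (constantCoeff (R := R)).mapMatrix (mulMatrix p h) i i =
        constantCoeff h := by
      intro i
      change constantCoeff (mulMatrix p h i i) = _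
      rw [constantCoeff_mulMatrix, if_pos le_rfl, Nat.sub_self, coeff_zero_eq_constantCoeff_apply]
    rw [Finset.prod_congr rfl (fun i _ => h1 i), Finset.prod_const, Finset.card_univ,
      Fintype.card_fin]
  · intro k i hki
    change constantCoeff (mulMatrix p h k i) = 0
    have hki' : (k : ℕ) < (i : ℕ) := Fin.lt_def.mp (OrderDual.toDual_lt_toDual.mp hki)
    rw [constantCoeff_mulMatrix, if_neg (not_le.mpr hki')]

include hp in
theorem isUnit_normP {h : R⟦X⟧} (hh : IsUnit h) : IsUnit (normP p h) := by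
  obtain ⟨u, rfl⟩ := hh
  refine IsUnit.of_mul_eq_one (normP p ((u⁻¹ : R⟦X⟧ˣ) : R⟦X⟧)) ?_
  rw [← normP_mul p hp, Units.mul_inv, normP_one p hp]

section Product

variable [IsDomain R] {ζ : R}

include hp in
/-- the product of the conjugates of `h`, shifted by a series in `X ^ p` -/
theorem prod_rescale_sub_expand_eq (hζ : IsPrimitiveRoot ζ p) (h a : R⟦X⟧) :
    ∏ j : Fin p, (rescale (ζ ^ (j : ℕ)) h - expand p hp a) =
      expand p hp (normP p (h - expand p hp a)) := by
  rw [← prod_rescale_eq p hp hζ]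
  refine Finset.prod_congr rfl fun j _ => ?_
  rw [map_sub, rescale_expand_of_pow_eq_one p hp
    (by rw [← pow_mul, mul_comm, pow_mul, hζ.pow_eq_one, one_pow])]

include hp in
/-- the sum of the conjugates is the trace -/
theorem sum_rescale_eq (hζ : IsPrimitiveRoot ζ p) (h : R⟦X⟧) :
    ∑ j : Fin p, rescale (ζ ^ (j : ℕ)) h = expand p hp ((p : R⟦X⟧) * sect p 0 h) := by
  ext n
  rw [map_sum, coeff_expand]
  have h1 : ∀ j : Fin p, coeff n (rescale (ζ ^ (j : ℕ)) h) = (ζ ^ n) ^ (j : ℕ) * coeff n h := by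
    intro j
    rw [coeff_rescale, ← pow_mul, ← pow_mul, Nat.mul_comm n]
  rw [Finset.sum_congr rfl (fun j _ => h1 j), ← Finset.sum_mul,
    Fin.sum_univ_eq_sum_range (fun j => (ζ ^ n) ^ j) p]
  split_ifs with hn
  · obtain ⟨m, rfl⟩ := hn
    rw [pow_mul, hζ.pow_eq_one, one_pow]
    simp only [one_pow, Finset.sum_const, Finset.card_range, nsmul_eq_mul, mul_one]
    rw [Nat.mul_div_cancel_left _ (Nat.pos_of_ne_zero hp), ← map_natCast (C (R := R)), coeff_C_mul,
      coeff_sect, add_zero]
  · have h2 : ζ ^ n - 1 ≠ 0 := by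
      rw [sub_ne_zero]
      intro h3
      exact hn ((hζ.pow_eq_one_iff_dvd n).mp h3)
    have h3 : (ζ ^ n - 1) * ∑ j ∈ range p, (ζ ^ n) ^ j = 0 := by
      rw [mul_geom_sum, ← pow_mul, mul_comm, pow_mul, hζ.pow_eq_one, one_pow, sub_self]
    rw [(mul_eq_zero.mp h3).resolve_left h2, zero_mul]

end Product

end Fermat.Agent.S16.PowerSeriesNorm
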