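/-
PROJECT E (S16), slice E-TR, part (TR1) (helper27): the cosets of `Γ₀(p)` in `SL(2, ℤ)`, explicitly.

For `p` prime the `p + 1` left cosets of `Γ₀(p)` in `SL(2, ℤ)` are represented by `1` and
`(S T^j)⁻¹`, `0 ≤ j < p`; so the translates (`S20.tr`, Mathlib's `quotientFunc`) of a
`Γ₀(p)`-invariant function `f` of weight `k` are `f` and `f ∣[k] (S T^j)`.

* `cosetEquiv p : Option (Fin p) ≃ S20.Q p`;
* `tr_cosetEquiv_none`, `tr_cosetEquiv_some`;
* `sum_tr`, `prod_tr` (sums and products over the cosets), `card_Q`.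
-/
import Mathlib
import Fermat.Agent.S20.Translates
import Fermat.Agent.S20.CountBridge
import Fermat.Agent.S20.CountModel

set_option autoImplicit false

noncomputable section

namespace Fermat.Agent.S16.Trace

open UpperHalfPlane SlashInvariantForm CongruenceSubgroup ModularGroup
open Fermat.Agent.S20 Fermat.Agent.S20.CountBridge Fermat.Agent.S20.Count

open scoped ModularForm Manifold MatrixGroups

/-- Representatives (in `SL(2, ℤ)`) of the left cosets of `Γ₀(p)`: `1` and `(S T^j)⁻¹`. -/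
def cosetRep (p : ℕ) : Option (Fin p) → SL(2, ℤ)
  | none => 1
  | some j => (S * T ^ (j : ℕ))⁻¹

@[simp] theorem cosetRep_none (p : ℕ) : cosetRep p none = 1 := rfl

@[simp] theorem cosetRep_some (p : ℕ) (j : Fin p) :
    cosetRep p (some j) = (S * T ^ (j : ℕ))⁻¹ := rfl

theorem coe_T_pow (j : ℕ) :
    ((T ^ j : SL(2, ℤ)) : Matrix (Fin 2) (Fin 2) ℤ) = !![1, (j : ℤ); 0, 1] := by
  have := ModularGroup.coe_T_zpow (j : ℤ)
  rwa [zpow_natCast] at this

theorem coe_ST_pow (j : ℕ) :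
    ((S * T ^ j : SL(2, ℤ)) : Matrix (Fin 2) (Fin 2) ℤ) = !![0, -1; 1, (j : ℤ)] := by
  rw [Matrix.SpecialLinearGroup.coe_mul, coe_T_pow j]
  simp [S]

theorem col_cosetRep_none (p : ℕ) : col p (cosetRep p none) = (1, 0) := by
  simp [col]

theorem col_cosetRep_some (p : ℕ) (j : Fin p) :
    col p (cosetRep p (some j)) = (((j : ℕ) : ZMod p), -1) := by
  have h : ((cosetRep p (some j) : SL(2, ℤ)) : Matrix (Fin 2) (Fin 2) ℤ) =
      !![((j : ℕ) : ℤ), 1; -1, 0] := by
    rw [cosetRep_some, Matrix.SpecialLinearGroup.coe_inv, coe_ST_pow, Matrix.adjugate_fin_two_of]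
    simp
  simp only [col]
  rw [h]
  simp

variable (p : ℕ) [Fact p.Prime]

/-- The coset of a representative, in `SL(2, ℤ) ⧸ Γ₀(p)`. -/
def cosetMap0 (c : Option (Fin p)) : SL(2, ℤ) ⧸ Gamma0 p :=
  ((cosetRep p c : SL(2, ℤ)) : SL(2, ℤ) ⧸ Gamma0 p)

theorem cosetMap0_injective : Function.Injective (cosetMap0 p) := by
  intro c c' h
  have h' : (cosetRep p c)⁻¹ * cosetRep p c' ∈ Gamma0 p := QuotientGroup.eq.mp h
  rw [inv_mul_mem_Gamma0_iff] at h'
  rcases c with _ | i <;> rcases c' with _ | j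
  · rfl
  · exfalso
    rw [col_cosetRep_none, col_cosetRep_some] at h'
    simp [cross] at h'
  · exfalso
    rw [col_cosetRep_none, col_cosetRep_some] at h'
    simp [cross] at h'
  · rw [col_cosetRep_some, col_cosetRep_some] at h'
    simp only [cross] at h'
    have h2 : (((i : ℕ) : ZMod p)) = ((j : ℕ) : ZMod p) := by linear_combination -h'
    have h3 := (ZMod.natCast_eq_natCast_iff' _ _ _).mp h2
    rw [Nat.mod_eq_of_lt i.2, Nat.mod_eq_of_lt j.2] at h3
    exact congrArg some (Fin.ext h3)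

theorem cosetMap0_surjective : Function.Surjective (cosetMap0 p) := by
  intro x
  induction x using QuotientGroup.induction_on with
  | H g =>
    by_cases hc : (col p g).2 = 0
    · refine ⟨none, ?_⟩
      refine QuotientGroup.eq.mpr ?_
      rw [inv_mul_mem_Gamma0_iff, col_cosetRep_none]
      simp [cross, hc]
    · let j : ZMod p := -(col p g).1 / (col p g).2
      have hj : j.val < p := ZMod.val_lt j
      refine ⟨some ⟨j.val, hj⟩, ?_⟩
      refine QuotientGroup.eq.mpr ?_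
      rw [inv_mul_mem_Gamma0_iff, col_cosetRep_some]
      simp only [cross, ZMod.natCast_val, ZMod.cast_id', id_eq]
      show j * (col p g).2 - -1 * (col p g).1 = 0
      simp only [j]
      field_simp
      ring

/-- **The cosets of `Γ₀(p)` in `SL(2, ℤ)`**: `1` and `(S T^j)⁻¹`, `j < p`. -/
def cosetEquiv : Option (Fin p) ≃ Q p :=
  (Equiv.ofBijective (cosetMap0 p) ⟨cosetMap0_injective p, cosetMap0_surjective p⟩).trans
    (quotEquiv p)

theorem cosetEquiv_apply (c : Option (Fin p)) :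
    cosetEquiv p c = ((sl (cosetRep p c) : 𝒮ℒ) : Q p) := rfl

theorem card_Q : Nat.card (Q p) = p + 1 := by
  rw [← Nat.card_congr (cosetEquiv p)]
  simp

variable {p}

/-- The translate attached to a coset, for a `Γ₀(p)`-invariant function. -/
theorem tr_cosetEquiv {k : ℤ} {f : ℍ → ℂ} (hf : IsMF (G0 p) k f) (c : Option (Fin p)) :
    tr k f (cosetEquiv p c) = f ∣[k] (cosetRep p c)⁻¹ := by
  obtain ⟨F, rfl⟩ := hf
  rw [← quotientFunc_eq_tr, cosetEquiv_apply]
  show quotientFunc F (⟦sl (cosetRep p c)⟧ : Q p) = _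
  rw [quotientFunc_mk, ModularForm.SL_slash, map_inv]
  rfl

theorem tr_cosetEquiv_none {k : ℤ} {f : ℍ → ℂ} (hf : IsMF (G0 p) k f) :
    tr k f (cosetEquiv p none) = f := by
  rw [tr_cosetEquiv hf, cosetRep_none, inv_one, SlashAction.slash_one]

theorem tr_cosetEquiv_some {k : ℤ} {f : ℍ → ℂ} (hf : IsMF (G0 p) k f) (j : Fin p) :
    tr k f (cosetEquiv p (some j)) = f ∣[k] (S * T ^ (j : ℕ)) := by
  rw [tr_cosetEquiv hf, cosetRep_some, inv_inv]

/-- Sums over the cosets of `Γ₀(p)`. -/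
theorem sum_tr {M : Type*} [AddCommMonoid M] (Φ : (ℍ → ℂ) → M) {k : ℤ} {f : ℍ → ℂ}
    (hf : IsMF (G0 p) k f) :
    ∑ q : Q p, Φ (tr k f q) = Φ f + ∑ j : Fin p, Φ (f ∣[k] (S * T ^ (j : ℕ))) := by
  rw [← Equiv.sum_comp (cosetEquiv p), Fintype.sum_option, tr_cosetEquiv_none hf]
  congr 1
  exact Finset.sum_congr rfl fun j _ => by rw [tr_cosetEquiv_some hf]

/-- Products over the cosets of `Γ₀(p)`. -/
theorem prod_tr {M : Type*} [CommMonoid M] (Φ : (ℍ → ℂ) → M) {k : ℤ} {f : ℍ → ℂ}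
    (hf : IsMF (G0 p) k f) :
    ∏ q : Q p, Φ (tr k f q) = Φ f * ∏ j : Fin p, Φ (f ∣[k] (S * T ^ (j : ℕ))) := by
  rw [← Equiv.prod_comp (cosetEquiv p), Fintype.prod_option, tr_cosetEquiv_none hf]
  congr 1
  exact Finset.prod_congr rfl fun j _ => by rw [tr_cosetEquiv_some hf]

/-- The trace to level one of a `Γ₀(p)`-form, as a function. -/
theorem coe_trace_eq {k : ℤ} (F : ModularForm (G0 p) k) :
    ⇑(ModularForm.trace 𝒮ℒ F) = ⇑F + ∑ j : Fin p, (⇑F) ∣[k] (S * T ^ (j : ℕ)) := by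
  have h := sum_tr (p := p) (fun g => g) (IsMF.coe F)
  rw [← h, ModularForm.coe_trace]
  refine Finset.sum_congr ?_ fun q _ => quotientFunc_eq_tr F q
  ext; simp

/-- The norm to level one of a `Γ₀(p)`-form, as a function. -/
theorem coe_norm_eq {k : ℤ} (F : ModularForm (G0 p) k) :
    ⇑(ModularForm.norm 𝒮ℒ F) = ⇑F * ∏ j : Fin p, (⇑F) ∣[k] (S * T ^ (j : ℕ)) := by
  have h := prod_tr (p := p) (fun g => g) (IsMF.coe F)
  rw [← h, ModularForm.coe_norm]
  refine Finset.prod_congr ?_ fun q _ => quotientFunc_eq_tr F q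
  ext; simp

theorem card_univ_Q : (Finset.univ : Finset (Q p)).card = p + 1 := by
  rw [Finset.card_univ, ← Nat.card_eq_fintype_card, card_Q]

/-- Products over the cosets of `Γ₀(p)` of `Ψ (translate)`, for `Ψ` compatible with the slash
action of `γ ∈ SL(2, ℤ)`, are invariant under `γ` (in weight `k' · (p + 1)`). -/
theorem prod_tr_slash {k k' : ℤ} {G : ℍ → ℂ} (hG : IsMF (G0 p) k G) (γ : SL(2, ℤ))
    (Ψ : (ℍ → ℂ) → (ℍ → ℂ)) (hΨ : ∀ g : ℍ → ℂ, (Ψ g) ∣[k'] γ = Ψ (g ∣[k] γ)) :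
    (∏ q : Q p, Ψ (tr k G q)) ∣[k' * ((p + 1 : ℕ) : ℤ)] γ = ∏ q : Q p, Ψ (tr k G q) := by
  rw [← card_univ_Q (p := p), ModularForm.SL_slash, ModularForm.prod_slash]
  have hdet : |((γ : GL (Fin 2) ℝ).det : ℝ)| = 1 := by simp
  rw [hdet, one_zpow, one_smul]
  have h1 : ∀ q : Q p, (Ψ (tr k G q)) ∣[k'] (γ : GL (Fin 2) ℝ) = Ψ (tr k G ((sl γ)⁻¹ • q)) := by
    intro q
    rw [← ModularForm.SL_slash, hΨ, tr_slash hG]
  rw [Finset.prod_congr rfl fun q _ => h1 q]
  exact Equiv.prod_comp (MulAction.toPerm (sl γ)⁻¹) fun q => Ψ (tr k G q)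

/-- **Relative norm** (`#1084`, step (3)): for `G` of level `p` and `α` fixed by `γ ∈ SL(2, ℤ)`,
the product over the cosets of `Γ₀(p)` of `c • (translate of G - α)` is invariant under `γ`. -/
theorem prod_tr_sub_slash {k : ℤ} {G α : ℍ → ℂ} (hG : IsMF (G0 p) k G) (γ : SL(2, ℤ))
    (hα : α ∣[k] γ = α) (c : ℂ) :
    (∏ q : Q p, c • (tr k G q - α)) ∣[k * ((p + 1 : ℕ) : ℤ)] γ =
      ∏ q : Q p, c • (tr k G q - α) := by
  refine prod_tr_slash hG γ (fun g => c • (g - α)) fun g => ?_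
  show (c • (g - α)) ∣[k] γ = c • (g ∣[k] γ - α)
  rw [ModularForm.SL_smul_slash, sub_eq_add_neg, SlashAction.add_slash, SlashAction.neg_slash,
    hα, ← sub_eq_add_neg]

end Fermat.Agent.S16.Trace
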