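/-
PROJECT E (S16), slice E-TR, parts (TR2)-(TR4) (helper27): the Fricke operator `w_p`, the trace
formula `Tr_{Γ₀(p) → SL₂(ℤ)} f = f + p^(2-k) U_p (w_p f)` and, in weight `2`, `w_p = -U_p`.

Everything at the level of functions `ℍ → ℂ`, with Mathlib's slash action of `GL(2, ℝ)`
(`(f ∣[k] γ) τ = f (γ τ) |det γ|^(k-1) (cτ+d)^(-k)`, the normalisation of the frozen
`ModularForm.heckeU`).
-/
import Mathlib
import Fermat.Agent.S16.Cosets
import Fermat.Prelude.Def_ModularForm_HeckeOperator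

set_option autoImplicit false

noncomputable section

namespace Fermat.Agent.S16.Trace

open UpperHalfPlane SlashInvariantForm CongruenceSubgroup ModularGroup ModularForm
open Fermat.Agent.S20

open scoped ModularForm Manifold MatrixGroups

/-! ### The Fricke matrix -/

/-- The Fricke matrix `[[0, -1], [p, 0]]` (and `1` for `p = 0`). -/
def Wp (p : ℕ) : GL (Fin 2) ℝ :=
  if hp : p = 0 then 1 else
    Matrix.GeneralLinearGroup.mkOfDetNeZero !![0, -1; (p : ℝ), 0]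
      (by rw [Matrix.det_fin_two_of]; simpa using hp)

@[simp] theorem val_Wp {p : ℕ} (hp : p ≠ 0) :
    ((Wp p : GL (Fin 2) ℝ) : Matrix (Fin 2) (Fin 2) ℝ) = !![0, -1; (p : ℝ), 0] := by
  simp [Wp, hp]

theorem det_Wp {p : ℕ} (hp : p ≠ 0) : ((Wp p).det : ℝ) = p := by
  rw [Matrix.GeneralLinearGroup.val_det_apply, val_Wp hp, Matrix.det_fin_two_of]
  ring

theorem det_Wp_pos {p : ℕ} (hp : p ≠ 0) : 0 < ((Wp p).det : ℝ) := by
  rw [det_Wp hp]; exact_mod_cast Nat.pos_of_ne_zero hp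

/-- The scalar matrix `p`. -/
def scalarP (p : ℕ) : GL (Fin 2) ℝ :=
  if hp : p = 0 then 1 else
    Matrix.GeneralLinearGroup.mkOfDetNeZero !![(p : ℝ), 0; 0, (p : ℝ)]
      (by rw [Matrix.det_fin_two_of]; simpa using hp)

@[simp] theorem val_scalarP {p : ℕ} (hp : p ≠ 0) :
    ((scalarP p : GL (Fin 2) ℝ) : Matrix (Fin 2) (Fin 2) ℝ) = !![(p : ℝ), 0; 0, (p : ℝ)] := by
  simp [scalarP, hp]

/-- `W · [[1, j], [0, p]] = p · S T^j`. -/
theorem Wp_mul_heckeMatrix {p : ℕ} (hp : p ≠ 0) (j : ℕ) :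
    Wp p * heckeMatrix p j =
      scalarP p * ((S * T ^ j : SL(2, ℤ)) : GL (Fin 2) ℝ) := by
  apply Matrix.GeneralLinearGroup.ext
  intro a b
  rw [Matrix.GeneralLinearGroup.coe_mul, Matrix.GeneralLinearGroup.coe_mul, val_Wp hp,
    val_heckeMatrix hp, val_scalarP hp]
  have h : (((S * T ^ j : SL(2, ℤ)) : GL (Fin 2) ℝ) : Matrix (Fin 2) (Fin 2) ℝ) =
      !![0, -1; 1, (j : ℝ)] := by
    have h1 : (((S * T ^ j : SL(2, ℤ)) : GL (Fin 2) ℝ) : Matrix (Fin 2) (Fin 2) ℝ) =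
        ((S * T ^ j : SL(2, ℤ)) : Matrix (Fin 2) (Fin 2) ℤ).map (algebraMap ℤ ℝ) :=
      Matrix.SpecialLinearGroup.mapGL_coe_matrix _
    rw [h1, coe_ST_pow]
    ext a b
    fin_cases a <;> fin_cases b <;> simp
  rw [h]
  fin_cases a <;> fin_cases b <;> simp [Matrix.mul_apply, Fin.sum_univ_two]

theorem det_scalarP {p : ℕ} (hp : p ≠ 0) : ((scalarP p).det : ℝ) = (p : ℝ) ^ 2 := by
  rw [Matrix.GeneralLinearGroup.val_det_apply, val_scalarP hp, Matrix.det_fin_two_of]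
  ring

theorem det_scalarP_pos {p : ℕ} (hp : p ≠ 0) : 0 < ((scalarP p).det : ℝ) := by
  rw [det_scalarP hp]
  have : (0 : ℝ) < p := by exact_mod_cast Nat.pos_of_ne_zero hp
  positivity

theorem denom_scalarP {p : ℕ} (hp : p ≠ 0) (τ : ℍ) : denom (scalarP p) τ = p := by
  simp [denom, val_scalarP hp]

theorem scalarP_smul {p : ℕ} (hp : p ≠ 0) (τ : ℍ) : scalarP p • τ = τ := by
  apply UpperHalfPlane.ext
  rw [UpperHalfPlane.coe_smul_of_det_pos (det_scalarP_pos hp)]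
  have hp' : (p : ℂ) ≠ 0 := by exact_mod_cast hp
  simp [num, denom, val_scalarP hp]
  field_simp

theorem σ_scalarP {p : ℕ} (hp : p ≠ 0) : σ (scalarP p) = .refl ℝ ℂ := by
  rw [σ, if_pos (det_scalarP_pos hp)]

theorem σ_Wp {p : ℕ} (hp : p ≠ 0) : σ (Wp p) = .refl ℝ ℂ := by
  rw [σ, if_pos (det_Wp_pos hp)]

/-- Slashing with the scalar matrix `p`. -/
theorem slash_scalarP (k : ℤ) {p : ℕ} (hp : p ≠ 0) (f : ℍ → ℂ) :
    f ∣[k] scalarP p = ((p : ℂ) ^ (k - 2)) • f := by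
  ext τ
  have hp' : (p : ℂ) ≠ 0 := by exact_mod_cast hp
  rw [ModularForm.slash_apply, σ_scalarP hp, det_scalarP hp, denom_scalarP hp, scalarP_smul hp]
  simp only [ContinuousAlgEquiv.refl_apply, Pi.smul_apply, smul_eq_mul]
  have habs : |((p : ℝ) ^ 2)| = (p : ℝ) ^ 2 := abs_of_nonneg (by positivity)
  rw [habs]
  push_cast
  rw [← zpow_natCast (p : ℂ) 2, ← zpow_mul, mul_assoc, ← zpow_add₀ hp', mul_comm]
  congr 2
  ring

/-- The scalar matrix `-p`. -/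
def scalarNegP (p : ℕ) : GL (Fin 2) ℝ :=
  if hp : p = 0 then 1 else
    Matrix.GeneralLinearGroup.mkOfDetNeZero !![-(p : ℝ), 0; 0, -(p : ℝ)]
      (by rw [Matrix.det_fin_two_of]; simpa using hp)

@[simp] theorem val_scalarNegP {p : ℕ} (hp : p ≠ 0) :
    ((scalarNegP p : GL (Fin 2) ℝ) : Matrix (Fin 2) (Fin 2) ℝ) =
      !![-(p : ℝ), 0; 0, -(p : ℝ)] := by
  simp [scalarNegP, hp]

theorem det_scalarNegP {p : ℕ} (hp : p ≠ 0) : ((scalarNegP p).det : ℝ) = (p : ℝ) ^ 2 := by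
  rw [Matrix.GeneralLinearGroup.val_det_apply, val_scalarNegP hp, Matrix.det_fin_two_of]
  ring

theorem det_scalarNegP_pos {p : ℕ} (hp : p ≠ 0) : 0 < ((scalarNegP p).det : ℝ) := by
  rw [det_scalarNegP hp]
  have : (0 : ℝ) < p := by exact_mod_cast Nat.pos_of_ne_zero hp
  positivity

theorem denom_scalarNegP {p : ℕ} (hp : p ≠ 0) (τ : ℍ) : denom (scalarNegP p) τ = -(p : ℂ) := by
  simp [denom, val_scalarNegP hp]

theorem scalarNegP_smul {p : ℕ} (hp : p ≠ 0) (τ : ℍ) : scalarNegP p • τ = τ := by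
  apply UpperHalfPlane.ext
  rw [UpperHalfPlane.coe_smul_of_det_pos (det_scalarNegP_pos hp)]
  have hp' : (p : ℂ) ≠ 0 := by exact_mod_cast hp
  simp [num, denom, val_scalarNegP hp]
  field_simp

theorem σ_scalarNegP {p : ℕ} (hp : p ≠ 0) : σ (scalarNegP p) = .refl ℝ ℂ := by
  rw [σ, if_pos (det_scalarNegP_pos hp)]

/-- Slashing with the scalar matrix `-p`. -/
theorem slash_scalarNegP (k : ℤ) {p : ℕ} (hp : p ≠ 0) (f : ℍ → ℂ) :
    f ∣[k] scalarNegP p = ((p : ℂ) ^ (k - 2) * (-1) ^ k) • f := by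
  ext τ
  have hp' : (p : ℂ) ≠ 0 := by exact_mod_cast hp
  rw [ModularForm.slash_apply, σ_scalarNegP hp, det_scalarNegP hp, denom_scalarNegP hp,
    scalarNegP_smul hp]
  simp only [ContinuousAlgEquiv.refl_apply, Pi.smul_apply, smul_eq_mul]
  have habs : |((p : ℝ) ^ 2)| = (p : ℝ) ^ 2 := abs_of_nonneg (by positivity)
  rw [habs]
  push_cast
  have h1 : (-(p : ℂ)) ^ (-k) = (p : ℂ) ^ (-k) * (-1) ^ k := by
    rw [neg_eq_neg_one_mul, mul_zpow, mul_comm]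
    congr 1
    rw [zpow_neg, ← inv_zpow]
    norm_num
  rw [h1, ← zpow_natCast (p : ℂ) 2, ← zpow_mul, mul_assoc, ← mul_assoc _ _ ((-1 : ℂ) ^ k),
    ← zpow_add₀ hp', mul_comm]
  congr 3
  ring

theorem Wp_mul_Wp {p : ℕ} (hp : p ≠ 0) : Wp p * Wp p = scalarNegP p := by
  apply Matrix.GeneralLinearGroup.ext
  intro a b
  rw [Matrix.GeneralLinearGroup.coe_mul, val_Wp hp, val_scalarNegP hp]
  fin_cases a <;> fin_cases b <;> simp [Matrix.mul_apply, Fin.sum_univ_two]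

/-! ### The Fricke operator -/

/-- The Fricke operator `w_p` at function level: `f ↦ f ∣[k] [[0, -1], [p, 0]]`. -/
def wp (k : ℤ) (p : ℕ) (f : ℍ → ℂ) : ℍ → ℂ := f ∣[k] Wp p

theorem wp_def (k : ℤ) (p : ℕ) (f : ℍ → ℂ) : wp k p f = f ∣[k] Wp p := rfl

@[simp] theorem wp_zero (k : ℤ) (p : ℕ) : wp k p (0 : ℍ → ℂ) = 0 := by simp [wp]

theorem wp_add (k : ℤ) (p : ℕ) (f g : ℍ → ℂ) : wp k p (f + g) = wp k p f + wp k p g := by
  simp [wp]

theorem wp_neg (k : ℤ) (p : ℕ) (f : ℍ → ℂ) : wp k p (-f) = -wp k p f := by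
  simp [wp]

theorem wp_sub (k : ℤ) (p : ℕ) (f g : ℍ → ℂ) : wp k p (f - g) = wp k p f - wp k p g := by
  rw [sub_eq_add_neg, wp_add, wp_neg, sub_eq_add_neg]

theorem wp_smul (k : ℤ) {p : ℕ} (hp : p ≠ 0) (c : ℂ) (f : ℍ → ℂ) :
    wp k p (c • f) = c • wp k p f := by
  rw [wp, ModularForm.smul_slash, σ_Wp hp]
  rfl

/-- **The translates of `f` by `S T^j` through the Fricke operator**:
`f ∣ S T^j = p^(2-k) • (w_p f) ∣ [[1, j], [0, p]]`. -/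
theorem slash_ST (k : ℤ) {p : ℕ} (hp : p ≠ 0) (f : ℍ → ℂ) (j : ℕ) :
    f ∣[k] (S * T ^ j : SL(2, ℤ)) =
      ((p : ℂ) ^ (2 - k)) • ((wp k p f) ∣[k] heckeMatrix p j) := by
  have hp' : (p : ℂ) ≠ 0 := by exact_mod_cast hp
  have h1 : (wp k p f) ∣[k] heckeMatrix p j =
      ((p : ℂ) ^ (k - 2)) • (f ∣[k] (S * T ^ j : SL(2, ℤ))) := by
    rw [wp, ← SlashAction.slash_mul, Wp_mul_heckeMatrix hp, SlashAction.slash_mul,
      slash_scalarP k hp, ← ModularForm.SL_slash, ModularForm.SL_smul_slash]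
  rw [h1, smul_smul, ← zpow_add₀ hp']
  simp

/-- `∑_{j<p} f ∣ S T^j = p^(2-k) U_p (w_p f)`. -/
theorem sum_slash_ST (k : ℤ) {p : ℕ} (hp : p ≠ 0) (f : ℍ → ℂ) :
    ∑ j : Fin p, f ∣[k] (S * T ^ (j : ℕ) : SL(2, ℤ)) =
      ((p : ℂ) ^ (2 - k)) • heckeU k p (wp k p f) := by
  rw [heckeU_def, Finset.smul_sum, ← Fin.sum_univ_eq_sum_range
    (fun j => ((p : ℂ) ^ (2 - k)) • ((wp k p f) ∣[k] heckeMatrix p j)) p]
  exact Finset.sum_congr rfl fun j _ => slash_ST k hp f j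

/-- `w_p` is an involution up to the scalar `p^(k-2) (-1)^k`. -/
theorem wp_wp (k : ℤ) {p : ℕ} (hp : p ≠ 0) (f : ℍ → ℂ) :
    wp k p (wp k p f) = ((p : ℂ) ^ (k - 2) * (-1) ^ k) • f := by
  rw [wp, wp, ← SlashAction.slash_mul, Wp_mul_Wp hp, slash_scalarNegP k hp]

theorem wp_wp_two {p : ℕ} (hp : p ≠ 0) (f : ℍ → ℂ) : wp 2 p (wp 2 p f) = f := by
  rw [wp_wp 2 hp]
  simp

/-- `w_p` of a product. -/
theorem wp_mul (k k' : ℤ) {p : ℕ} (hp : p ≠ 0) (f g : ℍ → ℂ) :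
    wp (k + k') p (f * g) = (p : ℂ) • (wp k p f * wp k' p g) := by
  rw [wp, ModularForm.mul_slash, det_Wp hp]
  have : |(p : ℝ)| = p := abs_of_nonneg (by positivity)
  rw [this]
  ext τ
  simp [wp]

/-! ### `W` normalises `Γ₀(p)` -/

theorem dvd_of_mem_Gamma0 {p : ℕ} {γ : SL(2, ℤ)} (h : γ ∈ Gamma0 p) : (p : ℤ) ∣ γ 1 0 := by
  rw [Gamma0_mem] at h
  exact (ZMod.intCast_zmod_eq_zero_iff_dvd _ _).mp h

/-- The conjugate `W γ W⁻¹ = [[d, -c/p], [-pb, a]]` of `γ = [[a, b], [c, d]] ∈ Γ₀(p)`. -/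
def frickeConj (p : ℕ) (γ : SL(2, ℤ)) (h : γ ∈ Gamma0 p) : SL(2, ℤ) :=
  ⟨!![γ 1 1, -(γ 1 0 / (p : ℤ)); -((p : ℤ) * γ 0 1), γ 0 0], by
    obtain ⟨c, hc⟩ := dvd_of_mem_Gamma0 h
    have hdet : γ 0 0 * γ 1 1 - γ 0 1 * γ 1 0 = 1 := by
      have := γ.det_coe
      rwa [Matrix.det_fin_two] at this
    rw [Matrix.det_fin_two_of]
    rcases eq_or_ne p 0 with rfl | hp
    · simp only [Nat.cast_zero, zero_mul] at hc ⊢
      rw [hc] at hdet
      simp only [Int.ediv_zero, neg_zero, mul_zero, sub_zero] at hdet ⊢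
      linarith
    · have hp' : (p : ℤ) ≠ 0 := by exact_mod_cast hp
      rw [hc, Int.mul_ediv_cancel_left _ hp']
      rw [hc] at hdet
      linarith⟩

theorem frickeConj_mem (p : ℕ) (γ : SL(2, ℤ)) (h : γ ∈ Gamma0 p) :
    frickeConj p γ h ∈ Gamma0 p := by
  rw [Gamma0_mem]
  show (((-((p : ℤ) * γ 0 1) : ℤ)) : ZMod p) = 0
  simp

/-- `W γ = γ' W`. -/
theorem Wp_mul_mapGL {p : ℕ} (hp : p ≠ 0) (γ : SL(2, ℤ)) (h : γ ∈ Gamma0 p) :
    Wp p * (γ : GL (Fin 2) ℝ) = ((frickeConj p γ h : SL(2, ℤ)) : GL (Fin 2) ℝ) * Wp p := by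
  obtain ⟨c, hc⟩ := dvd_of_mem_Gamma0 h
  have hp' : (p : ℤ) ≠ 0 := by exact_mod_cast hp
  apply Matrix.GeneralLinearGroup.ext
  intro a b
  rw [Matrix.GeneralLinearGroup.coe_mul, Matrix.GeneralLinearGroup.coe_mul, val_Wp hp]
  have h1 : ((γ : GL (Fin 2) ℝ) : Matrix (Fin 2) (Fin 2) ℝ) =
      (γ : Matrix (Fin 2) (Fin 2) ℤ).map (algebraMap ℤ ℝ) :=
    Matrix.SpecialLinearGroup.mapGL_coe_matrix _
  have h2 : (((frickeConj p γ h : SL(2, ℤ)) : GL (Fin 2) ℝ) : Matrix (Fin 2) (Fin 2) ℝ) =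
      ((frickeConj p γ h : SL(2, ℤ)) : Matrix (Fin 2) (Fin 2) ℤ).map (algebraMap ℤ ℝ) :=
    Matrix.SpecialLinearGroup.mapGL_coe_matrix _
  have h3 : ((frickeConj p γ h : SL(2, ℤ)) : Matrix (Fin 2) (Fin 2) ℤ) =
      !![γ 1 1, -c; -((p : ℤ) * γ 0 1), γ 0 0] := by
    show !![γ 1 1, -(γ 1 0 / (p : ℤ)); -((p : ℤ) * γ 0 1), γ 0 0] = _
    rw [hc, Int.mul_ediv_cancel_left _ hp']
  rw [h1, h2, h3]
  have hc' : ((γ 1 0 : ℤ) : ℝ) = (p : ℝ) * (c : ℝ) := by rw [hc]; push_cast; ring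
  fin_cases a <;> fin_cases b <;>
    simp [Matrix.mul_apply, Fin.sum_univ_two, hc'] <;> ring

theorem frickeConj_frickeConj {p : ℕ} (hp : p ≠ 0) (γ : SL(2, ℤ)) (h : γ ∈ Gamma0 p) :
    frickeConj p (frickeConj p γ h) (frickeConj_mem p γ h) = γ := by
  obtain ⟨c, hc⟩ := dvd_of_mem_Gamma0 h
  have hp' : (p : ℤ) ≠ 0 := by exact_mod_cast hp
  apply Subtype.ext
  show !![(frickeConj p γ h) 1 1, -((frickeConj p γ h) 1 0 / (p : ℤ));
      -((p : ℤ) * (frickeConj p γ h) 0 1), (frickeConj p γ h) 0 0] = (γ : Matrix (Fin 2) (Fin 2) ℤ)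
  have e11 : (frickeConj p γ h) 1 1 = γ 0 0 := rfl
  have e10 : (frickeConj p γ h) 1 0 = -((p : ℤ) * γ 0 1) := rfl
  have e01 : (frickeConj p γ h) 0 1 = -(γ 1 0 / (p : ℤ)) := rfl
  have e00 : (frickeConj p γ h) 0 0 = γ 1 1 := rfl
  rw [e11, e10, e01, e00]
  ext a b
  fin_cases a <;> fin_cases b
  · rfl
  · show -(-((p : ℤ) * γ 0 1) / (p : ℤ)) = γ 0 1
    rw [Int.neg_ediv_of_dvd (Dvd.intro _ rfl), Int.mul_ediv_cancel_left _ hp', neg_neg]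
  · show -((p : ℤ) * -(γ 1 0 / (p : ℤ))) = γ 1 0
    rw [hc, Int.mul_ediv_cancel_left _ hp']
    ring
  · rfl

open ConjAct Pointwise in
/-- `W` normalises `Γ₀(p)`. -/
theorem conj_G0 {p : ℕ} (hp : p ≠ 0) : toConjAct (Wp p)⁻¹ • G0 p = G0 p := by
  ext x
  rw [map_inv, Subgroup.mem_inv_pointwise_smul_iff, toConjAct_smul]
  constructor
  · rintro ⟨δ, hδ, hx⟩
    refine ⟨frickeConj p δ hδ, frickeConj_mem p δ hδ, ?_⟩
    have h1 := Wp_mul_mapGL hp (frickeConj p δ hδ) (frickeConj_mem p δ hδ)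
    rw [frickeConj_frickeConj hp] at h1
    have h2 : Wp p * x = ((δ : SL(2, ℤ)) : GL (Fin 2) ℝ) * Wp p := by
      have : ((δ : SL(2, ℤ)) : GL (Fin 2) ℝ) = Wp p * x * (Wp p)⁻¹ := hx
      rw [this]
      group
    exact mul_left_cancel (h1.trans h2.symm)
  · rintro ⟨γ, hγ, rfl⟩
    refine ⟨frickeConj p γ hγ, frickeConj_mem p γ hγ, ?_⟩
    have h1 : Wp p * Matrix.SpecialLinearGroup.mapGL ℝ γ =
        Matrix.SpecialLinearGroup.mapGL ℝ (frickeConj p γ hγ) * Wp p := Wp_mul_mapGL hp γ hγ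
    rw [h1]
    group

theorem coe_cast_group {Γ Γ' : Subgroup (GL (Fin 2) ℝ)} {k : ℤ} (h : Γ = Γ')
    (F : ModularForm Γ k) : ⇑(h ▸ F : ModularForm Γ' k) = ⇑F := by
  subst h; rfl

theorem coe_cast_group_cusp {Γ Γ' : Subgroup (GL (Fin 2) ℝ)} {k : ℤ} (h : Γ = Γ')
    (F : CuspForm Γ k) : ⇑(h ▸ F : CuspForm Γ' k) = ⇑F := by
  subst h; rfl

/-- The Fricke operator on modular forms for `Γ₀(p)`. -/
def wpForm {p : ℕ} (hp : p ≠ 0) {k : ℤ} (f : ModularForm (G0 p) k) : ModularForm (G0 p) k :=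
  (conj_G0 hp) ▸ ModularForm.translate f (Wp p)

@[simp] theorem coe_wpForm {p : ℕ} (hp : p ≠ 0) {k : ℤ} (f : ModularForm (G0 p) k) :
    ⇑(wpForm hp f) = wp k p ⇑f := by
  rw [wpForm, coe_cast_group]
  rfl

/-- The Fricke operator on cusp forms for `Γ₀(p)`. -/
def wpCusp {p : ℕ} (hp : p ≠ 0) {k : ℤ} (f : CuspForm (G0 p) k) : CuspForm (G0 p) k :=
  (conj_G0 hp) ▸ CuspForm.translate f (Wp p)

@[simp] theorem coe_wpCusp {p : ℕ} (hp : p ≠ 0) {k : ℤ} (f : CuspForm (G0 p) k) :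
    ⇑(wpCusp hp f) = wp k p ⇑f := by
  rw [wpCusp, coe_cast_group_cusp]
  rfl

theorem isMF_wp {p : ℕ} (hp : p ≠ 0) {k : ℤ} {f : ℍ → ℂ} (hf : IsMF (G0 p) k f) :
    IsMF (G0 p) k (wp k p f) := by
  obtain ⟨F, rfl⟩ := hf
  exact ⟨wpForm hp F, coe_wpForm hp F⟩

/-! ### The trace formula -/

section TraceFormula

variable {p : ℕ} [hp : Fact p.Prime] {k : ℤ}

/-- **Trace formula**: `Tr_{Γ₀(p) → SL₂(ℤ)} F = F + p^(2-k) U_p (w_p F)`. -/
theorem coe_trace_eq_heckeU (F : ModularForm (G0 p) k) :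
    ⇑(ModularForm.trace 𝒮ℒ F) = ⇑F + ((p : ℂ) ^ (2 - k)) • heckeU k p (wp k p ⇑F) := by
  rw [coe_trace_eq, sum_slash_ST k hp.out.ne_zero]

/-- Function-level form of the trace formula: the right-hand side is a level-one form. -/
theorem isMF_add_heckeU_wp {f : ℍ → ℂ} (hf : IsMF (G0 p) k f) :
    IsMF 𝒮ℒ k (f + ((p : ℂ) ^ (2 - k)) • heckeU k p (wp k p f)) := by
  obtain ⟨F, rfl⟩ := hf
  exact ⟨ModularForm.trace 𝒮ℒ F, coe_trace_eq_heckeU F⟩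

/-- The trace of a cusp form is a cusp form of level one. -/
theorem coe_cuspTrace_eq_heckeU (F : CuspForm (G0 p) k) :
    ⇑(CuspForm.trace 𝒮ℒ F) = ⇑F + ((p : ℂ) ^ (2 - k)) • heckeU k p (wp k p ⇑F) := by
  have h := coe_trace_eq_heckeU (p := p)
    ({ toSlashInvariantForm := F.toSlashInvariantForm
       holo' := F.holo'
       bdd_at_cusps' := fun hc γ hγ => (F.zero_at_cusps' hc γ hγ).isBoundedAtImInfty } :
      ModularForm (G0 p) k)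
  exact h

/-- Cusp forms of level `p` and weight `< 12`: `F + p^(2-k) U_p (w_p F) = 0`. -/
theorem add_heckeU_wp_eq_zero_of_cusp (hk : k < 12) (F : CuspForm (G0 p) k) :
    ⇑F + ((p : ℂ) ^ (2 - k)) • heckeU k p (wp k p ⇑F) = 0 := by
  rw [← coe_cuspTrace_eq_heckeU F,
    rank_zero_iff_forall_zero.mp (CuspForm.rank_eq_zero_of_weight_lt_twelve hk)
      (CuspForm.trace 𝒮ℒ F)]
  rfl

/-! ### Weight two: `w_p = -U_p` -/

/-- In weight `2` the trace to level one vanishes: `U_p (w_p F) = -F`. -/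
theorem heckeU_wp_two {f : ℍ → ℂ} (hf : IsMF (G0 p) 2 f) :
    heckeU 2 p (wp 2 p f) = -f := by
  obtain ⟨G, hG⟩ := isMF_add_heckeU_wp hf
  have h0 : G = 0 := rank_zero_iff_forall_zero.mp ModularForm.levelOne_weight_two_rank_zero G
  rw [h0] at hG
  have h1 : f + heckeU 2 p (wp 2 p f) = 0 := by
    have : ((p : ℂ) ^ ((2 : ℤ) - 2)) = 1 := by simp
    rw [this, one_smul] at hG
    exact hG.symm
  exact eq_neg_of_add_eq_zero_right h1

/-- **`w_p = -U_p` on `M₂(Γ₀(p))`.** -/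
theorem wp_two_eq_neg_heckeU {f : ℍ → ℂ} (hf : IsMF (G0 p) 2 f) :
    wp 2 p f = -heckeU 2 p f := by
  have h := heckeU_wp_two (isMF_wp hp.out.ne_zero hf)
  rw [wp_wp_two hp.out.ne_zero] at h
  rw [h, neg_neg]

/-- `U_p² = 1` on `M₂(Γ₀(p))`. -/
theorem heckeU_heckeU_two {f : ℍ → ℂ} (hf : IsMF (G0 p) 2 f) :
    heckeU 2 p (heckeU 2 p f) = f := by
  have h1 := wp_two_eq_neg_heckeU hf
  have h2 := heckeU_wp_two hf
  rw [h1, heckeU_neg] at h2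
  exact neg_injective h2

end TraceFormula

end Fermat.Agent.S16.Trace
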