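/-
PROJECT E (S16), slice E-TR (helper27): `q`-expansion corollaries of `S16/Trace.lean`.

* `isQ_of_isMF`, `isQ_wp`, `isQ_heckeU`: the functions involved are `1`-periodic, holomorphic and
  bounded at `i∞` (credited `S23.QRing.IsQ`), so their `q`-expansions add and multiply;
* `qCoeff_heckeU_of_isQ` : `a_n(U_p f) = a_{np}(f)` (frozen `UpperHalfPlane.qCoeff_heckeU`);
* `qCoeff_trace` : `a_n(Tr F) = a_n(F) + p^(2-k) a_{np}(w_p F)`;
* weight two: `qCoeff_wp_two` : `a_n(w_p f) = -a_{np}(f)`, `qCoeff_mul_sq` : `a_{np²}(f) = a_n(f)`;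
* `qCoeff_levelOne_trace_two`, and the weight `< 12` cusp form identity in coefficients.
-/
import Mathlib
import Fermat.Agent.S16.Trace
import Fermat.Agent.S23.QRing
import Fermat.Prelude.Thm_UpperHalfPlane_qCoeff_heckeU
import Fermat.Prelude.Thm_ModularForm_periodic_heckeU_comp_ofComplex
import Fermat.Prelude.Thm_ModularForm_mdifferentiable_heckeU
import Fermat.Prelude.Thm_ModularForm_isBoundedAtImInfty_heckeU

set_option autoImplicit false

noncomputable section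

namespace Fermat.Agent.S16.Trace

open UpperHalfPlane SlashInvariantForm CongruenceSubgroup ModularGroup ModularForm
  ModularFormClass
open Fermat.Agent.S20 Fermat.Agent.S23.QRing

open scoped ModularForm Manifold MatrixGroups

theorem isQ_of_isMF {N : ℕ} [NeZero N] {k : ℤ} {f : ℍ → ℂ} (hf : IsMF (G0 N) k f) : IsQ f := by
  obtain ⟨F, rfl⟩ := hf
  exact isQ_of_modularForm F

theorem isQ_heckeU {f : ℍ → ℂ} (hf : IsQ f) (k : ℤ) (p : ℕ) : IsQ (heckeU k p f) where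
  periodic := ModularForm.periodic_heckeU_comp_ofComplex hf.periodic k p
  holo := ModularForm.mdifferentiable_heckeU hf.holo k p
  bdd := ModularForm.isBoundedAtImInfty_heckeU hf.bdd k p

theorem qCoeff_heckeU_of_isQ {f : ℍ → ℂ} (hf : IsQ f) (k : ℤ) {p : ℕ} (hp : p ≠ 0) (n : ℕ) :
    qCoeff (heckeU k p f) n = qCoeff f (n * p) :=
  UpperHalfPlane.qCoeff_heckeU hf.periodic hf.holo hf.bdd k hp n

theorem qCoeff_add_of_isQ {f g : ℍ → ℂ} (hf : IsQ f) (hg : IsQ g) (n : ℕ) :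
    qCoeff (f + g) n = qCoeff f n + qCoeff g n := by
  rw [← qx_coeff, qx_add hf hg, map_add, qx_coeff, qx_coeff]

theorem qCoeff_smul_of_isQ (c : ℂ) {f : ℍ → ℂ} (hf : IsQ f) (n : ℕ) :
    qCoeff (c • f) n = c * qCoeff f n := by
  rw [← qx_coeff, qx_smul c hf, PowerSeries.coeff_smul, qx_coeff, smul_eq_mul]

theorem qCoeff_neg_of_isQ {f : ℍ → ℂ} (hf : IsQ f) (n : ℕ) :
    qCoeff (-f) n = -qCoeff f n := by
  rw [← qx_coeff, qx_neg hf, map_neg, qx_coeff]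

section

variable {p : ℕ} [hp : Fact p.Prime] {k : ℤ}

theorem isQ_wp {f : ℍ → ℂ} (hf : IsMF (G0 p) k f) : IsQ (wp k p f) :=
  isQ_of_isMF (isMF_wp hp.out.ne_zero hf)

/-- **Trace formula in `q`-coefficients.** -/
theorem qCoeff_trace (F : ModularForm (G0 p) k) (n : ℕ) :
    qCoeff (⇑(ModularForm.trace 𝒮ℒ F)) n =
      qCoeff (⇑F) n + (p : ℂ) ^ (2 - k) * qCoeff (wp k p ⇑F) (n * p) := by
  have hF : IsQ (⇑F) := isQ_of_modularForm F
  have hw : IsQ (wp k p ⇑F) := isQ_wp (IsMF.coe F)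
  rw [coe_trace_eq_heckeU, qCoeff_add_of_isQ hF ((isQ_heckeU hw k p).smul _),
    qCoeff_smul_of_isQ _ (isQ_heckeU hw k p), qCoeff_heckeU_of_isQ hw k hp.out.ne_zero]

/-- Weight two: `a_n(w_p f) = -a_{np}(f)`. -/
theorem qCoeff_wp_two {f : ℍ → ℂ} (hf : IsMF (G0 p) 2 f) (n : ℕ) :
    qCoeff (wp 2 p f) n = -qCoeff f (n * p) := by
  have hQ : IsQ f := isQ_of_isMF hf
  rw [wp_two_eq_neg_heckeU hf, qCoeff_neg_of_isQ (isQ_heckeU hQ 2 p),
    qCoeff_heckeU_of_isQ hQ 2 hp.out.ne_zero]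

/-- Weight two: `a_{n p²}(f) = a_n(f)` (`U_p² = 1` on `M₂(Γ₀(p))`). -/
theorem qCoeff_mul_sq {f : ℍ → ℂ} (hf : IsMF (G0 p) 2 f) (n : ℕ) :
    qCoeff f (n * p * p) = qCoeff f n := by
  have hQ : IsQ f := isQ_of_isMF hf
  have h : qCoeff (heckeU 2 p (heckeU 2 p f)) n = qCoeff f n :=
    congrArg (fun g => qCoeff g n) (heckeU_heckeU_two hf)
  rw [qCoeff_heckeU_of_isQ (isQ_heckeU hQ 2 p) 2 hp.out.ne_zero,
    qCoeff_heckeU_of_isQ hQ 2 hp.out.ne_zero] at h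
  exact h

/-- Cusp forms of weight `k < 12` and level `p`: `a_n(F) + p^(2-k) a_{np}(w_p F) = 0`. -/
theorem qCoeff_add_wp_eq_zero_of_cusp (hk : k < 12) (F : CuspForm (G0 p) k) (n : ℕ) :
    qCoeff (⇑F) n + (p : ℂ) ^ (2 - k) * qCoeff (wp k p ⇑F) (n * p) = 0 := by
  have hF : IsQ (⇑F) := isQ_of_cuspForm F
  have hMF : IsMF (G0 p) k (⇑F) :=
    ⟨{ toSlashInvariantForm := F.toSlashInvariantForm
       holo' := F.holo'
       bdd_at_cusps' := fun hc γ hγ => (F.zero_at_cusps' hc γ hγ).isBoundedAtImInfty }, rfl⟩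
  have hw : IsQ (wp k p ⇑F) := isQ_wp hMF
  have h : qCoeff (⇑F + ((p : ℂ) ^ (2 - k)) • heckeU k p (wp k p ⇑F)) n = qCoeff 0 n :=
    congrArg (fun g => qCoeff g n) (add_heckeU_wp_eq_zero_of_cusp hk F)
  rw [qCoeff_add_of_isQ hF ((isQ_heckeU hw k p).smul _),
    qCoeff_smul_of_isQ _ (isQ_heckeU hw k p), qCoeff_heckeU_of_isQ hw k hp.out.ne_zero] at h
  rw [h]
  show (qExpansion 1 (0 : ℍ → ℂ)).coeff n = 0
  rw [qExpansion_zero]
  simp

end

end Fermat.Agent.S16.Trace
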