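/-
PROJECT E (S16), slice E-TR (Q3)/(Q4) (helper23): THE LEVEL-ONE CHARACTERISTIC POLYNOMIAL OF A
LEVEL-`p` FORM, ON `q`-EXPANSIONS.

For `F : ModularForm (Γ₀(p)) k`, `p` prime, the translates of `F` over `SL(2, ℤ) ⧸ Γ₀(p)` are `F`
and the `U_p`-components of `H := p^(2-k) • w_p F`.  The elementary symmetric functions
`e_i = S23.CharPoly.esymmForm 𝒮ℒ F i` of the translates are level-one forms of weight `k * i`, and

  `(Y - qx F) * charpoly (mulMatrix p ψ) = ∑_i (-1)^i qx(e_i) Y^(p+1-i)`,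
  `ψ := p⁻¹ • qx H = p^(1-k) • qx (w_p F)`   (weight `2`: `ψ = -p⁻¹ • qx (U_p F)`),

with `mulMatrix` the formal multiplication matrix of `S16/PowerSeriesNorm` (no roots of unity,
compatible with every base change of the coefficient ring).
-/
import Mathlib
import Fermat.Agent.S16.Conjugates
import Fermat.Agent.S16.TraceQ
import Fermat.Agent.S16.PowerSeriesNorm
import Fermat.Agent.S23.CharPoly

set_option autoImplicit false
set_option linter.unusedSectionVars false

noncomputable section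

namespace Fermat.Agent.S16.ConjExpansion

open UpperHalfPlane SlashInvariantForm CongruenceSubgroup ModularGroup ModularForm Polynomial
open Fermat.Agent.S20 Fermat.Agent.S16.Trace Fermat.Agent.S16.Conjugates
open Fermat.Agent.S23.QRing Fermat.Agent.S16.PowerSeriesNorm Fermat.Agent.S23.CharPoly

open scoped ModularForm Manifold MatrixGroups

variable {p : ℕ} [hp : Fact p.Prime] {k : ℤ}


/-- The function whose `U_p`-components are the nontrivial translates of `f`. -/
def conjH (k : ℤ) (p : ℕ) (f : ℍ → ℂ) : ℍ → ℂ := ((p : ℂ) ^ (2 - k)) • wp k p f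

theorem isQ_conjH {f : ℍ → ℂ} (hf : IsMF (G0 p) k f) : IsQ (conjH k p f) :=
  (isQ_wp hf).smul _

/-- `f ∣ S T^j` is the `j`-th `U_p`-component of `conjH k p f`. -/
theorem slash_ST_eq_conjF (f : ℍ → ℂ) (j : Fin p) :
    f ∣[k] (S * T ^ (j : ℕ) : SL(2, ℤ)) = conjF k p (conjH k p f) j := by
  rw [slash_ST k hp.out.ne_zero, conjF, conjH, ModularForm.smul_slash, σ_heckeMatrix]
  rfl

/-- `ψ = p⁻¹ • qx (conjH k p f)`, the series whose conjugates `ψ(ζ^j q^{1/p})` are the
`q^{1/p}`-expansions of the nontrivial translates. -/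
def psiOf (k : ℤ) (p : ℕ) (f : ℍ → ℂ) : PowerSeries ℂ :=
  (p : ℂ)⁻¹ • qExpansion 1 (conjH k p f)

theorem psiOf_eq {f : ℍ → ℂ} (hf : IsMF (G0 p) k f) :
    psiOf k p f = ((p : ℂ) ^ (1 - k)) • qx (wp k p f) := by
  have hp' : (p : ℂ) ≠ 0 := by exact_mod_cast hp.out.ne_zero
  rw [psiOf, conjH, ← qx, qx_smul _ (isQ_wp hf), smul_smul]
  congr 1
  rw [show (1 : ℤ) - k = -1 + (2 - k) by ring, zpow_add₀ hp', zpow_neg_one]

theorem psiOf_two {f : ℍ → ℂ} (hf : IsMF (G0 p) 2 f) :
    psiOf 2 p f = (-(p : ℂ)⁻¹) • qx (heckeU 2 p f) := by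
  rw [psiOf_eq hf, wp_two_eq_neg_heckeU hf, qx_neg (isQ_heckeU (isQ_of_isMF hf) 2 p)]
  simp

theorem coeff_psiOf_two {f : ℍ → ℂ} (hf : IsMF (G0 p) 2 f) (n : ℕ) :
    (psiOf 2 p f).coeff n = -(p : ℂ)⁻¹ * ModularFormClass.qCoeff f (n * p) := by
  rw [psiOf_two hf, PowerSeries.coeff_smul, smul_eq_mul, qx_coeff,
    qCoeff_heckeU_of_isQ (isQ_of_isMF hf) 2 hp.out.ne_zero]

/-! ### The characteristic polynomial over `SL(2, ℤ) ⧸ Γ₀(p)`, at function level -/

/-- `(Y - f) ∏_{j<p} (Y - f ∣ S T^j)`, with function coefficients. -/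
def PsiU (k : ℤ) (p : ℕ) [NeZero p] (f : ℍ → ℂ) : Polynomial (ℍ → ℂ) :=
  (X - C f) * chiU k p (conjH k p f)

theorem map_eval_PsiU {f : ℍ → ℂ} (hf : IsMF (G0 p) k f) (τ : ℍ) :
    (PsiU k p f).map (Pi.evalRingHom (fun _ : ℍ => ℂ) τ)
      = ∏ q : Q p, (X - C (tr k f q τ)) := by
  rw [prod_tr (p := p) (fun g => (X - C (g τ) : Polynomial ℂ)) hf, PsiU, Polynomial.map_mul,
    map_eval_chiU, Polynomial.map_sub, Polynomial.map_X, Polynomial.map_C]
  congr 1
  refine Finset.prod_congr rfl fun j _ => ?_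
  rw [slash_ST_eq_conjF]

/-- Polynomials with function coefficients are determined by their pointwise evaluations. -/
theorem poly_fun_ext {P R : Polynomial (ℍ → ℂ)}
    (h : ∀ τ : ℍ, P.map (Pi.evalRingHom (fun _ : ℍ => ℂ) τ)
      = R.map (Pi.evalRingHom (fun _ : ℍ => ℂ) τ)) : P = R := by
  ext n τ
  have h1 := congrArg (fun S : Polynomial ℂ => S.coeff n) (h τ)
  simpa [Polynomial.coeff_map] using h1

/-- **The coefficients of the characteristic polynomial are the level-one forms `e_i`.** -/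
theorem PsiU_eq (F : ModularForm (G0 p) k) :
    PsiU k p ⇑F = ∑ i ∈ Finset.range (p + 2),
      (-1) ^ i * (C (⇑(esymmForm 𝒮ℒ F i)) * X ^ (p + 1 - i)) := by
  refine poly_fun_ext fun τ => ?_
  have h2 := prod_X_sub_C_quotientFunc 𝒮ℒ F τ
  rw [card_Q] at h2
  have h3 : ∏ q : Q p, (X - C (tr k (⇑F) q τ)) = ∏ q : Q p, (X - C (quotientFunc F q τ)) :=
    Finset.prod_congr rfl fun q _ => by rw [quotientFunc_eq_tr]
  rw [map_eval_PsiU (IsMF.coe F) τ, h3, Polynomial.map_sum]
  refine h2.trans (Finset.sum_congr rfl fun i _ => ?_)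
  rw [Polynomial.map_mul, Polynomial.map_pow, Polynomial.map_neg, Polynomial.map_one,
    Polynomial.map_mul, Polynomial.map_C, Polynomial.map_pow, Polynomial.map_X]
  rfl

/-! ### `q`-expansions -/

section QX

variable {H : ℍ → ℂ}

/-- `chiU` with coefficients in the subalgebra `qRing` of `1`-periodic functions. -/
def chiR (k : ℤ) (p : ℕ) [NeZero p] (H : ℍ → ℂ) (hH : IsQ H) : Polynomial qRing :=
  ∑ i ∈ Finset.range (p + 1),
    Polynomial.monomial i (⟨(chiU k p H).coeff i, isQ_coeff_chiU hH i⟩ : qRing)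

theorem coeff_chiR (hH : IsQ H) (i : ℕ) :
    (chiR k p H hH).coeff i
      = if i ≤ p then (⟨(chiU k p H).coeff i, isQ_coeff_chiU hH i⟩ : qRing) else 0 := by
  unfold chiR
  rw [Polynomial.finsetSum_coeff]
  simp only [Polynomial.coeff_monomial]
  rw [Finset.sum_ite_eq' (Finset.range (p + 1)) i]
  simp

theorem map_val_chiR (hH : IsQ H) :
    (chiR k p H hH).map ((qRing.val : qRing →ₐ[ℂ] (ℍ → ℂ)) : qRing →+* (ℍ → ℂ)) = chiU k p H := by
  ext1 i
  rw [Polynomial.coeff_map, coeff_chiR]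
  split_ifs with hi
  · rfl
  · rw [map_zero]
    symm
    exact Polynomial.coeff_eq_zero_of_natDegree_lt (by rw [natDegree_chiU]; omega)

theorem map_qxHom_chiR (hH : IsQ H) :
    (chiR k p H hH).map ((qxHom : qRing →ₐ[ℂ] PowerSeries ℂ) : qRing →+* PowerSeries ℂ)
      = chiQ k p H := by
  ext1 i
  rw [Polynomial.coeff_map, coeff_chiR, coeff_chiQ]
  split_ifs with hi
  · rfl
  · rw [map_zero]

theorem map_val_injective :
    Function.Injective (Polynomial.map
      ((qRing.val : qRing →ₐ[ℂ] (ℍ → ℂ)) : qRing →+* (ℍ → ℂ))) :=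
  Polynomial.map_injective _ Subtype.val_injective

/-- **The level-one characteristic polynomial on `q`-expansions**, in terms of `chiQ`. -/
theorem charpoly_qx_chiQ (F : ModularForm (G0 p) k) :
    (X - C (qx ⇑F)) * chiQ k p (conjH k p ⇑F)
      = ∑ i ∈ Finset.range (p + 2),
          (-1) ^ i * (C (qx ⇑(esymmForm 𝒮ℒ F i)) * X ^ (p + 1 - i)) := by
  have hF : IsQ ⇑F := isQ_of_isMF (IsMF.coe F)
  have hH : IsQ (conjH k p ⇑F) := isQ_conjH (IsMF.coe F)
  have key : (X - C (⟨⇑F, hF⟩ : qRing)) * chiR k p (conjH k p ⇑F) hH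
      = ∑ i ∈ Finset.range (p + 2),
          (-1) ^ i * (C (⟨⇑(esymmForm 𝒮ℒ F i), isQ_of_levelOne _⟩ : qRing) * X ^ (p + 1 - i)) := by
    apply map_val_injective
    rw [Polynomial.map_mul, map_val_chiR, Polynomial.map_sub, Polynomial.map_X, Polynomial.map_C,
      Polynomial.map_sum]
    refine (PsiU_eq F).trans (Finset.sum_congr rfl fun i _ => ?_)
    rw [Polynomial.map_mul, Polynomial.map_pow, Polynomial.map_neg, Polynomial.map_one,
      Polynomial.map_mul, Polynomial.map_C, Polynomial.map_pow, Polynomial.map_X]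
    rfl
  have h2 := congrArg (Polynomial.map
    ((qxHom : qRing →ₐ[ℂ] PowerSeries ℂ) : qRing →+* PowerSeries ℂ)) key
  rw [Polynomial.map_mul, map_qxHom_chiR, Polynomial.map_sub, Polynomial.map_X, Polynomial.map_C,
    Polynomial.map_sum] at h2
  refine h2.trans (Finset.sum_congr rfl fun i _ => ?_)
  rw [Polynomial.map_mul, Polynomial.map_pow, Polynomial.map_neg, Polynomial.map_one,
    Polynomial.map_mul, Polynomial.map_C, Polynomial.map_pow, Polynomial.map_X]
  rfl

/-- `chiQ` is the characteristic polynomial of the formal multiplication matrix. -/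
theorem chiQ_eq_charpoly (hH : IsQ H) :
    chiQ k p H = (mulMatrix p ((p : ℂ)⁻¹ • qExpansion 1 H)).charpoly := by
  have h1 := map_expand_chiQ (k := k) (p := p) hH
  have h2 := prod_X_sub_C_rescale_eq p (NeZero.ne p) (isPrimitiveRoot_zetaP (NeZero.ne p))
    ((p : ℂ)⁻¹ • qExpansion 1 H)
  have hinj : Function.Injective (Polynomial.map
      ((PowerSeries.expand p (NeZero.ne p) : PowerSeries ℂ →ₐ[ℂ] PowerSeries ℂ) :
        PowerSeries ℂ →+* PowerSeries ℂ)) :=
    Polynomial.map_injective _ (expand_injective (NeZero.ne p))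
  apply hinj
  rw [h1]
  exact h2

end QX

/-! ### Final statements -/

section Final

/-- **(Q3) The level-one characteristic polynomial of a level-`p` form on `q`-expansions.**
`e_i = esymmForm 𝒮ℒ F i` are the elementary symmetric functions of the `p + 1` translates of `F`
(level-one forms of weight `k * i`); `ψ = psiOf k p F = p^(1-k) • qx (w_p F)`. -/
theorem charpoly_qx (F : ModularForm (G0 p) k) :
    (X - C (qx ⇑F)) * (mulMatrix p (psiOf k p ⇑F)).charpoly
      = ∑ i ∈ Finset.range (p + 2),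
          (-1) ^ i * (C (qx ⇑(esymmForm 𝒮ℒ F i)) * X ^ (p + 1 - i)) := by
  rw [← charpoly_qx_chiQ F, chiQ_eq_charpoly (isQ_conjH (IsMF.coe F))]
  rfl

/-- Coefficient extraction from a sum `∑_i (-1)^i a_i Y^(n-i)`. -/
theorem coeff_sum_neg_one_pow {A : Type*} [CommRing A] (a : ℕ → A) (n i : ℕ) (hi : i ≤ n) :
    (∑ j ∈ Finset.range (n + 1), (-1) ^ j * (C (a j) * X ^ (n - j)) : Polynomial A).coeff (n - i)
      = (-1) ^ i * a i := by
  rw [Polynomial.finsetSum_coeff]
  rw [Finset.sum_eq_single i]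
  · rw [show ((-1 : Polynomial A) ^ i) = C ((-1 : A) ^ i) by simp, ← mul_assoc, ← C_mul,
      Polynomial.coeff_C_mul_X_pow]
    simp
  · intro j hj hji
    rw [Finset.mem_range] at hj
    rw [show ((-1 : Polynomial A) ^ j) = C ((-1 : A) ^ j) by simp, ← mul_assoc, ← C_mul,
      Polynomial.coeff_C_mul_X_pow]
    rw [if_neg]
    omega
  · intro h
    exact absurd (Finset.mem_range.2 (by omega)) h

/-- **The `q`-expansion of `e_i`** as a coefficient of the formal characteristic polynomial. -/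
theorem qx_esymmForm (F : ModularForm (G0 p) k) {i : ℕ} (hi : i ≤ p + 1) :
    qx ⇑(esymmForm 𝒮ℒ F i)
      = (-1) ^ i * ((X - C (qx ⇑F)) * (mulMatrix p (psiOf k p ⇑F)).charpoly).coeff (p + 1 - i) := by
  rw [charpoly_qx F, coeff_sum_neg_one_pow (fun j => qx ⇑(esymmForm 𝒮ℒ F j)) (p + 1) i hi,
    ← mul_assoc, ← pow_add, ← two_mul, pow_mul]
  simp

variable {R : Type*} [CommRing R] (ι : R →+* ℂ)

/-- **(Q4) Base ring.** If `qx F` and `ψ` have coefficients in (the image of) `R`, the level-one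
characteristic polynomial is the image of the FORMAL characteristic polynomial over `R`. -/
theorem charpoly_qx_map (F : ModularForm (G0 p) k) (f ψR : PowerSeries R)
    (hf : f.map ι = qx ⇑F) (hψ : ψR.map ι = psiOf k p ⇑F) :
    ((X - C f) * (mulMatrix p ψR).charpoly).map (PowerSeries.map ι)
      = ∑ i ∈ Finset.range (p + 2),
          (-1) ^ i * (C (qx ⇑(esymmForm 𝒮ℒ F i)) * X ^ (p + 1 - i)) := by
  rw [Polynomial.map_mul, Polynomial.map_sub, Polynomial.map_X, Polynomial.map_C,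
    ← charpoly_mulMatrix_map]
  show (X - C (f.map ι)) * (mulMatrix p (ψR.map ι)).charpoly = _
  rw [hf, hψ, charpoly_qx F]

/-- **(Q4), coefficientwise**: the `q`-expansions of all `e_i` have coefficients in `R`, given
by the formal characteristic polynomial `(Y - f) * charpoly (mulMatrix p ψR)` over `R`. -/
theorem qx_esymmForm_map (F : ModularForm (G0 p) k) (f ψR : PowerSeries R)
    (hf : f.map ι = qx ⇑F) (hψ : ψR.map ι = psiOf k p ⇑F) {i : ℕ} (hi : i ≤ p + 1) :
    qx ⇑(esymmForm 𝒮ℒ F i)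
      = PowerSeries.map ι
          ((-1) ^ i * ((X - C f) * (mulMatrix p ψR).charpoly).coeff (p + 1 - i)) := by
  have h1 := congrArg (fun P : Polynomial (PowerSeries ℂ) => P.coeff (p + 1 - i))
    (charpoly_qx_map ι F f ψR hf hψ)
  simp only [Polynomial.coeff_map] at h1
  rw [coeff_sum_neg_one_pow (fun j => qx ⇑(esymmForm 𝒮ℒ F j)) (p + 1) i hi] at h1
  rw [map_mul, map_pow, map_neg, map_one]
  show _ = (-1) ^ i * (PowerSeries.map ι) (((X - C f) * (mulMatrix p ψR).charpoly).coeff (p + 1 - i))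
  rw [h1, ← mul_assoc, ← pow_add, ← two_mul, pow_mul]
  simp

end Final

end Fermat.Agent.S16.ConjExpansion
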