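/-
PROJECT E (S16): the Fricke involution on level-one forms and on their level raisings.

For `F ∈ M_k(SL₂ℤ)` and `V_p F := F(p·) = S24.LevelRaise.raise p p _ F ∈ M_k(Γ₀(p))`:
* `wp_levelOne`  : `w_p F = p^(k-1) • V_p F`   (`W_p = S · diag(p, 1)`);
* `wp_raise`     : `w_p (V_p F) = (p⁻¹ (-1)^k) • F`;
* `qx_raise`     : `qExpansion 1 (V_p F) = expand p (qExpansion 1 F)`;
* `qx_heckeU`    : `qExpansion 1 (U_p f) = sect p 0 (qExpansion 1 f)` (coefficients `a_{pn}`).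
-/
import Mathlib
import Fermat.Agent.S16.TraceQ
import Fermat.Agent.S16.PowerSeriesNorm
import Fermat.Agent.S24.LevelRaise

set_option autoImplicit false

noncomputable section

namespace Fermat.Agent.S16.WpLevelOne

open UpperHalfPlane SlashInvariantForm CongruenceSubgroup ModularGroup ModularForm
  ModularFormClass
open Fermat.Agent.S20 Fermat.Agent.S23.QRing Fermat.Agent.S16.Trace
open Fermat.Agent.S24.LevelRaise

open scoped ModularForm Manifold MatrixGroups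

/-- `W_p = S · diag(p, 1)`. -/
theorem Wp_eq_S_mul {p : ℕ} (hp : p ≠ 0) :
    Wp p = ((S : SL(2, ℤ)) : GL (Fin 2) ℝ) * heckeDiagMatrix p := by
  apply Matrix.GeneralLinearGroup.ext
  intro a b
  rw [Matrix.GeneralLinearGroup.coe_mul, val_Wp hp, val_heckeDiagMatrix hp]
  have h : (((S : SL(2, ℤ)) : GL (Fin 2) ℝ) : Matrix (Fin 2) (Fin 2) ℝ) = !![0, -1; 1, 0] := by
    have h1 : (((S : SL(2, ℤ)) : GL (Fin 2) ℝ) : Matrix (Fin 2) (Fin 2) ℝ) =
        ((S : SL(2, ℤ)) : Matrix (Fin 2) (Fin 2) ℤ).map (algebraMap ℤ ℝ) :=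
      Matrix.SpecialLinearGroup.mapGL_coe_matrix _
    rw [h1, ModularGroup.coe_S]
    ext a b
    fin_cases a <;> fin_cases b <;> simp
  rw [h]
  fin_cases a <;> fin_cases b <;> simp [Matrix.mul_apply, Fin.sum_univ_two]

variable {k : ℤ}

/-- `w_p F = p^(k-1) • F(p·)` for a level-one form `F`. -/
theorem wp_levelOne (p : ℕ) [NeZero p] (F : ModularForm 𝒮ℒ k) :
    wp k p ⇑F = ((p : ℂ) ^ (k - 1)) • ⇑(raise p p dvd_rfl F) := by
  have hp : p ≠ 0 := NeZero.ne p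
  have hS : (⇑F) ∣[k] ((S : SL(2, ℤ)) : GL (Fin 2) ℝ) = ⇑F :=
    SlashInvariantFormClass.slash_action_eq F _ ⟨S, rfl⟩
  rw [wp, Wp_eq_S_mul hp, SlashAction.slash_mul, hS]
  funext τ
  rw [slash_heckeDiagMatrix_apply k hp, Pi.smul_apply, raise_apply, smul_eq_mul]

/-- `w_p (F(p·)) = (p⁻¹ (-1)^k) • F` for a level-one form `F`. -/
theorem wp_raise (p : ℕ) [NeZero p] (F : ModularForm 𝒮ℒ k) :
    wp k p ⇑(raise p p dvd_rfl F) = ((p : ℂ)⁻¹ * (-1) ^ k) • ⇑F := by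
  have hp : p ≠ 0 := NeZero.ne p
  have hpC : (p : ℂ) ≠ 0 := by exact_mod_cast hp
  have h1 : ⇑(raise p p dvd_rfl F) = ((p : ℂ) ^ (k - 1))⁻¹ • wp k p ⇑F := by
    rw [wp_levelOne, smul_smul, inv_mul_cancel₀ (zpow_ne_zero _ hpC), one_smul]
  rw [h1, wp_smul k hp, wp_wp k hp, smul_smul]
  congr 1
  rw [← zpow_neg, ← mul_assoc, ← zpow_add₀ hpC, show -(k - 1) + (k - 2) = -1 by ring,
    zpow_neg_one]

/-- the `q`-expansion of `F(p·)` -/
theorem qx_raise (p : ℕ) [NeZero p] (F : ModularForm 𝒮ℒ k) :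
    qExpansion 1 ⇑(raise p p dvd_rfl F) =
      PowerSeries.expand p (NeZero.ne p) (qExpansion 1 ⇑F) := by
  ext n
  rw [qExpansion_raise_coeff, PowerSeries.coeff_expand]
  rfl

/-- the `q`-expansion of `U_p f`: coefficients `a_{pn}` -/
theorem qx_heckeU {f : ℍ → ℂ} (hf : IsQ f) (k : ℤ) {p : ℕ} (hp : p ≠ 0) :
    qExpansion 1 (heckeU k p f) = PowerSeriesNorm.sect p 0 (qExpansion 1 f) := by
  ext n
  have h := qCoeff_heckeU_of_isQ hf k hp n
  rw [PowerSeriesNorm.coeff_sect, add_zero, mul_comm p n]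
  exact h

end Fermat.Agent.S16.WpLevelOne
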