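/-
PROJECT E (S16), slice (TR6) (helper10): the cusp-form criterion at prime level in weight 2.

A modular form `f ∈ M₂(Γ₀(p))` whose `q`-expansion at `i∞` has vanishing constant term is a cusp
form.  Reason: every `γ ∈ SL₂(ℤ)` lies in `Γ₀(p)` or in `Γ₀(p) · S T^j` (helper27 `Cosets`);
`f ∣ S T^j = (w_p f) ∣ [[1, j], [0, p]]` (`Trace.slash_ST`), and in weight two `w_p f = -U_p f`
(`Trace.wp_two_eq_neg_heckeU`, i.e. `M₂(SL₂ℤ) = 0`), which vanishes at `i∞` together with `f`.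
-/
import Mathlib
import Fermat.Agent.S16.Trace
import Fermat.Agent.S16.TraceQ
import Fermat.Agent.S23.QRing
import Fermat.Agent.S23.Integral

set_option autoImplicit false

noncomputable section

namespace Fermat.Agent.S16.CuspCriterion

open UpperHalfPlane SlashInvariantForm CongruenceSubgroup ModularGroup ModularForm Filter
open Fermat.Agent.S20 Fermat.Agent.S23.QRing Fermat.Agent.S16.Trace

open scoped ModularForm Manifold MatrixGroups

/-! ### Vanishing at `i∞` -/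

/-- A `1`-periodic holomorphic function bounded at `i∞` whose `q`-expansion has vanishing constant
term tends to `0` at `i∞`. -/
theorem isZeroAtImInfty_of_isQ {F : ℍ → ℂ} (hF : IsQ F)
    (h0 : (qExpansion 1 F).coeff 0 = 0) : IsZeroAtImInfty F := by
  have hanal := hF.analyticAt
  have hv : valueAtInfty F = 0 := by
    rwa [← qExpansion_coeff_zero one_pos hanal hF.periodic]
  have hc0 : cuspFunction 1 F 0 = 0 := by
    rw [cuspFunction_apply_zero one_pos hanal hF.periodic, hv]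
  have ht : Tendsto (fun τ : ℍ => cuspFunction 1 F (Function.Periodic.qParam 1 τ)) atImInfty
      (nhds (cuspFunction 1 F 0)) :=
    hanal.continuousAt.tendsto.comp (qParam_tendsto_atImInfty one_pos)
  rw [hc0] at ht
  rw [IsZeroAtImInfty, ZeroAtFilter]
  exact ht.congr fun τ => eq_cuspFunction τ one_ne_zero hF.periodic

/-- Slashing with the upper triangular matrices `[[1, j], [0, p]]` preserves vanishing at `i∞`. -/
theorem isZeroAtImInfty_slash_heckeMatrix {F : ℍ → ℂ} (hF : IsZeroAtImInfty F) (k : ℤ)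
    {p : ℕ} (hp : p ≠ 0) (j : ℕ) : IsZeroAtImInfty (F ∣[k] heckeMatrix p j) := by
  refine IsZeroAtImInfty.slash k ?_ hF
  show ((heckeMatrix p j : GL (Fin 2) ℝ) : Matrix (Fin 2) (Fin 2) ℝ) 1 0 = 0
  rw [val_heckeMatrix hp]
  simp

/-- `U_p` preserves vanishing at `i∞`. -/
theorem isZeroAtImInfty_heckeU {F : ℍ → ℂ} (hF : IsZeroAtImInfty F) (k : ℤ)
    {p : ℕ} (hp : p ≠ 0) : IsZeroAtImInfty (heckeU k p F) := by
  rw [heckeU_def]
  refine Finset.sum_induction _ (fun G : ℍ → ℂ => IsZeroAtImInfty G)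
    (fun G G' hG hG' => ?_) ?_ (fun j _ => isZeroAtImInfty_slash_heckeMatrix hF k hp j)
  · exact ZeroAtFilter.add hG hG'
  · exact zero_zeroAtFilter _

section Prime

variable {p : ℕ} [hp : Fact p.Prime]

/-- In weight two, `w_p f` vanishes at `i∞` as soon as `f` does. -/
theorem isZeroAtImInfty_wp_two {f : ℍ → ℂ} (hf : IsMF (G0 p) 2 f) (h0 : IsZeroAtImInfty f) :
    IsZeroAtImInfty (wp 2 p f) := by
  rw [wp_two_eq_neg_heckeU hf]
  exact ZeroAtFilter.neg (isZeroAtImInfty_heckeU h0 2 hp.out.ne_zero)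

/-- The translates `f ∣ S T^j` vanish at `i∞`. -/
theorem isZeroAtImInfty_slash_ST {f : ℍ → ℂ} (hf : IsMF (G0 p) 2 f) (h0 : IsZeroAtImInfty f)
    (j : ℕ) : IsZeroAtImInfty (f ∣[(2 : ℤ)] (S * T ^ j : SL(2, ℤ))) := by
  rw [slash_ST 2 hp.out.ne_zero f j]
  exact ZeroAtFilter.smul _
    (isZeroAtImInfty_slash_heckeMatrix (isZeroAtImInfty_wp_two hf h0) 2 hp.out.ne_zero j)

omit hp in
/-- Invariance of a level `Γ₀(p)` form under `Γ₀(p) ≤ SL₂(ℤ)`. -/
theorem slash_eq_of_mem_Gamma0 {k : ℤ} {f : ℍ → ℂ} (hf : IsMF (G0 p) k f) (δ : SL(2, ℤ))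
    (hδ : δ ∈ Gamma0 p) : f ∣[k] δ = f := by
  obtain ⟨F, rfl⟩ := hf
  exact F.slash_action_eq' _ ⟨δ, hδ, rfl⟩

/-- **All translates of `f` by `SL₂(ℤ)` vanish at `i∞`** if `f ∈ M₂(Γ₀(p))` does. -/
theorem isZeroAtImInfty_slash {f : ℍ → ℂ} (hf : IsMF (G0 p) 2 f) (h0 : IsZeroAtImInfty f)
    (γ : SL(2, ℤ)) : IsZeroAtImInfty (f ∣[(2 : ℤ)] γ) := by
  obtain ⟨c, hc⟩ := cosetMap0_surjective p ((γ⁻¹ : SL(2, ℤ)) : SL(2, ℤ) ⧸ Gamma0 p)
  have hmem : (cosetRep p c)⁻¹ * γ⁻¹ ∈ Gamma0 p := QuotientGroup.eq.mp hc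
  set δ : SL(2, ℤ) := (cosetRep p c)⁻¹ * γ⁻¹ with hδ
  have hγ : γ = δ⁻¹ * (cosetRep p c)⁻¹ := by
    rw [hδ]; group
  have hinv : δ⁻¹ ∈ Gamma0 p := inv_mem hmem
  have h1 : f ∣[(2 : ℤ)] γ = f ∣[(2 : ℤ)] (cosetRep p c)⁻¹ := by
    rw [hγ, SlashAction.slash_mul, slash_eq_of_mem_Gamma0 hf _ hinv]
  rw [h1]
  rcases c with _ | j
  · rw [cosetRep_none, inv_one, SlashAction.slash_one]
    exact h0
  · rw [cosetRep_some, inv_inv]
    exact isZeroAtImInfty_slash_ST hf h0 j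

/-- **(TR6), function level**: a weight-two form of level `Γ₀(p)` vanishing at `i∞` is (the
function of) a cusp form. -/
theorem exists_cuspForm_of_isZeroAtImInfty {f : ℍ → ℂ} (hf : IsMF (G0 p) 2 f)
    (h0 : IsZeroAtImInfty f) : ∃ g : CuspForm (Gamma0 p) 2, ⇑g = f := by
  have : NeZero p := ⟨hp.out.ne_zero⟩
  have hol : MDiff f := by
    obtain ⟨F, rfl⟩ := hf
    exact F.holo'
  exact Fermat.Agent.S23.Integral.exists_cuspForm_of_zero f hol
    (fun δ hδ => slash_eq_of_mem_Gamma0 hf δ hδ) (isZeroAtImInfty_slash hf h0)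

/-- **(TR6), function level, `q`-expansion form.** -/
theorem exists_cuspForm_of_isMF {f : ℍ → ℂ} (hf : IsMF (G0 p) 2 f)
    (h0 : (qExpansion 1 f).coeff 0 = 0) : ∃ g : CuspForm (Gamma0 p) 2, ⇑g = f := by
  have : NeZero p := ⟨hp.out.ne_zero⟩
  exact exists_cuspForm_of_isZeroAtImInfty hf (isZeroAtImInfty_of_isQ (isQ_of_isMF hf) h0)

/-- **(TR6)**: a modular form of weight two and level `Γ₀(p)` whose `q`-expansion has vanishing
constant term is a cusp form (same underlying function). -/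
theorem exists_cuspForm (f : ModularForm (Gamma0 p) 2)
    (h0 : (qExpansion 1 f).coeff 0 = 0) : ∃ g : CuspForm (Gamma0 p) 2, ⇑g = ⇑f :=
  exists_cuspForm_of_isMF ⟨f, rfl⟩ h0

/-- The cusp form attached by (TR6). -/
def toCuspForm (f : ModularForm (Gamma0 p) 2) (h0 : (qExpansion 1 f).coeff 0 = 0) :
    CuspForm (Gamma0 p) 2 :=
  (exists_cuspForm f h0).choose

@[simp] theorem coe_toCuspForm (f : ModularForm (Gamma0 p) 2)
    (h0 : (qExpansion 1 f).coeff 0 = 0) : ⇑(toCuspForm f h0) = ⇑f :=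
  (exists_cuspForm f h0).choose_spec

theorem qCoeff_toCuspForm (f : ModularForm (Gamma0 p) 2)
    (h0 : (qExpansion 1 f).coeff 0 = 0) (n : ℕ) :
    ModularFormClass.qCoeff (toCuspForm f h0) n = ModularFormClass.qCoeff f n := by
  unfold ModularFormClass.qCoeff
  rw [coe_toCuspForm]

end Prime

end Fermat.Agent.S16.CuspCriterion
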