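import Mathlib
import Fermat.Prelude.Def_FLTPrelim_Modularity

/-!
# S16 (PROJECT E): the two interface definitions of the reduction (E-RED)

* `sigmaP p n` : `σ'(n)`, the sum of the divisors of `n` prime to `p` (`= 0` for `n = 0`);
* `EisensteinCongruence p M` : there is a weight-2 cusp form of level `p` with integral
  `q`-coefficients congruent to `σ'(n)` modulo `M` ("`f₀ ∈ L`, `f₀ ≡ E' mod M`").

`S16/Reduction.result_of` reduces the frozen statement S16 to
(LB) `EisensteinCongruence p (eisensteinNumerator p)` and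
(UB) `∀ l a, l.Prime → 0 < a → EisensteinCongruence p (l ^ a) → l ^ a ∣ eisensteinNumerator p`.
-/

set_option autoImplicit false

namespace Fermat.Agent.S16.Reduction

open CongruenceSubgroup

/-- `σ'(n)`: the sum of the divisors of `n` prime to `p` (`= 0` for `n = 0`). -/
def sigmaP (p n : ℕ) : ℕ := ∑ d ∈ n.divisors.filter (fun d => ¬ p ∣ d), d

/-- "`f₀ ∈ L` and `f₀ ≡ E' mod M`": a weight-2 cusp form of level `p` with integral
`q`-coefficients congruent to `σ'(n)` modulo `M`. -/
def EisensteinCongruence (p : ℕ) (M : ℕ) : Prop :=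
  ∃ f : CuspForm (Gamma0 p) 2, ∀ n : ℕ, ∃ c : ℤ,
    ModularFormClass.qCoeff f n = (c : ℂ) ∧ (M : ℤ) ∣ c - sigmaP p n

/-- Weakening of the modulus. -/
theorem EisensteinCongruence.mono {p M M' : ℕ} (h : M' ∣ M) (hM : EisensteinCongruence p M) :
    EisensteinCongruence p M' := by
  obtain ⟨f, hf⟩ := hM
  refine ⟨f, fun n => ?_⟩
  obtain ⟨c, hc, hd⟩ := hf n
  exact ⟨c, hc, (Int.natCast_dvd_natCast.2 h).trans hd⟩

end Fermat.Agent.S16.Reduction
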