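/-
E-LB-LAT (helper16): the arithmetic input of the theta-series lower bound of S16.

For integers `p m r s` with `(4 m - 1) s = r ^ 2 + p` (so `q := 4 m - 1 ≡ 3 mod 4` and
`q ∣ r ^ 2 + p`) the quaternary form
  `Q(x) = x₀² + x₀x₁ + m x₁² + p m x₂² + s x₃² + r x₁x₃ + p x₂x₃`
(the reduced norm form on Ibukiyama's order `ℤ + ℤ(1+β)/2 + ℤ α(1+β)/2 + ℤ (r+α)β/q`,
`α² = -p`, `β² = -q`) has an even symmetric Gram matrix `gram` of determinant `p ^ 2`, with
`gram * gramDual = p`, `gramDual` even symmetric: an even lattice of level `p`.  It is positive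
definite for `0 < p`, `0 < m`, and such parameters exist for every odd prime `p`.
Only Mathlib is used.
-/
import Mathlib

set_option autoImplicit false

namespace Fermat.Agent.S16.QuatLattice

open Matrix

/-- The quaternary form `Q`. -/
def Q (p m r s : ℤ) (x : Fin 4 → ℤ) : ℤ :=
  x 0 ^ 2 + x 0 * x 1 + m * x 1 ^ 2 + p * m * x 2 ^ 2 + s * x 3 ^ 2 + r * x 1 * x 3
    + p * x 2 * x 3

/-- The Gram matrix `A` of `2 Q`: `xᵀ A x = 2 Q(x)`. -/
def gram (p m r s : ℤ) : Matrix (Fin 4) (Fin 4) ℤ :=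
  !![2, 1, 0, 0; 1, 2 * m, 0, r; 0, 0, 2 * p * m, p; 0, r, p, 2 * s]

/-- `p • A⁻¹`. -/
def gramDual (m r s : ℤ) : Matrix (Fin 4) (Fin 4) ℤ :=
  !![2 * m * s, -(s + r ^ 2), -r, 2 * m * r;
     -(s + r ^ 2), 2 * (s + r ^ 2), 2 * r, -(4 * m * r);
     -r, 2 * r, 2, -(4 * m - 1);
     2 * m * r, -(4 * m * r), -(4 * m - 1), 2 * m * (4 * m - 1)]

theorem gram_isSymm (p m r s : ℤ) : (gram p m r s).IsSymm := by
  ext i j; fin_cases i <;> fin_cases j <;> rfl

theorem gramDual_isSymm (m r s : ℤ) : (gramDual m r s).IsSymm := by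
  ext i j; fin_cases i <;> fin_cases j <;> rfl

theorem even_gram_diag (p m r s : ℤ) (i : Fin 4) : Even (gram p m r s i i) := by
  fin_cases i
  · exact ⟨1, rfl⟩
  · exact ⟨m, by simp [gram, two_mul]⟩
  · exact ⟨p * m, by simp [gram]; ring⟩
  · exact ⟨s, by simp [gram, two_mul]⟩

theorem even_gramDual_diag (m r s : ℤ) (i : Fin 4) : Even (gramDual m r s i i) := by
  fin_cases i
  · exact ⟨m * s, by simp [gramDual]; ring⟩
  · exact ⟨s + r ^ 2, by simp [gramDual, two_mul]⟩
  · exact ⟨1, rfl⟩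
  · exact ⟨m * (4 * m - 1), by simp [gramDual]; ring⟩

theorem gram_mul_gramDual {p m r s : ℤ} (h : (4 * m - 1) * s = r ^ 2 + p) :
    gram p m r s * gramDual m r s = p • (1 : Matrix (Fin 4) (Fin 4) ℤ) := by
  have hp : p = (4 * m - 1) * s - r ^ 2 := by linarith
  ext i j
  fin_cases i <;> fin_cases j <;>
    simp [gram, gramDual, Matrix.mul_apply, Fin.sum_univ_four, hp] <;> ring

theorem gramDual_mul_gram {p m r s : ℤ} (h : (4 * m - 1) * s = r ^ 2 + p) :
    gramDual m r s * gram p m r s = p • (1 : Matrix (Fin 4) (Fin 4) ℤ) := by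
  have hp : p = (4 * m - 1) * s - r ^ 2 := by linarith
  ext i j
  fin_cases i <;> fin_cases j <;>
    simp [gram, gramDual, Matrix.mul_apply, Fin.sum_univ_four, hp] <;> ring

theorem det_gram {p m r s : ℤ} (h : (4 * m - 1) * s = r ^ 2 + p) :
    (gram p m r s).det = p ^ 2 := by
  have hp : p = (4 * m - 1) * s - r ^ 2 := by linarith
  rw [Matrix.det_succ_row_zero]
  simp [gram, Fin.sum_univ_succ, Matrix.det_fin_three, Fin.succAbove, hp]
  ring

/-- `xᵀ A x = 2 Q(x)`. -/
theorem dotProduct_gram_mulVec (p m r s : ℤ) (x : Fin 4 → ℤ) :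
    x ⬝ᵥ (gram p m r s).mulVec x = 2 * Q p m r s x := by
  simp [gram, Q, dotProduct, Matrix.mulVec, Fin.sum_univ_four]
  ring

/-! ### Positive definiteness -/

/-- `4 m q Q(x)` as a sum of four squares with weights `m q, m, p q, p` (`q = 4 m - 1`). -/
theorem four_mul_Q {p m r s : ℤ} (h : (4 * m - 1) * s = r ^ 2 + p) (x : Fin 4 → ℤ) :
    4 * m * (4 * m - 1) * Q p m r s x =
      m * (4 * m - 1) * (2 * x 0 + x 1) ^ 2 + m * ((4 * m - 1) * x 1 + 2 * r * x 3) ^ 2
        + p * (4 * m - 1) * (2 * m * x 2 + x 3) ^ 2 + p * x 3 ^ 2 := by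
  have hp : p = (4 * m - 1) * s - r ^ 2 := by linarith
  simp only [Q, hp]
  ring

theorem real_identity (q mm : ℝ) (hq : q ≠ 0) (hm : mm ≠ 0) (hqm : q = 4 * mm - 1)
    (pp rr ss a b c d : ℝ) (hp : pp = q * ss - rr ^ 2) :
    a ^ 2 + a * b + mm * b ^ 2 + pp * mm * c ^ 2 + ss * d ^ 2 + rr * b * d + pp * c * d =
      (a + b / 2) ^ 2 + q / 4 * (b + 2 * rr / q * d) ^ 2 + pp * mm * (c + d / (2 * mm)) ^ 2
        + pp / (4 * mm * q) * d ^ 2 := by
  have hmm : mm = (q + 1) / 4 := by linarith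
  have hq1 : q + 1 ≠ 0 := by
    intro h0; apply hm; rw [hmm, h0]; simp
  subst hp
  subst hmm
  field_simp
  ring

/-- The triangular (completed squares) form of `Q` over `ℝ`, for iterating the one-variable
theta inversion. -/
theorem Q_cast_real {p m r s : ℤ} (hm : 0 < m) (h : (4 * m - 1) * s = r ^ 2 + p)
    (x : Fin 4 → ℤ) :
    (Q p m r s x : ℝ) =
      ((x 0 : ℝ) + x 1 / 2) ^ 2
        + ((4 * m - 1 : ℝ) / 4) * ((x 1 : ℝ) + 2 * r / (4 * m - 1) * x 3) ^ 2
        + (p * m : ℝ) * ((x 2 : ℝ) + x 3 / (2 * m)) ^ 2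
        + (p : ℝ) / (4 * m * (4 * m - 1)) * (x 3 : ℝ) ^ 2 := by
  have hmR : (0 : ℝ) < m := by exact_mod_cast hm
  have hq : (0 : ℝ) < 4 * m - 1 := by
    have : (1 : ℝ) ≤ m := by exact_mod_cast hm
    linarith
  have hpR : (p : ℝ) = (4 * m - 1) * s - r ^ 2 := by
    have : (p : ℝ) = (((4 * m - 1) * s - r ^ 2 : ℤ) : ℝ) := by
      congr 1; linarith
    rw [this]; push_cast; ring
  have := real_identity (4 * m - 1) m hq.ne' hmR.ne' rfl p r s (x 0) (x 1) (x 2) (x 3) hpR
  rw [← this]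
  simp only [Q]
  push_cast
  ring

theorem Q_nonneg {p m r s : ℤ} (hp : 0 ≤ p) (hm : 0 < m)
    (h : (4 * m - 1) * s = r ^ 2 + p) (x : Fin 4 → ℤ) : 0 ≤ Q p m r s x := by
  have hq : 0 < 4 * m - 1 := by linarith
  have h4 := four_mul_Q h x
  have hpos : 0 < 4 * m * (4 * m - 1) := by positivity
  have hrhs : 0 ≤ 4 * m * (4 * m - 1) * Q p m r s x := by
    rw [h4]
    have h1 : 0 ≤ m * (4 * m - 1) * (2 * x 0 + x 1) ^ 2 := by positivity
    have h2 : 0 ≤ m * ((4 * m - 1) * x 1 + 2 * r * x 3) ^ 2 := by positivity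
    have h3 : 0 ≤ p * (4 * m - 1) * (2 * m * x 2 + x 3) ^ 2 := by positivity
    have h5 : 0 ≤ p * x 3 ^ 2 := by positivity
    linarith
  exact nonneg_of_mul_nonneg_right hrhs hpos

/-- `Q` is positive definite (for `0 < p`, `0 < m`). -/
theorem Q_eq_zero_iff {p m r s : ℤ} (hp : 0 < p) (hm : 0 < m)
    (h : (4 * m - 1) * s = r ^ 2 + p) (x : Fin 4 → ℤ) : Q p m r s x = 0 ↔ x = 0 := by
  constructor
  · intro h0
    have hq : 0 < 4 * m - 1 := by linarith
    have h4 := four_mul_Q h x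
    rw [h0, mul_zero] at h4
    have h1 : 0 ≤ m * (4 * m - 1) * (2 * x 0 + x 1) ^ 2 := by positivity
    have h2 : 0 ≤ m * ((4 * m - 1) * x 1 + 2 * r * x 3) ^ 2 := by positivity
    have h3 : 0 ≤ p * (4 * m - 1) * (2 * m * x 2 + x 3) ^ 2 := by positivity
    have h5 : 0 ≤ p * x 3 ^ 2 := by positivity
    have e5 : p * x 3 ^ 2 = 0 := by linarith
    have e3 : p * (4 * m - 1) * (2 * m * x 2 + x 3) ^ 2 = 0 := by linarith
    have e2 : m * ((4 * m - 1) * x 1 + 2 * r * x 3) ^ 2 = 0 := by linarith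
    have e1 : m * (4 * m - 1) * (2 * x 0 + x 1) ^ 2 = 0 := by linarith
    have x3 : x 3 = 0 := by
      rcases mul_eq_zero.mp e5 with h' | h'
      · exact absurd h' hp.ne'
      · exact pow_eq_zero_iff (two_ne_zero) |>.mp h'
    have x2 : x 2 = 0 := by
      rcases mul_eq_zero.mp e3 with h' | h'
      · exact absurd h' (by positivity)
      · have := pow_eq_zero_iff (two_ne_zero) |>.mp h'
        rw [x3, add_zero] at this
        rcases mul_eq_zero.mp this with h'' | h''
        · exact absurd h'' (by positivity)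
        · exact h''
    have x1 : x 1 = 0 := by
      rcases mul_eq_zero.mp e2 with h' | h'
      · exact absurd h' hm.ne'
      · have := pow_eq_zero_iff (two_ne_zero) |>.mp h'
        rw [x3, mul_zero, add_zero] at this
        rcases mul_eq_zero.mp this with h'' | h''
        · exact absurd h'' hq.ne'
        · exact h''
    have x0 : x 0 = 0 := by
      rcases mul_eq_zero.mp e1 with h' | h'
      · exact absurd h' (by positivity)
      · have := pow_eq_zero_iff (two_ne_zero) |>.mp h'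
        rw [x1, add_zero] at this
        linarith
    ext i; fin_cases i <;> simp [x0, x1, x2, x3]
  · rintro rfl; simp [Q]

theorem Q_pos {p m r s : ℤ} (hp : 0 < p) (hm : 0 < m)
    (h : (4 * m - 1) * s = r ^ 2 + p) {x : Fin 4 → ℤ} (hx : x ≠ 0) : 0 < Q p m r s x :=
  lt_of_le_of_ne (Q_nonneg hp.le hm h x) (fun h0 => hx ((Q_eq_zero_iff hp hm h x).mp h0.symm))

theorem Q_neg (p m r s : ℤ) (x : Fin 4 → ℤ) : Q p m r s (-x) = Q p m r s x := by
  simp only [Q, Pi.neg_apply]; ring

/-! ### Representation numbers: finiteness and parity -/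

/-- The set of representations of `k` by `Q`. -/
def reps (p m r s k : ℤ) : Set (Fin 4 → ℤ) := {x | Q p m r s x = k}

/-- The triangular change of variables used for the bound. -/
def tri (m r : ℤ) (x : Fin 4 → ℤ) : Fin 4 → ℤ :=
  ![2 * x 0 + x 1, (4 * m - 1) * x 1 + 2 * r * x 3, 2 * m * x 2 + x 3, x 3]

theorem tri_injective {m : ℤ} (hm : 0 < m) (r : ℤ) : Function.Injective (tri m r) := by
  intro x y hxy
  have h0 := congrFun hxy 0
  have h1 := congrFun hxy 1
  have h2 := congrFun hxy 2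
  have h3 := congrFun hxy 3
  simp only [tri, Matrix.cons_val_zero, Matrix.cons_val_one, Matrix.cons_val] at h0 h1 h2 h3
  have hq : (4 * m - 1) ≠ 0 := by linarith
  have e3 : x 3 = y 3 := h3
  have e2 : x 2 = y 2 := by
    rw [e3] at h2
    have : 2 * m * x 2 = 2 * m * y 2 := by linarith
    exact mul_left_cancel₀ (by positivity) this
  have e1 : x 1 = y 1 := by
    rw [e3] at h1
    have : (4 * m - 1) * x 1 = (4 * m - 1) * y 1 := by linarith
    exact mul_left_cancel₀ hq this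
  have e0 : x 0 = y 0 := by
    rw [e1] at h0; linarith
  ext i; fin_cases i
  · exact e0
  · exact e1
  · exact e2
  · exact e3

theorem sq_le_of_four_mul_Q {p m r s : ℤ} (hp : 0 < p) (hm : 0 < m)
    (h : (4 * m - 1) * s = r ^ 2 + p) (x : Fin 4 → ℤ) (i : Fin 4) :
    tri m r x i ^ 2 ≤ 4 * m * (4 * m - 1) * Q p m r s x := by
  have hq : 0 < 4 * m - 1 := by linarith
  have h4 := four_mul_Q h x
  have h1 : 0 ≤ m * (4 * m - 1) * (2 * x 0 + x 1) ^ 2 := by positivity
  have h2 : 0 ≤ m * ((4 * m - 1) * x 1 + 2 * r * x 3) ^ 2 := by positivity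
  have h3 : 0 ≤ p * (4 * m - 1) * (2 * m * x 2 + x 3) ^ 2 := by positivity
  have h5 : 0 ≤ p * x 3 ^ 2 := by positivity
  have hmq : 1 ≤ m * (4 * m - 1) := by nlinarith
  have hpq : 1 ≤ p * (4 * m - 1) := by nlinarith
  rw [h4]
  fin_cases i
  · have : (2 * x 0 + x 1) ^ 2 ≤ m * (4 * m - 1) * (2 * x 0 + x 1) ^ 2 :=
      le_mul_of_one_le_left (sq_nonneg _) hmq
    simpa [tri] using by linarith
  · have : ((4 * m - 1) * x 1 + 2 * r * x 3) ^ 2
        ≤ m * ((4 * m - 1) * x 1 + 2 * r * x 3) ^ 2 :=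
      le_mul_of_one_le_left (sq_nonneg _) hm
    simpa [tri] using by linarith
  · have : (2 * m * x 2 + x 3) ^ 2 ≤ p * (4 * m - 1) * (2 * m * x 2 + x 3) ^ 2 :=
      le_mul_of_one_le_left (sq_nonneg _) hpq
    simpa [tri] using by linarith
  · have : x 3 ^ 2 ≤ p * x 3 ^ 2 := le_mul_of_one_le_left (sq_nonneg _) hp
    simpa [tri] using by linarith

theorem finite_reps {p m r s : ℤ} (hp : 0 < p) (hm : 0 < m)
    (h : (4 * m - 1) * s = r ^ 2 + p) (k : ℤ) : (reps p m r s k).Finite := by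
  set N : ℤ := 4 * m * (4 * m - 1) * k with hN
  have hfin : (Set.Icc (fun _ : Fin 4 => -N) (fun _ : Fin 4 => N)).Finite := Set.finite_Icc _ _
  refine ((hfin.preimage (tri_injective hm r).injOn)).subset ?_
  intro x hx
  have hx' : Q p m r s x = k := hx
  simp only [Set.mem_preimage, Set.mem_Icc, Pi.le_def]
  have key : ∀ i, |tri m r x i| ≤ N := by
    intro i
    have h1 := sq_le_of_four_mul_Q hp hm h x i
    rw [hx', ← hN] at h1
    have h2 : |tri m r x i| ≤ |tri m r x i| ^ 2 := by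
      rcases eq_or_ne (tri m r x i) 0 with h0 | h0
      · simp [h0]
      · have : 1 ≤ |tri m r x i| := Int.one_le_abs h0
        nlinarith
    rw [sq_abs] at h2
    linarith
  exact ⟨fun i => neg_le_of_abs_le (key i), fun i => le_of_abs_le (key i)⟩

theorem reps_zero {p m r s : ℤ} (hp : 0 < p) (hm : 0 < m)
    (h : (4 * m - 1) * s = r ^ 2 + p) : reps p m r s 0 = {0} := by
  ext x; simp [reps, Q_eq_zero_iff hp hm h]

theorem reps_of_neg {p m r s : ℤ} (hp : 0 < p) (hm : 0 < m)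
    (h : (4 * m - 1) * s = r ^ 2 + p) {k : ℤ} (hk : k < 0) : reps p m r s k = ∅ := by
  ext x
  simp only [reps, Set.mem_ofPred_eq, Set.mem_empty_iff_false, iff_false]
  intro hx
  have := Q_nonneg hp.le hm h x
  linarith

/-- The representation numbers `r_Q(k)`. -/
noncomputable def repNum (p m r s k : ℤ) : ℕ := (reps p m r s k).ncard

theorem repNum_zero {p m r s : ℤ} (hp : 0 < p) (hm : 0 < m)
    (h : (4 * m - 1) * s = r ^ 2 + p) : repNum p m r s 0 = 1 := by
  simp [repNum, reps_zero hp hm h]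

/-- `r_Q(k)` is even for `k ≠ 0`: `x ↦ -x` is a fixed point free involution. -/
theorem even_repNum {p m r s : ℤ} (hp : 0 < p) (hm : 0 < m)
    (h : (4 * m - 1) * s = r ^ 2 + p) {k : ℤ} (hk : k ≠ 0) : Even (repNum p m r s k) := by
  classical
  have hfin := finite_reps hp hm h k
  rw [repNum, Set.ncard_eq_toFinset_card _ hfin]
  have hsum : ∑ _x ∈ hfin.toFinset, (1 : ZMod 2) = 0 := by
    refine Finset.sum_involution (fun x _ => -x) ?_ ?_ ?_ ?_
    · intro x _; decide
    · intro x hx _ hneg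
      have hx' : Q p m r s x = k := by simpa [reps] using hx
      have hx0 : x = 0 := by
        have h2 : x = -x := hneg.symm
        ext i
        have := congrFun h2 i
        simp only [Pi.neg_apply, Pi.zero_apply] at this ⊢
        omega
      rw [hx0] at hx'
      exact hk (by rw [← hx']; simp [Q])
    · intro x hx
      have hx' : Q p m r s x = k := by simpa [reps] using hx
      simpa [reps, Q_neg] using hx'
    · intro x _; simp
  rw [Finset.sum_const, nsmul_eq_mul, mul_one] at hsum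
  exact (ZMod.natCast_eq_zero_iff_even).mp hsum

/-! ### Existence of the parameters for every odd prime -/

/-- For a prime `p ≡ 1 mod 4` there is a prime `q ≡ 3 mod 4` which is not a square mod `p`
(Dirichlet). -/
theorem exists_aux_prime {p : ℕ} (hp : p.Prime) (hp4 : p % 4 = 1) :
    ∃ q : ℕ, q.Prime ∧ q % 4 = 3 ∧ ¬ IsSquare ((q : ℕ) : ZMod p) := by
  have : Fact p.Prime := ⟨hp⟩
  have hp2 : p ≠ 2 := by rintro rfl; omega
  obtain ⟨a, ha⟩ := FiniteField.exists_nonsquare (F := ZMod p)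
    (by rw [ZMod.ringChar_zmod_n]; exact hp2)
  have ha0 : a ≠ 0 := by rintro rfl; exact ha ⟨0, by simp⟩
  have hcop : Nat.Coprime 4 p := by
    have : Nat.Coprime 2 p := (Nat.coprime_primes Nat.prime_two hp).mpr (Ne.symm hp2)
    exact Nat.Coprime.pow_left 2 this
  obtain ⟨c, hc4, hcp⟩ := Nat.chineseRemainder hcop 3 a.val
  have hcp' : ((c : ℕ) : ZMod p) = a := by
    have := (ZMod.natCast_eq_natCast_iff c a.val p).mpr hcp
    rw [this, ZMod.natCast_zmod_val]
  have hc_cop : Nat.Coprime c (4 * p) := by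
    apply Nat.Coprime.mul_right
    · have h2 : Nat.Coprime c 2 := by
        rw [Nat.coprime_two_right, Nat.odd_iff]
        have : c % 4 = 3 := hc4
        omega
      exact Nat.Coprime.pow_right 2 h2
    · rw [Nat.coprime_comm, Nat.Prime.coprime_iff_not_dvd hp]
      intro hdvd
      apply ha0
      rw [← hcp']
      exact (ZMod.natCast_eq_zero_iff c p).mpr hdvd
  obtain ⟨q, -, hq, hqc⟩ := Nat.forall_exists_prime_gt_and_modEq 2 (q := 4 * p) (a := c)
    (Nat.mul_ne_zero (by norm_num) hp.ne_zero) hc_cop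
  refine ⟨q, hq, ?_, ?_⟩
  · have h1 : q ≡ c [MOD 4] := hqc.of_mul_right p
    have h2 : c % 4 = 3 := hc4
    have h3 : q % 4 = c % 4 := h1
    omega
  · have h1 : q ≡ c [MOD p] := hqc.of_mul_left 4
    have : ((q : ℕ) : ZMod p) = a := by
      rw [← hcp']; exact (ZMod.natCast_eq_natCast_iff q c p).mpr h1
    rw [this]; exact ha

/-- **Existence of the lattice parameters** for every odd prime `p`. -/
theorem exists_params {p : ℕ} (hp : p.Prime) (hp2 : p ≠ 2) :
    ∃ m r s : ℤ, 0 < m ∧ (4 * m - 1) * s = r ^ 2 + p := by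
  have hodd : p % 2 = 1 := hp.eq_two_or_odd.resolve_left hp2
  have h4 : p % 4 = 1 ∨ p % 4 = 3 := by omega
  rcases h4 with h4 | h4
  · -- Dirichlet + quadratic reciprocity
    obtain ⟨q, hq, hq4, hns⟩ := exists_aux_prime hp h4
    have : Fact p.Prime := ⟨hp⟩
    have : Fact q.Prime := ⟨hq⟩
    have hq2 : q ≠ 2 := by rintro rfl; omega
    have hqp : q ≠ p := by rintro rfl; omega
    have hL1 : legendreSym p q = -1 := legendreSym.eq_neg_one_iff' p |>.mpr hns
    have hL2 : legendreSym q p = -1 := by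
      rw [legendreSym.quadratic_reciprocity_one_mod_four h4 hq2]; exact hL1
    have hL3 : legendreSym q (-(p : ℤ)) = 1 := by
      rw [neg_eq_neg_one_mul, legendreSym.mul, legendreSym.at_neg_one hq2,
        ZMod.χ₄_nat_three_mod_four hq4, hL2]; norm_num
    have hne : (((-(p : ℤ)) : ℤ) : ZMod q) ≠ 0 := by
      intro h0
      have : legendreSym q (-(p : ℤ)) = 0 := (legendreSym.eq_zero_iff q _).mpr h0
      rw [hL3] at this; exact one_ne_zero this
    obtain ⟨t, ht⟩ := (legendreSym.eq_one_iff q hne).mp hL3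
    have hdvd : (q : ℤ) ∣ (t.val : ℤ) ^ 2 + p := by
      rw [← ZMod.intCast_zmod_eq_zero_iff_dvd]
      push_cast
      rw [ZMod.natCast_zmod_val]
      have : (-(p : ZMod q)) = t * t := by simpa using ht
      rw [sq, ← this]; ring
    obtain ⟨s, hs⟩ := hdvd
    refine ⟨((q + 1) / 4 : ℕ), t.val, s, ?_, ?_⟩
    · have : 0 < (q + 1) / 4 := by omega
      exact_mod_cast this
    · have h1 : (4 * (((q + 1) / 4 : ℕ) : ℤ) - 1) = q := by
        have : 4 * ((q + 1) / 4) = q + 1 := by omega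
        have h' : (4 * (((q + 1) / 4 : ℕ) : ℤ)) = (q : ℤ) + 1 := by exact_mod_cast this
        linarith
      rw [h1, ← hs]
  · refine ⟨((p + 1) / 4 : ℕ), 0, 1, ?_, ?_⟩
    · have : 0 < (p + 1) / 4 := by omega
      exact_mod_cast this
    · have : 4 * ((p + 1) / 4) = p + 1 := by omega
      have h' : (4 * (((p + 1) / 4 : ℕ) : ℤ)) = (p : ℤ) + 1 := by exact_mod_cast this
      linarith

/-- **The even quaternary lattice of level `p` and determinant `p ^ 2`**, packaged: for every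
odd prime `p` there are an integral quadratic form `Q` in four variables and integral symmetric
matrices `A`, `B` with even diagonals such that `xᵀ A x = 2 Q(x)`, `det A = p ^ 2`,
`A * B = B * A = p`, `Q` is positive definite, every `k` has finitely many representations,
evenly many for `k ≠ 0`. -/
theorem exists_lattice {p : ℕ} (hp : p.Prime) (hp2 : p ≠ 2) :
    ∃ m r s : ℤ, 0 < m ∧ (4 * m - 1) * s = r ^ 2 + p ∧
      (gram p m r s).IsSymm ∧ (∀ i, Even (gram p m r s i i)) ∧
      (gramDual m r s).IsSymm ∧ (∀ i, Even (gramDual m r s i i)) ∧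
      (gram p m r s).det = (p : ℤ) ^ 2 ∧
      gram p m r s * gramDual m r s = (p : ℤ) • (1 : Matrix (Fin 4) (Fin 4) ℤ) ∧
      gramDual m r s * gram p m r s = (p : ℤ) • (1 : Matrix (Fin 4) (Fin 4) ℤ) ∧
      (∀ x, x ⬝ᵥ (gram p m r s).mulVec x = 2 * Q p m r s x) ∧
      (∀ x, Q p m r s x = 0 ↔ x = 0) ∧ (∀ x, 0 ≤ Q p m r s x) ∧
      (∀ k, (reps p m r s k).Finite) ∧ repNum p m r s 0 = 1 ∧
      ∀ k, k ≠ 0 → Even (repNum p m r s k) := by
  obtain ⟨m, r, s, hm, h⟩ := exists_params hp hp2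
  have hp0 : (0 : ℤ) < p := by exact_mod_cast hp.pos
  exact ⟨m, r, s, hm, h, gram_isSymm _ _ _ _, even_gram_diag _ _ _ _, gramDual_isSymm _ _ _,
    even_gramDual_diag _ _ _, det_gram h, gram_mul_gramDual h, gramDual_mul_gram h,
    dotProduct_gram_mulVec _ _ _ _, Q_eq_zero_iff hp0 hm h, Q_nonneg hp0.le hm h,
    finite_reps hp0 hm h, repNum_zero hp0 hm h, fun k hk => even_repNum hp0 hm h hk⟩

end Fermat.Agent.S16.QuatLattice
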