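import Mathlib
import Fermat.Prelude.Def_CuspForm_HeckeLocal
import Fermat.Prelude.Def_CuspForm_HeckeEvalForms
import Fermat.Prelude.Def_HeckeGalois_EichlerShimura
import Fermat.Prelude.Def_ModularCurve_ModularUnit
import Fermat.Agent.S49.QCoeff
import Fermat.Agent.S16.RedDefs

/-!
# S16 (PROJECT E), slice E-RED: reduction of Mazur's Eisenstein index to `q`-expansion statements

`𝕋 = heckeLatticeAlgebra p ∅ ⊆ End_ℤ(L)`, `L = intLattice p 2` (weight-2 cusp forms of level `p`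
with integral `q`-expansion), `I = ` image of the Eisenstein ideal. Then `𝕋/I𝕋 ≅ ℤ/m`, and
`m = n := eisensteinNumerator p` follows from two `q`-expansion statements:

* (LB) there is `f₀ ∈ L` with `a_k(f₀) ≡ σ'(k) mod n` for all `k` (`σ'` = sum of the divisors prime
  to `p`): `EisensteinCongruence p n`;
* (UB) for every prime power `l^a`: `EisensteinCongruence p (l^a) → l^a ∣ n`.

Main theorem: `result_of`.
-/

set_option autoImplicit false
set_option linter.unusedSectionVars false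

noncomputable section

open ModularCurve CuspForm CongruenceSubgroup ModularFormClass
open Fermat.Agent.S49.QCoeff

namespace Fermat.Agent.S16.Reduction

/-! ### The Hecke relations of `σ'` -/

theorem sigmaP_zero (p : ℕ) : sigmaP p 0 = 0 := by simp [sigmaP]

theorem sigmaP_one (p : ℕ) (hp : p.Prime) : sigmaP p 1 = 1 := by
  have : ¬ p ∣ 1 := hp.one_lt.ne' ∘ Nat.dvd_one.1
  rw [sigmaP, Nat.divisors_one, Finset.filter_singleton, if_pos this, Finset.sum_singleton]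

/-- the part of `σ'(nℓ)` coming from divisors divisible by `ℓ` -/
theorem sum_filter_dvd (p ℓ : ℕ) (hp : p.Prime) (hℓ : ℓ.Prime) (hℓp : ℓ ≠ p) (n : ℕ) :
    ∑ e ∈ ((n * ℓ).divisors.filter (fun d => ¬ p ∣ d)).filter (fun e => ℓ ∣ e), e =
      ℓ * sigmaP p n := by
  rw [sigmaP, Finset.mul_sum]
  symm
  refine Finset.sum_nbij' (fun d => ℓ * d) (fun e => e / ℓ) ?_ ?_ ?_ ?_ ?_
  · intro d hd
    simp only [Finset.mem_filter, Nat.mem_divisors] at hd ⊢
    obtain ⟨⟨hdn, hn⟩, hpd⟩ := hd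
    refine ⟨⟨⟨?_, Nat.mul_ne_zero hn hℓ.ne_zero⟩, ?_⟩, dvd_mul_right _ _⟩
    · rw [mul_comm]; exact Nat.mul_dvd_mul_right hdn ℓ
    · intro h
      rcases (Nat.Prime.dvd_mul hp).1 h with h | h
      · exact hℓp ((Nat.prime_dvd_prime_iff_eq hp hℓ).1 h).symm
      · exact hpd h
  · intro e he
    simp only [Finset.mem_filter, Nat.mem_divisors] at he ⊢
    obtain ⟨⟨⟨hen, hn⟩, hpe⟩, hℓe⟩ := he
    obtain ⟨d, rfl⟩ := hℓe
    rw [Nat.mul_div_cancel_left _ hℓ.pos]
    have hn0 : n ≠ 0 := fun h => hn (by rw [h, zero_mul])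
    refine ⟨⟨?_, hn0⟩, fun h => hpe (Dvd.dvd.mul_left h ℓ)⟩
    rw [mul_comm n ℓ] at hen
    exact Nat.dvd_of_mul_dvd_mul_left hℓ.pos hen
  · intro d _
    exact Nat.mul_div_cancel_left _ hℓ.pos
  · intro e he
    simp only [Finset.mem_filter] at he
    exact Nat.mul_div_cancel' he.2
  · intro d _
    rfl

theorem sum_filter_not_dvd (p ℓ : ℕ) (hℓ : ℓ.Prime) (n : ℕ) (hn : n ≠ 0) :
    ∑ e ∈ ((n * ℓ).divisors.filter (fun d => ¬ p ∣ d)).filter (fun e => ¬ ℓ ∣ e), e =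
      ∑ e ∈ (n.divisors.filter (fun d => ¬ p ∣ d)).filter (fun e => ¬ ℓ ∣ e), e := by
  apply Finset.sum_congr _ (fun _ _ => rfl)
  ext e
  simp only [Finset.mem_filter, Nat.mem_divisors]
  constructor
  · rintro ⟨⟨⟨hen, _⟩, hpe⟩, hℓe⟩
    refine ⟨⟨⟨?_, hn⟩, hpe⟩, hℓe⟩
    exact (Nat.Coprime.dvd_mul_right ((Nat.Prime.coprime_iff_not_dvd hℓ).2 hℓe).symm).1 hen
  · rintro ⟨⟨⟨hen, _⟩, hpe⟩, hℓe⟩
    exact ⟨⟨⟨Dvd.dvd.mul_right hen ℓ, Nat.mul_ne_zero hn hℓ.ne_zero⟩, hpe⟩, hℓe⟩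

/-- **The Hecke relation of `σ'` at a prime `ℓ ≠ p`.** -/
theorem sigmaP_mul_prime (p ℓ : ℕ) (hp : p.Prime) (hℓ : ℓ.Prime) (hℓp : ℓ ≠ p) (k : ℕ) :
    sigmaP p (k * ℓ) + (if ℓ ∣ k then ℓ * sigmaP p (k / ℓ) else 0) = (1 + ℓ) * sigmaP p k := by
  rcases Nat.eq_zero_or_pos k with rfl | hk
  · simp [sigmaP_zero]
  have hk0 : k ≠ 0 := hk.ne'
  have h1 : sigmaP p (k * ℓ) = ℓ * sigmaP p k +
      ∑ e ∈ (k.divisors.filter (fun d => ¬ p ∣ d)).filter (fun e => ¬ ℓ ∣ e), e := by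
    rw [← sum_filter_dvd p ℓ hp hℓ hℓp k, ← sum_filter_not_dvd p ℓ hℓ k hk0, sigmaP,
      Finset.sum_filter_add_sum_filter_not]
  have h2 : sigmaP p k = (if ℓ ∣ k then ℓ * sigmaP p (k / ℓ) else 0) +
      ∑ e ∈ (k.divisors.filter (fun d => ¬ p ∣ d)).filter (fun e => ¬ ℓ ∣ e), e := by
    split_ifs with h
    · obtain ⟨m, rfl⟩ := h
      rw [Nat.mul_div_cancel_left _ hℓ.pos, mul_comm ℓ m, ← sum_filter_dvd p ℓ hp hℓ hℓp m, sigmaP,
        Finset.sum_filter_add_sum_filter_not]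
    · rw [zero_add, sigmaP]
      apply Finset.sum_congr _ (fun _ _ => rfl)
      ext e
      simp only [Finset.mem_filter, Nat.mem_divisors]
      constructor
      · rintro ⟨⟨hek, hk⟩, hpe⟩
        exact ⟨⟨⟨hek, hk⟩, hpe⟩, fun hℓe => h (hℓe.trans hek)⟩
      · rintro ⟨h, _⟩
        exact h
  have h3 : (1 + ℓ) * sigmaP p k = ℓ * sigmaP p k + sigmaP p k := by ring
  rw [h1, h3]
  nth_rewrite 3 [h2]
  ring

/-- `σ'(kp) = σ'(k)`. -/
theorem sigmaP_mul_self (p : ℕ) (hp : p.Prime) (k : ℕ) : sigmaP p (k * p) = sigmaP p k := by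
  rcases Nat.eq_zero_or_pos k with rfl | hk
  · simp
  unfold sigmaP
  apply Finset.sum_congr _ (fun _ _ => rfl)
  ext e
  simp only [Finset.mem_filter, Nat.mem_divisors]
  constructor
  · rintro ⟨⟨hen, _⟩, hpe⟩
    refine ⟨⟨?_, hk.ne'⟩, hpe⟩
    exact (Nat.Coprime.dvd_mul_right ((Nat.Prime.coprime_iff_not_dvd hp).2 hpe).symm).1 hen
  · rintro ⟨⟨hen, hk0⟩, hpe⟩
    exact ⟨⟨Dvd.dvd.mul_right hen p, Nat.mul_ne_zero hk0 hp.ne_zero⟩, hpe⟩

variable (p : ℕ) [Fact p.Prime]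

/-- The lattice `L`. -/
abbrev Lat : Type := ↥(CuspForm.intLattice p 2)

/-- The Hecke algebra `𝕋 ⊆ End_ℤ(L)`. -/
abbrev TT : Type := ↥(heckeLatticeAlgebra p ∅)

/-- The surjection `ℤ[X_ℓ] → 𝕋`. -/
def phi : HeckeAlg →+* TT p :=
  (latticeRestrictHom p ∅).toRingHom.comp (heckeEvalForms p 2)

/-- The Eisenstein character `ℤ[X_ℓ] → ℤ`. -/
def ev : HeckeAlg →+* ℤ := (MvPolynomial.aeval (R := ℤ) (eisensteinSystem p)).toRingHom

theorem mem_eisensteinIdeal_iff (t : HeckeAlg) : t ∈ eisensteinIdeal p ↔ ev p t = 0 :=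
  mem_eigenIdeal_iff _ t

theorem phi_apply_coe (t : HeckeAlg) (f : Lat p) :
    (((phi p t : TT p) : Module.End ℤ (Lat p)) f : CuspForm (Gamma0 p) 2) =
      ((heckeEvalForms p 2 t : heckeAlgebra p 2 ∅) :
        Module.End ℂ (CuspForm (Gamma0 p) 2)) (f : CuspForm (Gamma0 p) 2) := rfl

/-! ### Integral `q`-coefficients on `L` -/

theorem mem_intLattice_iff_forall (f : CuspForm (Gamma0 p) 2) :
    f ∈ CuspForm.intLattice p 2 ↔ ∀ n : ℕ, ∃ m : ℤ, qCoeff (⇑f) n = (m : ℂ) := by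
  rw [mem_intLattice_iff, mem_qIntegralSet_iff]

theorem exists_coeff (f : Lat p) (n : ℕ) :
    ∃ m : ℤ, qCoeff (⇑(f : CuspForm (Gamma0 p) 2)) n = (m : ℂ) :=
  (mem_intLattice_iff_forall p (f : CuspForm (Gamma0 p) 2)).1 f.2 n

/-- The `n`-th `q`-coefficient of `f ∈ L`, as an integer. -/
def coeffZ (f : Lat p) (n : ℕ) : ℤ := Classical.choose (exists_coeff p f n)

theorem coeffZ_spec (f : Lat p) (n : ℕ) :
    ((coeffZ p f n : ℤ) : ℂ) = qCoeff (⇑(f : CuspForm (Gamma0 p) 2)) n :=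
  (Classical.choose_spec (exists_coeff p f n)).symm

theorem coeffZ_eq_iff (f : Lat p) (n : ℕ) (c : ℤ) :
    coeffZ p f n = c ↔ qCoeff (⇑(f : CuspForm (Gamma0 p) 2)) n = (c : ℂ) := by
  rw [← coeffZ_spec]
  exact Int.cast_inj.symm

theorem coeffZ_add (f g : Lat p) (n : ℕ) :
    coeffZ p (f + g) n = coeffZ p f n + coeffZ p g n := by
  rw [coeffZ_eq_iff, Submodule.coe_add, qCoeff_add, ← coeffZ_spec, ← coeffZ_spec]
  push_cast
  rfl

theorem coeffZ_zsmul (c : ℤ) (f : Lat p) (n : ℕ) :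
    coeffZ p (c • f) n = c * coeffZ p f n := by
  rw [coeffZ_eq_iff, Submodule.coe_smul, qCoeff_zsmul, ← coeffZ_spec]
  push_cast
  rfl

/-- The `n`-th coefficient functional `α_n : L → ℤ`. -/
def alpha (n : ℕ) : Lat p →ₗ[ℤ] ℤ where
  toFun f := coeffZ p f n
  map_add' f g := coeffZ_add p f g n
  map_smul' c f := by simpa using coeffZ_zsmul p c f n

@[simp] theorem alpha_apply (n : ℕ) (f : Lat p) : alpha p n f = coeffZ p f n := rfl

theorem coeffZ_zero_index (f : Lat p) : coeffZ p f 0 = 0 := by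
  rw [coeffZ_eq_iff, qCoeff_zero]
  simp

theorem coeffZ_zero_form (n : ℕ) : coeffZ p (0 : Lat p) n = 0 :=
  (coeffZ_eq_iff p 0 n 0).2 (by rw [Submodule.coe_zero, qCoeff_zero_form]; simp)

/-- `q`-expansion principle on `L`. -/
theorem ext_coeffZ {f g : Lat p} (h : ∀ n, coeffZ p f n = coeffZ p g n) : f = g := by
  apply Subtype.ext
  apply ext_qCoeff
  intro n
  rw [← coeffZ_spec, ← coeffZ_spec, h n]

/-- Saturation of `L`: a form in `L` all of whose coefficients are divisible by `M ≠ 0` is `M`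
times a form in `L`. -/
theorem exists_eq_zsmul_of_dvd (M : ℤ) (hM : M ≠ 0) (f : Lat p)
    (h : ∀ n, M ∣ coeffZ p f n) : ∃ g : Lat p, f = M • g := by
  have hMC : (M : ℂ) ≠ 0 := Int.cast_ne_zero.2 hM
  have hg : ((M : ℂ)⁻¹ • (f : CuspForm (Gamma0 p) 2)) ∈ CuspForm.intLattice p 2 := by
    rw [mem_intLattice_iff_forall]
    intro n
    obtain ⟨c, hc⟩ := h n
    refine ⟨c, ?_⟩
    rw [qCoeff_smul, ← coeffZ_spec, hc, Int.cast_mul, ← mul_assoc, inv_mul_cancel₀ hMC, one_mul]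
  refine ⟨⟨_, hg⟩, ?_⟩
  apply Subtype.ext
  rw [Submodule.coe_smul]
  change (f : CuspForm (Gamma0 p) 2) = M • ((M : ℂ)⁻¹ • (f : CuspForm (Gamma0 p) 2))
  rw [← Int.cast_smul_eq_zsmul ℂ M, smul_smul, mul_inv_cancel₀ hMC, one_smul]


/-! ### The action of `ℤ[X_ℓ]` on `L` -/

/-- The action of `t ∈ ℤ[X_ℓ]` on `L`. -/
def act (t : HeckeAlg) : Module.End ℤ (Lat p) := ((phi p t : TT p) : Module.End ℤ (Lat p))

theorem act_mul (s t : HeckeAlg) (f : Lat p) : act p (s * t) f = act p s (act p t f) := by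
  unfold act
  rw [map_mul]
  rfl

theorem act_add (s t : HeckeAlg) (f : Lat p) : act p (s + t) f = act p s f + act p t f := by
  unfold act
  rw [map_add]
  rfl

theorem act_sub (s t : HeckeAlg) (f : Lat p) : act p (s - t) f = act p s f - act p t f := by
  unfold act
  rw [map_sub]
  rfl

theorem act_one (f : Lat p) : act p 1 f = f := by
  unfold act
  rw [map_one]
  rfl

theorem act_C (a : ℤ) (f : Lat p) : act p (MvPolynomial.C a) f = a • f := by
  unfold act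
  have h : (MvPolynomial.C a : HeckeAlg) = ((a : ℤ) : HeckeAlg) := by
    rw [← eq_intCast (MvPolynomial.C (σ := Nat.Primes) (R := ℤ)) a]
  rw [h, map_intCast]
  have h2 : (((a : ℤ) : TT p) : Module.End ℤ (Lat p)) = ((a : ℤ) : Module.End ℤ (Lat p)) :=
    map_intCast (heckeLatticeAlgebra p ∅).val a
  rw [h2, Module.End.intCast_apply]

theorem act_C_mul (a : ℤ) (t : HeckeAlg) (f : Lat p) :
    act p (MvPolynomial.C a * t) f = a • act p t f := by
  rw [act_mul, act_C]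

theorem coeffZ_act_X_of_not_dvd (ℓ : Nat.Primes) (h : ¬ (ℓ : ℕ) ∣ p) (f : Lat p) (n : ℕ) :
    coeffZ p (act p (heckeGen ℓ) f) n =
      coeffZ p f (n * ℓ) + if (ℓ : ℕ) ∣ n then (ℓ : ℤ) * coeffZ p f (n / ℓ) else 0 := by
  rw [coeffZ_eq_iff]
  unfold act
  rw [phi_apply_coe, heckeEvalForms_heckeGen_of_not_dvd h, heckeAlgebra.coe_T, qCoeff_heckeTLin,
    ← coeffZ_spec, ← coeffZ_spec]
  split_ifs <;> push_cast <;> rfl

theorem coeffZ_act_X_of_dvd (ℓ : Nat.Primes) (h : (ℓ : ℕ) ∣ p) (f : Lat p) (n : ℕ) :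
    coeffZ p (act p (heckeGen ℓ) f) n = coeffZ p f (n * ℓ) := by
  rw [coeffZ_eq_iff]
  unfold act
  rw [phi_apply_coe, heckeEvalForms_heckeGen_of_dvd h, heckeAlgebra.coe_U, qCoeff_heckeULin,
    ← coeffZ_spec]

theorem ev_X_of_not_dvd (ℓ : Nat.Primes) (h : ¬ (ℓ : ℕ) ∣ p) : ev p (heckeGen ℓ) = 1 + (ℓ : ℕ) := by
  unfold ev
  rw [AlgHom.toRingHom_eq_coe, RingHom.coe_coe, aeval_heckeGen, eisensteinSystem_of_not_dvd h]

theorem ev_X_of_dvd (ℓ : Nat.Primes) (h : (ℓ : ℕ) ∣ p) : ev p (heckeGen ℓ) = 1 := by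
  unfold ev
  rw [AlgHom.toRingHom_eq_coe, RingHom.coe_coe, aeval_heckeGen, eisensteinSystem_of_dvd h]

theorem ev_C (a : ℤ) : ev p (MvPolynomial.C a) = a := by
  unfold ev
  rw [AlgHom.toRingHom_eq_coe, RingHom.coe_coe, MvPolynomial.aeval_C]
  rfl


/-! ### The operators `t_n` with `a_1(t_n f) = a_n(f)` -/

theorem prime_dvd_iff_eq (ℓ : ℕ) (hℓ : ℓ.Prime) : ℓ ∣ p ↔ ℓ = p :=
  Nat.prime_dvd_prime_iff_eq hℓ Fact.out

/-- For every `n ≥ 1` there is a polynomial `P_n` in the Hecke operators with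
`a_1(P_n f) = a_n(f)` on `L` and Eisenstein eigenvalue `σ'(n)`. -/
theorem exists_poly (n : ℕ) (hn : 0 < n) :
    ∃ P : HeckeAlg, (∀ f : Lat p, coeffZ p (act p P f) 1 = coeffZ p f n) ∧
      ev p P = (sigmaP p n : ℤ) := by
  have hp : p.Prime := Fact.out
  induction n using Nat.strong_induction_on with
  | _ n ih =>
    rcases Nat.lt_or_ge n 2 with h2 | h2
    · obtain rfl : n = 1 := by omega
      refine ⟨1, fun f => by rw [act_one], ?_⟩
      rw [map_one, sigmaP_one p hp]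
      rfl
    · have hℓ : n.minFac.Prime := Nat.minFac_prime (by omega)
      obtain ⟨k, hk⟩ : n.minFac ∣ n := Nat.minFac_dvd n
      set ℓ := n.minFac with hℓdef
      have hkpos : 0 < k := by
        rcases Nat.eq_zero_or_pos k with rfl | h
        · omega
        · exact h
      have hkn : k < n := by
        rw [hk]
        exact lt_mul_of_one_lt_left hkpos hℓ.one_lt
      obtain ⟨Pk, hPk1, hPk2⟩ := ih k hkn hkpos
      have hnk : n = k * ℓ := by rw [hk, mul_comm]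
      by_cases hℓp : ℓ ∣ p
      · refine ⟨Pk * heckeGen ⟨ℓ, hℓ⟩, fun f => ?_, ?_⟩
        · rw [act_mul, hPk1, coeffZ_act_X_of_dvd p ⟨ℓ, hℓ⟩ hℓp, hnk]
        · rw [map_mul, hPk2, ev_X_of_dvd p ⟨ℓ, hℓ⟩ hℓp, mul_one, hnk,
            (prime_dvd_iff_eq p ℓ hℓ).1 hℓp, sigmaP_mul_self p hp]
      · have hne : ℓ ≠ p := fun h => hℓp (h ▸ dvd_rfl)
        have hrel := sigmaP_mul_prime p ℓ hp hℓ hne k
        by_cases hℓk : ℓ ∣ k
        · obtain ⟨k', hk'⟩ := hℓk
          have hk'pos : 0 < k' := by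
            rcases Nat.eq_zero_or_pos k' with rfl | h
            · omega
            · exact h
          have hk'n : k' < n := lt_trans (by
            rw [hk']
            exact lt_mul_of_one_lt_left hk'pos hℓ.one_lt) hkn
          obtain ⟨Pk', hPk'1, hPk'2⟩ := ih k' hk'n hk'pos
          have hdiv : k / ℓ = k' := by rw [hk', Nat.mul_div_cancel_left _ hℓ.pos]
          have hdvd : ℓ ∣ k := ⟨k', hk'⟩
          refine ⟨Pk * heckeGen ⟨ℓ, hℓ⟩ - MvPolynomial.C (ℓ : ℤ) * Pk', fun f => ?_, ?_⟩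
          · rw [act_sub, act_mul, act_C_mul, ← alpha_apply, map_sub, map_smul, alpha_apply,
              alpha_apply, hPk1, hPk'1, coeffZ_act_X_of_not_dvd p ⟨ℓ, hℓ⟩ hℓp, if_pos hdvd, hdiv,
              hnk]
            simp
          · rw [map_sub, map_mul, map_mul, hPk2, hPk'2, ev_X_of_not_dvd p ⟨ℓ, hℓ⟩ hℓp, ev_C, hnk]
            rw [if_pos hdvd, hdiv] at hrel
            have := congrArg (fun x : ℕ => (x : ℤ)) hrel
            push_cast at this ⊢
            linarith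
        · refine ⟨Pk * heckeGen ⟨ℓ, hℓ⟩, fun f => ?_, ?_⟩
          · rw [act_mul, hPk1, coeffZ_act_X_of_not_dvd p ⟨ℓ, hℓ⟩ hℓp, if_neg hℓk, add_zero, hnk]
          · rw [map_mul, hPk2, ev_X_of_not_dvd p ⟨ℓ, hℓ⟩ hℓp, hnk]
            rw [if_neg hℓk, add_zero] at hrel
            have := congrArg (fun x : ℕ => (x : ℤ)) hrel
            push_cast at this ⊢
            linarith


/-! ### Surjectivity of `ℤ[X_ℓ] → 𝕋` -/

theorem heckeEvalForms_surjective : Function.Surjective (heckeEvalForms p 2) := by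
  have hrange : (MvPolynomial.aeval (R := ℤ) (heckeFormsGen p 2)).range = ⊤ := by
    rw [← Algebra.adjoin_range_eq_range_aeval, eq_top_iff]
    have htop : Algebra.adjoin ℤ (((↑) : ↥(heckeAlgebra p 2 ∅) → _) ⁻¹' heckeGenerators p 2 ∅) = ⊤ :=
      Algebra.adjoin_adjoin_coe_preimage
    rw [← htop]
    apply Algebra.adjoin_mono
    rintro ⟨x, hx⟩ (⟨ℓ, hℓ, hℓN, hℓS, rfl⟩ | ⟨q, hqN, hq, hqS, rfl⟩)
    · exact ⟨⟨ℓ, hℓ⟩, by rw [heckeFormsGen_of_not_dvd (ℓ := ⟨ℓ, hℓ⟩) hℓN]; rfl⟩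
    · exact ⟨⟨q, hq⟩, by rw [heckeFormsGen_of_dvd (q := ⟨q, hq⟩) hqN]; rfl⟩
  intro y
  have hy : y ∈ (MvPolynomial.aeval (R := ℤ) (heckeFormsGen p 2)).range := by
    rw [hrange]; exact Algebra.mem_top
  obtain ⟨t, ht⟩ := hy
  exact ⟨t, ht⟩

theorem phi_surjective : Function.Surjective (phi p) := by
  intro y
  obtain ⟨x, hx⟩ := latticeRestrictHom_surjective p ∅ y
  obtain ⟨t, ht⟩ := heckeEvalForms_surjective p x
  exact ⟨t, by rw [← hx, ← ht]; rfl⟩

/-! ### (LB): an Eisenstein congruence modulo `M` bounds the index from below -/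

section LB

variable {p} {M : ℤ} (hM : M ≠ 0) {f₀ : Lat p}
  (hf₀ : ∀ n, M ∣ coeffZ p f₀ n - (sigmaP p n : ℤ))

include hM hf₀

theorem exists_act_X_sub (ℓ : Nat.Primes) :
    ∃ g : Lat p, act p (heckeGen ℓ) f₀ - ev p (heckeGen ℓ) • f₀ = M • g := by
  have hp : p.Prime := Fact.out
  apply exists_eq_zsmul_of_dvd p M hM
  intro n
  rw [← alpha_apply, map_sub, map_smul, alpha_apply, alpha_apply, smul_eq_mul]
  by_cases h : (ℓ : ℕ) ∣ p
  · rw [coeffZ_act_X_of_dvd p ℓ h, ev_X_of_dvd p ℓ h, one_mul]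
    have h1 := hf₀ (n * ℓ)
    have h2 := hf₀ n
    rw [(prime_dvd_iff_eq p ℓ ℓ.2).1 h] at h1 ⊢
    rw [sigmaP_mul_self p hp] at h1
    have := dvd_sub h1 h2
    rwa [sub_sub_sub_cancel_right] at this
  · rw [coeffZ_act_X_of_not_dvd p ℓ h, ev_X_of_not_dvd p ℓ h]
    have hne : (ℓ : ℕ) ≠ p := fun h' => h (h' ▸ dvd_rfl)
    have hrel := congrArg (fun x : ℕ => (x : ℤ)) (sigmaP_mul_prime p ℓ hp ℓ.2 hne n)
    have h1 := hf₀ (n * ℓ)
    have h2 := hf₀ n
    split_ifs with hd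
    · rw [if_pos hd] at hrel
      have h3 := hf₀ (n / ℓ)
      push_cast at hrel
      have : coeffZ p f₀ (n * ↑ℓ) + (ℓ : ℤ) * coeffZ p f₀ (n / ↑ℓ) - (1 + ((ℓ : ℕ) : ℤ)) * coeffZ p f₀ n =
          (coeffZ p f₀ (n * ↑ℓ) - (sigmaP p (n * ↑ℓ) : ℤ)) +
            (ℓ : ℤ) * (coeffZ p f₀ (n / ↑ℓ) - (sigmaP p (n / ↑ℓ) : ℤ)) -
            (1 + ((ℓ : ℕ) : ℤ)) * (coeffZ p f₀ n - (sigmaP p n : ℤ)) := by
        linear_combination hrel
      rw [this]
      exact dvd_sub (dvd_add h1 (Dvd.dvd.mul_left h3 _)) (Dvd.dvd.mul_left h2 _)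
    · rw [if_neg hd] at hrel
      push_cast at hrel
      have : coeffZ p f₀ (n * ↑ℓ) + 0 - (1 + ((ℓ : ℕ) : ℤ)) * coeffZ p f₀ n =
          (coeffZ p f₀ (n * ↑ℓ) - (sigmaP p (n * ↑ℓ) : ℤ)) -
            (1 + ((ℓ : ℕ) : ℤ)) * (coeffZ p f₀ n - (sigmaP p n : ℤ)) := by
        linear_combination hrel
      rw [this]
      exact dvd_sub h1 (Dvd.dvd.mul_left h2 _)

/-- `f₀` is an eigenvector modulo `M L` for the whole Hecke algebra, with the Eisenstein
eigenvalues. -/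
theorem exists_act_sub (t : HeckeAlg) :
    ∃ g : Lat p, act p t f₀ - ev p t • f₀ = M • g := by
  induction t using MvPolynomial.induction_on with
  | C a => exact ⟨0, by rw [act_C, ev_C, sub_self, smul_zero]⟩
  | add s t hs ht =>
    obtain ⟨g₁, h₁⟩ := hs
    obtain ⟨g₂, h₂⟩ := ht
    refine ⟨g₁ + g₂, ?_⟩
    rw [act_add, map_add, add_smul, smul_add, ← h₁, ← h₂]
    abel
  | mul_X t ℓ ht =>
    obtain ⟨g₁, h₁⟩ := ht
    obtain ⟨g₂, h₂⟩ := exists_act_X_sub hM hf₀ ℓ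
    have hX : (MvPolynomial.X ℓ : HeckeAlg) = heckeGen ℓ := rfl
    refine ⟨ev p (heckeGen ℓ) • g₁ + act p t g₂, ?_⟩
    rw [hX, act_mul, map_mul]
    have e₂ : act p (heckeGen ℓ) f₀ = ev p (heckeGen ℓ) • f₀ + M • g₂ := by
      rw [← h₂]; abel
    have e₁ : act p t f₀ = ev p t • f₀ + M • g₁ := by
      rw [← h₁]; abel
    rw [e₂, map_add, map_smul, map_smul, e₁, smul_add, smul_add, smul_smul, smul_smul, smul_smul,
      mul_comm (ev p t) (ev p (heckeGen ℓ)), mul_comm (ev p (heckeGen ℓ)) M]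
    abel

/-- **(LB)**: if `f₀ ≡ E' mod M` then every integer in `I𝕋` is divisible by `M`. -/
theorem dvd_of_intCast_mem (d : ℤ)
    (hd : ((d : ℤ) : TT p) ∈ Ideal.map (phi p) (eisensteinIdeal p)) : M ∣ d := by
  have hp : p.Prime := Fact.out
  obtain ⟨t, ht, htd⟩ := (Ideal.mem_map_iff_of_surjective (phi p) (phi_surjective p)).1 hd
  rw [mem_eisensteinIdeal_iff] at ht
  obtain ⟨g, hg⟩ := exists_act_sub hM hf₀ t
  rw [ht, zero_smul, sub_zero] at hg
  have hact : act p t f₀ = d • f₀ := by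
    unfold act
    rw [htd]
    have h2 : (((d : ℤ) : TT p) : Module.End ℤ (Lat p)) = ((d : ℤ) : Module.End ℤ (Lat p)) :=
      map_intCast (heckeLatticeAlgebra p ∅).val d
    rw [h2, Module.End.intCast_apply]
  rw [hact] at hg
  have h1 := congrArg (fun f => coeffZ p f 1) hg
  simp only [coeffZ_zsmul] at h1
  have h2 := hf₀ 1
  rw [sigmaP_one p hp] at h2
  have : d = d * coeffZ p f₀ 1 - d * (coeffZ p f₀ 1 - ((1 : ℕ) : ℤ)) := by push_cast; ring
  rw [this, h1]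
  exact dvd_sub (dvd_mul_right _ _) (Dvd.dvd.mul_left h2 _)

end LB


/-! ### The pairing `𝕋 × L → ℤ`, `(t, f) ↦ a_1(t f)` is perfect -/

/-- `Φ : L → Hom_ℤ(𝕋, ℤ)`, `f ↦ (t ↦ a_1(t f))`. -/
def pairL : Lat p →ₗ[ℤ] (TT p →ₗ[ℤ] ℤ) where
  toFun f :=
    { toFun := fun t => coeffZ p ((t : Module.End ℤ (Lat p)) f) 1
      map_add' := fun s t => by
        rw [Subalgebra.coe_add, LinearMap.add_apply, coeffZ_add]
      map_smul' := fun c t => by
        rw [Subalgebra.coe_smul, LinearMap.smul_apply, coeffZ_zsmul]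
        rfl }
  map_add' f g := by
    ext t
    simp only [LinearMap.coe_mk, AddHom.coe_mk, map_add, LinearMap.add_apply, coeffZ_add]
  map_smul' c f := by
    ext t
    simp only [LinearMap.coe_mk, AddHom.coe_mk, map_smul, LinearMap.smul_apply, coeffZ_zsmul,
      RingHom.id_apply, smul_eq_mul]

theorem pairL_apply (f : Lat p) (t : TT p) :
    pairL p f t = coeffZ p ((t : Module.End ℤ (Lat p)) f) 1 := rfl

theorem pairL_phi (f : Lat p) (t : HeckeAlg) : pairL p f (phi p t) = coeffZ p (act p t f) 1 := rfl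

theorem pairL_injective : Function.Injective (pairL p) := by
  rw [← LinearMap.ker_eq_bot, LinearMap.ker_eq_bot']
  intro f hf
  apply ext_coeffZ
  intro n
  rcases Nat.eq_zero_or_pos n with rfl | hn
  · rw [coeffZ_zero_index, coeffZ_zero_index]
  · obtain ⟨P, hP, -⟩ := exists_poly p n hn
    rw [← hP f, ← pairL_phi, hf, LinearMap.zero_apply, coeffZ_zero_form]

/-- `Ψ : 𝕋 → Hom_ℤ(L, ℤ)`, `t ↦ (f ↦ a_1(t f))`. -/
def pairT : TT p →ₗ[ℤ] (Lat p →ₗ[ℤ] ℤ) := (pairL p).flip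

theorem pairT_apply (t : TT p) (f : Lat p) :
    pairT p t f = coeffZ p ((t : Module.End ℤ (Lat p)) f) 1 := rfl

theorem pairT_injective : Function.Injective (pairT p) := by
  rw [← LinearMap.ker_eq_bot, LinearMap.ker_eq_bot']
  intro t ht
  apply Subtype.ext
  apply LinearMap.ext
  intro f
  change (t : Module.End ℤ (Lat p)) f = 0
  apply ext_coeffZ
  intro n
  rw [coeffZ_zero_form]
  rcases Nat.eq_zero_or_pos n with rfl | hn
  · rw [coeffZ_zero_index]
  · obtain ⟨P, hP, -⟩ := exists_poly p n hn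
    rw [← hP]
    -- `P (t f) = t (P f)` by commutativity of `𝕋`
    have hcomm : act p P ((t : Module.End ℤ (Lat p)) f) = (t : Module.End ℤ (Lat p)) (act p P f) := by
      have : (phi p P) * t = t * (phi p P) := mul_comm _ _
      have h2 := congrArg (fun x : TT p => ((x : Module.End ℤ (Lat p)) f)) this
      exact h2
    rw [hcomm, ← pairT_apply, ht, LinearMap.zero_apply]

theorem finrank_eq : Module.finrank ℤ (Lat p) = Module.finrank ℤ (TT p →ₗ[ℤ] ℤ) := by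
  have := intLattice.moduleFinite p
  have := intLattice.moduleFree p
  have h1 : Module.finrank ℤ (TT p →ₗ[ℤ] ℤ) = Module.finrank ℤ (TT p) := by
    rw [Module.finrank_linearMap, Module.finrank_self, mul_one]
  have h2 : Module.finrank ℤ (Lat p →ₗ[ℤ] ℤ) = Module.finrank ℤ (Lat p) := by
    rw [Module.finrank_linearMap, Module.finrank_self, mul_one]
  apply le_antisymm
  · exact LinearMap.finrank_le_finrank_of_injective (pairL_injective p)
  · rw [h1, ← h2]
    exact LinearMap.finrank_le_finrank_of_injective (pairT_injective p)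

/-- **Perfectness**: every `ℤ`-linear form on `𝕋` is `t ↦ a_1(t f)` for some `f ∈ L`. -/
theorem pairL_surjective : Function.Surjective (pairL p) := by
  have := intLattice.moduleFinite p
  have := intLattice.moduleFree p
  intro lam
  -- the cokernel has rank zero, hence is torsion
  have hq : Module.finrank ℤ ((TT p →ₗ[ℤ] ℤ) ⧸ LinearMap.range (pairL p)) = 0 := by
    have h1 := Submodule.finrank_quotient_add_finrank (LinearMap.range (pairL p))
    rw [LinearMap.finrank_range_of_inj (pairL_injective p), ← finrank_eq p] at h1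
    omega
  obtain ⟨a, ha, hax⟩ := (Module.finrank_eq_zero_iff.1 hq) (Submodule.Quotient.mk lam)
  rw [← Submodule.Quotient.mk_smul, Submodule.Quotient.mk_eq_zero] at hax
  obtain ⟨f, hf⟩ := hax
  -- all coefficients of `f` are divisible by `a`
  have hdvd : ∀ n, a ∣ coeffZ p f n := by
    intro n
    rcases Nat.eq_zero_or_pos n with rfl | hn
    · rw [coeffZ_zero_index]; exact dvd_zero _
    · obtain ⟨P, hP, -⟩ := exists_poly p n hn
      rw [← hP f, ← pairL_phi, hf, LinearMap.smul_apply, smul_eq_mul]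
      exact dvd_mul_right _ _
  obtain ⟨g, rfl⟩ := exists_eq_zsmul_of_dvd p a ha f hdvd
  refine ⟨g, ?_⟩
  rw [map_smul] at hf
  exact smul_right_injective _ ha hf


/-! ### (UB): a prime power dividing the index gives an Eisenstein congruence -/

theorem phi_C (a : ℤ) : phi p (MvPolynomial.C a) = ((a : ℤ) : TT p) := by
  have h : (MvPolynomial.C a : HeckeAlg) = ((a : ℤ) : HeckeAlg) := by
    rw [← eq_intCast (MvPolynomial.C (σ := Nat.Primes) (R := ℤ)) a]
  rw [h, map_intCast]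

/-- `φ(t) ≡ ev(t)` modulo `I𝕋`. -/
theorem phi_sub_intCast_mem (t : HeckeAlg) :
    phi p t - ((ev p t : ℤ) : TT p) ∈ Ideal.map (phi p) (eisensteinIdeal p) := by
  rw [← phi_C, ← map_sub]
  apply Ideal.mem_map_of_mem
  rw [mem_eisensteinIdeal_iff, map_sub, ev_C, sub_self]

/-- If every integer in `I𝕋` is divisible by `M`, there is `f₀ ∈ L` with `f₀ ≡ E' mod M`. -/
theorem eisensteinCongruence_of_forall_dvd (M : ℕ)
    (h : ∀ d : ℤ, ((d : ℤ) : TT p) ∈ Ideal.map (phi p) (eisensteinIdeal p) → (M : ℤ) ∣ d) :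
    EisensteinCongruence p M := by
  -- the eigencharacter `χ : 𝕋 → ℤ/M`
  let evbar : HeckeAlg →+* ZMod M := (Int.castRingHom (ZMod M)).comp (ev p)
  have hker : RingHom.ker (phi p) ≤ RingHom.ker evbar := by
    intro t ht
    rw [RingHom.mem_ker] at ht ⊢
    have h1 := phi_sub_intCast_mem p t
    rw [ht, zero_sub, neg_mem_iff] at h1
    change ((ev p t : ℤ) : ZMod M) = 0
    rw [ZMod.intCast_zmod_eq_zero_iff_dvd]
    exact h _ h1
  let chi : TT p →+* ZMod M := RingHom.liftOfSurjective (phi p) (phi_surjective p) ⟨evbar, hker⟩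
  have hchi : ∀ t, chi (phi p t) = ((ev p t : ℤ) : ZMod M) := fun t =>
    RingHom.liftOfRightInverse_comp_apply _ _ _ ⟨evbar, hker⟩ t
  -- lift to a linear form `𝕋 → ℤ`
  obtain ⟨lam, hlam⟩ := Module.projective_lifting_property
    (Int.castAddHom (ZMod M)).toIntLinearMap chi.toAddMonoidHom.toIntLinearMap
    (ZMod.intCast_surjective)
  obtain ⟨f₀, hf₀⟩ := pairL_surjective p lam
  refine ⟨(f₀ : CuspForm (Gamma0 p) 2), fun n => ⟨coeffZ p f₀ n, (coeffZ_spec p f₀ n).symm, ?_⟩⟩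
  rcases Nat.eq_zero_or_pos n with rfl | hn
  · rw [coeffZ_zero_index, sigmaP_zero]
    simp
  · obtain ⟨P, hP, hPev⟩ := exists_poly p n hn
    rw [← hP f₀, ← pairL_phi, hf₀, ← ZMod.intCast_eq_intCast_iff_dvd_sub]
    have := LinearMap.congr_fun hlam (phi p P)
    simp only [LinearMap.coe_comp, Function.comp_apply, AddMonoidHom.coe_toIntLinearMap,
      Int.coe_castAddHom, RingHom.toAddMonoidHom_eq_coe, AddMonoidHom.coe_coe] at this
    rw [this, hchi, hPev]

/-! ### The index -/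

/-- `ℤ → 𝕋/I𝕋` is onto. -/
theorem intCast_surjective :
    Function.Surjective (Int.castRingHom (TT p ⧸ Ideal.map (phi p) (eisensteinIdeal p))) := by
  intro y
  obtain ⟨x, rfl⟩ := Ideal.Quotient.mk_surjective y
  obtain ⟨t, rfl⟩ := phi_surjective p x
  refine ⟨ev p t, ?_⟩
  rw [eq_intCast, ← map_intCast (Ideal.Quotient.mk (Ideal.map (phi p) (eisensteinIdeal p))),
    eq_comm, Ideal.Quotient.eq]
  exact phi_sub_intCast_mem p t

theorem mem_ker_intCast_iff (d : ℤ) :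
    d ∈ RingHom.ker (Int.castRingHom (TT p ⧸ Ideal.map (phi p) (eisensteinIdeal p))) ↔
      ((d : ℤ) : TT p) ∈ Ideal.map (phi p) (eisensteinIdeal p) := by
  rw [RingHom.mem_ker, eq_intCast,
    ← map_intCast (Ideal.Quotient.mk (Ideal.map (phi p) (eisensteinIdeal p))),
    Ideal.Quotient.eq_zero_iff_mem]

/-- **S16 from the two `q`-expansion statements (LB) and (UB).** -/
theorem result_of (hLB : EisensteinCongruence p (eisensteinNumerator p))
    (hUB : ∀ l a : ℕ, l.Prime → 0 < a → EisensteinCongruence p (l ^ a) →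
      l ^ a ∣ eisensteinNumerator p) :
    Nat.card (↥(heckeLatticeAlgebra p ∅) ⧸
        Ideal.map ((latticeRestrictHom p ∅).toRingHom.comp (heckeEvalForms p 2))
          (eisensteinIdeal p)) =
      eisensteinNumerator p := by
  change Nat.card (TT p ⧸ Ideal.map (phi p) (eisensteinIdeal p)) = eisensteinNumerator p
  have hp : p.Prime := Fact.out
  set n := eisensteinNumerator p with hn
  have hnpos : 0 < n := by
    rw [hn, eisensteinNumerator]
    have h1 : 0 < p - 1 := Nat.sub_pos_of_lt hp.one_lt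
    exact Nat.div_pos (Nat.le_of_dvd h1 (Nat.gcd_dvd_left _ _)) (Nat.gcd_pos_of_pos_left _ h1)
  set K := RingHom.ker (Int.castRingHom (TT p ⧸ Ideal.map (phi p) (eisensteinIdeal p))) with hK
  -- (LB): `K ⊆ (n)`
  have hle : ∀ d ∈ K, (n : ℤ) ∣ d := by
    intro d hd
    rw [hK, mem_ker_intCast_iff] at hd
    obtain ⟨f, hf⟩ := hLB
    have hfL : f ∈ CuspForm.intLattice p 2 := by
      rw [mem_intLattice_iff_forall]
      intro k
      obtain ⟨c, hc, -⟩ := hf k
      exact ⟨c, hc⟩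
    refine dvd_of_intCast_mem (f₀ := ⟨f, hfL⟩) (M := (n : ℤ)) (by exact_mod_cast hnpos.ne') ?_ d hd
    intro k
    obtain ⟨c, hc, hdvd⟩ := hf k
    rwa [(coeffZ_eq_iff p ⟨f, hfL⟩ k c).2 hc]
  -- a generator `g` of `K`
  obtain ⟨g, hg⟩ : ∃ g : ℤ, K = Ideal.span {g} :=
    ⟨_, (Submodule.IsPrincipal.span_singleton_generator K).symm⟩
  have hgK : g ∈ K := by rw [hg]; exact Ideal.mem_span_singleton_self g
  have hng : (n : ℤ) ∣ g := hle g hgK
  -- (UB): `g.natAbs ∣ n`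
  have hgn : g.natAbs ∣ n := by
    rw [Nat.dvd_iff_prime_pow_dvd_dvd]
    intro l a hl hla
    rcases Nat.eq_zero_or_pos a with rfl | ha
    · simp
    refine hUB l a hl ha (eisensteinCongruence_of_forall_dvd p (l ^ a) ?_)
    intro d hd
    rw [← mem_ker_intCast_iff, ← hK, hg, Ideal.mem_span_singleton] at hd
    have h1 : ((l ^ a : ℕ) : ℤ) ∣ g := by
      rw [← Int.natAbs_dvd_natAbs, Int.natAbs_natCast]
      exact hla
    exact h1.trans hd
  have hgn' : g.natAbs = n := by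
    apply Nat.dvd_antisymm hgn
    rw [← Int.natAbs_dvd_natAbs, Int.natAbs_natCast] at hng
    exact hng
  -- count
  have e1 : (ℤ ⧸ K) ≃+* (TT p ⧸ Ideal.map (phi p) (eisensteinIdeal p)) :=
    RingHom.quotientKerEquivOfSurjective (intCast_surjective p)
  rw [← Nat.card_congr e1.toEquiv, hg, Nat.card_congr (Int.quotientSpanEquivZMod g).toEquiv,
    Nat.card_zmod, hgn']

end Fermat.Agent.S16.Reduction
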