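import Mathlib
import Fermat.Prelude.Def_ModularForm_HeckeOperator
import Fermat.Prelude.Def_FLTPrelim_Modularity
import Fermat.Prelude.Thm_CongruenceSubgroup_one_mem_strictPeriods_Gamma0

/-!
# S16: the weight 2 Eisenstein series of level `Γ₀(N)`

`eis2 N : ModularForm (Gamma0 N) 2` with underlying function `E₂(z) - N E₂(Nz)`.
-/

set_option autoImplicit false

open UpperHalfPlane hiding I

open ModularForm EisensteinSeries Matrix.SpecialLinearGroup Filter Complex MatrixGroups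
  CongruenceSubgroup

open scoped Manifold

noncomputable section

namespace Fermat.Agent.S16.Eis2

/-- `N · E₂(Nz)`, as a slash by `diag(N, 1)`. -/
def E2N (N : ℕ) : ℍ → ℂ := E2 ∣[(2 : ℤ)] heckeDiagMatrix N

theorem E2N_apply {N : ℕ} (hN : N ≠ 0) (τ : ℍ) :
    E2N N τ = N * E2 (heckeDiagMatrix N • τ) := by
  rw [E2N, slash_heckeDiagMatrix_apply 2 hN]
  norm_num

/-- `E₂(z) - N E₂(Nz)`. -/
def eis2Fun (N : ℕ) : ℍ → ℂ := E2 - E2N N

/-- The conjugate `diag(N,1) γ diag(N,1)⁻¹` of `γ ∈ Γ₀(N)`. -/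
def conjN (N : ℕ) (γ : SL(2, ℤ)) (c' : ℤ) (hc : γ 1 0 = N * c') : SL(2, ℤ) :=
  ⟨!![γ 0 0, N * γ 0 1; c', γ 1 1], by
    rw [Matrix.det_fin_two_of]
    have := γ.det_coe
    rw [Matrix.det_fin_two, hc] at this
    linarith⟩

@[simp] theorem conjN_zero_zero (N : ℕ) (γ : SL(2, ℤ)) (c' : ℤ) (hc : γ 1 0 = N * c') :
    conjN N γ c' hc 0 0 = γ 0 0 := rfl

@[simp] theorem conjN_zero_one (N : ℕ) (γ : SL(2, ℤ)) (c' : ℤ) (hc : γ 1 0 = N * c') :
    conjN N γ c' hc 0 1 = N * γ 0 1 := rfl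

@[simp] theorem conjN_one_zero (N : ℕ) (γ : SL(2, ℤ)) (c' : ℤ) (hc : γ 1 0 = N * c') :
    conjN N γ c' hc 1 0 = c' := rfl

@[simp] theorem conjN_one_one (N : ℕ) (γ : SL(2, ℤ)) (c' : ℤ) (hc : γ 1 0 = N * c') :
    conjN N γ c' hc 1 1 = γ 1 1 := rfl

theorem diag_mul_eq {N : ℕ} (hN : N ≠ 0) (γ : SL(2, ℤ)) (c' : ℤ) (hc : γ 1 0 = N * c') :
    heckeDiagMatrix N * (γ : GL (Fin 2) ℝ)
      = ((conjN N γ c' hc : SL(2, ℤ)) : GL (Fin 2) ℝ) * heckeDiagMatrix N := by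
  ext i j
  simp only [Matrix.GeneralLinearGroup.coe_mul, val_heckeDiagMatrix hN,
    Matrix.mul_apply, Fin.sum_univ_two]
  have hc' : ((γ 1 0 : ℤ) : ℝ) = N * c' := by exact_mod_cast congrArg (Int.cast : ℤ → ℝ) hc
  fin_cases i <;> fin_cases j <;> simp [hc'] <;> ring

theorem D2_conjN_slash {N : ℕ} (hN : N ≠ 0) (γ : SL(2, ℤ)) (c' : ℤ) (hc : γ 1 0 = N * c')
    (a : ℂ) :
    (a • D2 (conjN N γ c' hc)) ∣[(2 : ℤ)] heckeDiagMatrix N = a • D2 γ := by
  ext z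
  rw [slash_heckeDiagMatrix_apply 2 hN]
  simp only [Pi.smul_apply, D2, smul_eq_mul]
  rw [ModularGroup.denom_apply, ModularGroup.denom_apply, coe_heckeDiagMatrix_smul hN]
  have hc' : ((γ 1 0 : ℤ) : ℂ) = N * c' := by exact_mod_cast congrArg (Int.cast : ℤ → ℂ) hc
  have hN' : (N : ℂ) ≠ 0 := by exact_mod_cast hN
  simp only [conjN_one_zero, conjN_one_one, hc']
  have hd : (c' : ℂ) * ((N : ℂ) * (z : ℂ)) + ((γ 1 1 : ℤ) : ℂ)
      = (N : ℂ) * (c' : ℂ) * (z : ℂ) + ((γ 1 1 : ℤ) : ℂ) := by ring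
  rw [hd]
  norm_num
  ring

/-- `E₂(z) - N E₂(Nz)` is invariant under `Γ₀(N)` in weight 2. -/
theorem eis2Fun_slash {N : ℕ} (hN : N ≠ 0) (γ : SL(2, ℤ)) (hγ : γ ∈ Gamma0 N) :
    eis2Fun N ∣[(2 : ℤ)] γ = eis2Fun N := by
  obtain ⟨c', hc⟩ : ∃ c' : ℤ, γ 1 0 = N * c' := by
    rw [Gamma0_mem] at hγ
    exact (ZMod.intCast_zmod_eq_zero_iff_dvd _ _).1 hγ
  have h1 : E2N N ∣[(2 : ℤ)] γ = E2N N - (1 / (2 * riemannZeta 2)) • D2 γ := by
    rw [E2N, SL_slash, ← SlashAction.slash_mul, diag_mul_eq hN γ c' hc, SlashAction.slash_mul,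
      ← SL_slash, E2_slash_action, sub_eq_add_neg, SlashAction.add_slash, SlashAction.neg_slash,
      D2_conjN_slash hN γ c' hc, ← sub_eq_add_neg]
  rw [eis2Fun, sub_eq_add_neg, SlashAction.add_slash, SlashAction.neg_slash, h1, E2_slash_action]
  abel

/-! ### Boundedness at the cusps -/

theorem isBoundedAtImInfty_D2 (γ : SL(2, ℤ)) : IsBoundedAtImInfty (D2 γ) := by
  rw [isBoundedAtImInfty_iff]
  refine ⟨2 * Real.pi, 1, fun z hz => ?_⟩
  simp only [D2]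
  rw [ModularGroup.denom_apply]
  rcases eq_or_ne (γ 1 0) 0 with h0 | h0
  · simp [h0, Real.pi_pos.le]
  · have hc : (0 : ℝ) < |((γ 1 0 : ℤ) : ℝ)| := abs_pos.2 (by exact_mod_cast h0)
    have him : |((γ 1 0 : ℤ) : ℝ)| * z.im ≤ ‖((γ 1 0 : ℤ) : ℂ) * (z : ℂ) + ((γ 1 1 : ℤ) : ℂ)‖ := by
      have h1 : (((γ 1 0 : ℤ) : ℂ) * (z : ℂ) + ((γ 1 1 : ℤ) : ℂ)).im = ((γ 1 0 : ℤ) : ℝ) * z.im := by
        simp
      calc |((γ 1 0 : ℤ) : ℝ)| * z.im = |((γ 1 0 : ℤ) : ℝ) * z.im| := by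
            rw [abs_mul, abs_of_pos z.im_pos]
        _ = |(((γ 1 0 : ℤ) : ℂ) * (z : ℂ) + ((γ 1 1 : ℤ) : ℂ)).im| := by rw [h1]
        _ ≤ _ := Complex.abs_im_le_norm _
    have hpos : 0 < ‖((γ 1 0 : ℤ) : ℂ) * (z : ℂ) + ((γ 1 1 : ℤ) : ℂ)‖ :=
      lt_of_lt_of_le (mul_pos hc z.im_pos) him
    rw [norm_div, div_le_iff₀ hpos]
    have hnum : ‖2 * (Real.pi : ℂ) * I * ((γ 1 0 : ℤ) : ℂ)‖ = 2 * Real.pi * |((γ 1 0 : ℤ) : ℝ)| := by
      rw [norm_mul, norm_mul, norm_mul, Complex.norm_I, mul_one, Complex.norm_ofNat,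
        Complex.norm_real, Real.norm_eq_abs, abs_of_pos Real.pi_pos, Complex.norm_intCast]
    rw [hnum]
    have h2 : |((γ 1 0 : ℤ) : ℝ)| ≤ |((γ 1 0 : ℤ) : ℝ)| * z.im := by
      nlinarith [hc, hz]
    nlinarith [Real.pi_pos, him, h2]

theorem isBoundedAtImInfty_E2_slash (γ : SL(2, ℤ)) : IsBoundedAtImInfty (E2 ∣[(2 : ℤ)] γ) := by
  rw [E2_slash_action]
  exact isBoundedAtImInfty_E2.sub ((isBoundedAtImInfty_D2 γ).const_smul_left _)

/-- Hermite normal form: `diag(N,1) γ = γ'' u` with `γ'' ∈ SL(2,ℤ)` and `u` upper triangular. -/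
theorem exists_mul_upper (N : ℕ) (γ : SL(2, ℤ)) :
    ∃ (G : SL(2, ℤ)), (((G : GL (Fin 2) ℝ) * (heckeDiagMatrix N * (γ : GL (Fin 2) ℝ)) :
      GL (Fin 2) ℝ) : Matrix (Fin 2) (Fin 2) ℝ) 1 0 = 0 := by
  rcases eq_or_ne N 0 with rfl | hN
  · -- `heckeDiagMatrix 0 = 1`
    obtain ⟨G, -, hG⟩ := ModularGroup.bottom_row_surj (R := ℤ)
      (show ![-(γ 1 0), γ 0 0] ∈ {cd : Fin 2 → ℤ | IsCoprime (cd 0) (cd 1)} by
        have hdet := γ.det_coe
        rw [Matrix.det_fin_two] at hdet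
        exact ⟨γ 0 1, γ 1 1, by simp; linarith⟩)
    refine ⟨G, ?_⟩
    have h10 : G 1 0 = -(γ 1 0) := by simpa using congrFun hG 0
    have h11 : G 1 1 = γ 0 0 := by simpa using congrFun hG 1
    simp only [heckeDiagMatrix_zero, one_mul, Matrix.GeneralLinearGroup.coe_mul,
      Matrix.mul_apply, Fin.sum_univ_two]
    simp [h10, h11]
    ring
  · set A : ℤ := N * γ 0 0 with hA
    set C : ℤ := γ 1 0 with hC
    rcases Nat.eq_zero_or_pos (Int.gcd A C) with h0 | hpos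
    · obtain ⟨hA0, hC0⟩ := Int.gcd_eq_zero_iff.1 h0
      refine ⟨1, ?_⟩
      simp only [Matrix.GeneralLinearGroup.coe_mul, val_heckeDiagMatrix hN,
        Matrix.mul_apply, Fin.sum_univ_two]
      simp [← hC, hC0]
    · have hcop : IsCoprime (-(C / (Int.gcd A C : ℤ))) (A / (Int.gcd A C : ℤ)) := by
        rw [IsCoprime.neg_left_iff, Int.isCoprime_iff_gcd_eq_one, Int.gcd_comm]
        exact Int.gcd_div_gcd_div_gcd hpos
      obtain ⟨G, -, hG⟩ := ModularGroup.bottom_row_surj (R := ℤ)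
        (show ![-(C / (Int.gcd A C : ℤ)), A / (Int.gcd A C : ℤ)] ∈
          {cd : Fin 2 → ℤ | IsCoprime (cd 0) (cd 1)} from hcop)
      refine ⟨G, ?_⟩
      have h10 : G 1 0 = -(C / (Int.gcd A C : ℤ)) := by simpa using congrFun hG 0
      have h11 : G 1 1 = A / (Int.gcd A C : ℤ) := by simpa using congrFun hG 1
      have hAg : (Int.gcd A C : ℤ) * (A / (Int.gcd A C : ℤ)) = A :=
        Int.mul_ediv_cancel' (Int.gcd_dvd_left _ _)
      have hCg : (Int.gcd A C : ℤ) * (C / (Int.gcd A C : ℤ)) = C :=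
        Int.mul_ediv_cancel' (Int.gcd_dvd_right _ _)
      have key : G 1 0 * A + G 1 1 * C = 0 := by
        rw [h10, h11]
        generalize (Int.gcd A C : ℤ) = g at hAg hCg
        generalize A / g = x at hAg
        generalize C / g = z at hCg
        rw [← hAg, ← hCg]
        ring
      simp only [Matrix.GeneralLinearGroup.coe_mul, val_heckeDiagMatrix hN,
        Matrix.mul_apply, Fin.sum_univ_two]
      have key' := congrArg (Int.cast : ℤ → ℝ) key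
      simp only [hA, hC] at key'
      push_cast at key'
      simp
      linarith

theorem isBoundedAtImInfty_E2N_slash (N : ℕ) (γ : SL(2, ℤ)) :
    IsBoundedAtImInfty (E2N N ∣[(2 : ℤ)] γ) := by
  obtain ⟨G, hG⟩ := exists_mul_upper N γ
  set u : GL (Fin 2) ℝ := (G : GL (Fin 2) ℝ) * (heckeDiagMatrix N * (γ : GL (Fin 2) ℝ)) with hu
  have hinv : ((G⁻¹ : SL(2, ℤ)) : GL (Fin 2) ℝ) = ((G : SL(2, ℤ)) : GL (Fin 2) ℝ)⁻¹ :=
    map_inv (mapGL ℝ) G
  have h1 : heckeDiagMatrix N * (γ : GL (Fin 2) ℝ) = ((G⁻¹ : SL(2, ℤ)) : GL (Fin 2) ℝ) * u := by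
    rw [hu, hinv, inv_mul_cancel_left]
  rw [E2N, SL_slash, ← SlashAction.slash_mul, h1, SlashAction.slash_mul, ← SL_slash]
  exact (isBoundedAtImInfty_E2_slash G⁻¹).slash 2 hG

theorem isBoundedAtImInfty_eis2Fun_slash (N : ℕ) (γ : SL(2, ℤ)) :
    IsBoundedAtImInfty (eis2Fun N ∣[(2 : ℤ)] γ) := by
  rw [eis2Fun, sub_eq_add_neg, SlashAction.add_slash, SlashAction.neg_slash, ← sub_eq_add_neg]
  exact (isBoundedAtImInfty_E2_slash γ).sub (isBoundedAtImInfty_E2N_slash N γ)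

theorem mdifferentiable_eis2Fun (N : ℕ) : MDiff (eis2Fun N) :=
  E2_mdifferentiable.sub (E2_mdifferentiable.slash 2 _)

/-- **The weight 2 Eisenstein series of level `Γ₀(N)`**, `E₂(z) - N E₂(Nz)`. -/
def eis2 (N : ℕ) [NeZero N] : ModularForm (Gamma0 N) 2 where
  toFun := eis2Fun N
  slash_action_eq' γ hγ := by
    obtain ⟨g, hg, rfl⟩ := hγ
    exact eis2Fun_slash (NeZero.ne N) g hg
  holo' := mdifferentiable_eis2Fun N
  bdd_at_cusps' {c} hc := by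
    rw [Subgroup.IsArithmetic.isCusp_iff_isCusp_SL2Z] at hc
    rw [OnePoint.isBoundedAt_iff_forall_SL2Z hc]
    intro γ _
    exact isBoundedAtImInfty_eis2Fun_slash N γ

@[simp] theorem coe_eis2 (N : ℕ) [NeZero N] : (eis2 N : ℍ → ℂ) = eis2Fun N := rfl

/-! ### The `q`-expansion -/

open scoped ArithmeticFunction.sigma

/-- The `q`-expansion coefficients of `E₂`: `1, -24 σ₁(m)`. -/
def c2 (m : ℕ) : ℂ := if m = 0 then 1 else -24 * (σ 1 m : ℂ)

@[simp] theorem c2_zero : c2 0 = 1 := by simp [c2]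

theorem c2_of_ne_zero {m : ℕ} (hm : m ≠ 0) : c2 m = -24 * (σ 1 m : ℂ) := by simp [c2, hm]

theorem hasSum_E2 (τ : ℍ) :
    HasSum (fun m : ℕ ↦ c2 m • Function.Periodic.qParam 1 τ ^ m) (E2 τ) := by
  have := hasSum_qExpansion_E2 (z := τ)
  simpa only [c2, Function.Periodic.qParam, Complex.ofReal_one, div_one] using this

theorem qParam_heckeDiagMatrix_smul {N : ℕ} (hN : N ≠ 0) (τ : ℍ) :
    Function.Periodic.qParam 1 ((heckeDiagMatrix N • τ : ℍ) : ℂ)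
      = Function.Periodic.qParam 1 τ ^ N := by
  rw [coe_heckeDiagMatrix_smul hN]
  simp only [Function.Periodic.qParam, ← Complex.exp_nat_mul]
  congr 1
  push_cast
  ring

/-- The `q`-expansion coefficients of `N E₂(Nz)`. -/
def c2N (N m : ℕ) : ℂ := if N ∣ m then N * c2 (m / N) else 0

theorem hasSum_E2N {N : ℕ} (hN : N ≠ 0) (τ : ℍ) :
    HasSum (fun m : ℕ ↦ c2N N m • Function.Periodic.qParam 1 τ ^ m) (E2N N τ) := by
  have h1 := (hasSum_E2 (heckeDiagMatrix N • τ)).mul_left (N : ℂ)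
  rw [qParam_heckeDiagMatrix_smul hN, ← E2N_apply hN] at h1
  have hinj : Function.Injective (fun m : ℕ => N * m) :=
    fun a b h => Nat.eq_of_mul_eq_mul_left (Nat.pos_of_ne_zero hN) h
  rw [← hinj.hasSum_iff]
  · have key : ((fun m : ℕ ↦ c2N N m • Function.Periodic.qParam 1 τ ^ m) ∘ fun m => N * m)
        = fun i : ℕ => (N : ℂ) * c2 i • (Function.Periodic.qParam 1 τ ^ N) ^ i := by
      funext m
      simp only [Function.comp_apply, c2N, dvd_mul_right, if_true,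
        Nat.mul_div_cancel_left _ (Nat.pos_of_ne_zero hN), pow_mul, smul_eq_mul, mul_assoc]
    rw [key]
    exact h1
  · intro m hm
    have : ¬ N ∣ m := fun ⟨k, hk⟩ => hm ⟨k, hk.symm⟩
    simp [c2N, this]

/-- The `q`-expansion coefficients of `E₂(z) - N E₂(Nz)`. -/
def eis2Coeff (N m : ℕ) : ℂ := c2 m - c2N N m

theorem hasSum_eis2 (N : ℕ) [NeZero N] (τ : ℍ) :
    HasSum (fun m : ℕ ↦ eis2Coeff N m • Function.Periodic.qParam 1 τ ^ m) (eis2 N τ) := by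
  have := (hasSum_E2 τ).sub (hasSum_E2N (NeZero.ne N) τ)
  simp only [eis2Coeff, sub_smul]
  exact this

theorem qExpansion_eis2_coeff (N : ℕ) [NeZero N] (m : ℕ) :
    (qExpansion 1 (eis2 N)).coeff m = eis2Coeff N m :=
  (ModularFormClass.qExpansion_coeff_unique one_pos
    (CongruenceSubgroup.one_mem_strictPeriods_Gamma0 N) (hasSum_eis2 N) m).symm

/-! ### Explicit coefficients -/

theorem eis2Coeff_zero (N : ℕ) : eis2Coeff N 0 = 1 - N := by
  simp [eis2Coeff, c2N]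

/-- `∑_{d ∣ m, N ∣ d} d = N σ₁(m / N)` for `N ∣ m`. -/
theorem sum_divisors_filter_dvd {N m : ℕ} (hN : N ≠ 0) (hm : m ≠ 0) (h : N ∣ m) :
    ∑ d ∈ m.divisors.filter (fun d => N ∣ d), d = N * ∑ d ∈ (m / N).divisors, d := by
  rw [Finset.mul_sum]
  symm
  refine Finset.sum_nbij' (fun d => N * d) (fun d => d / N) ?_ ?_ ?_ ?_ ?_
  · intro d hd
    rw [Nat.mem_divisors] at hd
    rw [Finset.mem_filter, Nat.mem_divisors]
    refine ⟨⟨?_, hm⟩, dvd_mul_right _ _⟩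
    obtain ⟨k, hk⟩ := h
    rw [hk, Nat.mul_div_cancel_left _ (Nat.pos_of_ne_zero hN)] at hd
    rw [hk]
    exact mul_dvd_mul_left N hd.1
  · intro d hd
    rw [Finset.mem_filter, Nat.mem_divisors] at hd
    rw [Nat.mem_divisors]
    obtain ⟨⟨hdm, -⟩, e, rfl⟩ := hd
    obtain ⟨k, hk⟩ := h
    rw [Nat.mul_div_cancel_left _ (Nat.pos_of_ne_zero hN), hk,
      Nat.mul_div_cancel_left _ (Nat.pos_of_ne_zero hN)]
    refine ⟨?_, ?_⟩
    · rw [hk] at hdm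
      exact (Nat.mul_dvd_mul_iff_left (Nat.pos_of_ne_zero hN)).1 hdm
    · rintro rfl
      exact hm (by rw [hk, mul_zero])
  · intro d _
    exact Nat.mul_div_cancel_left _ (Nat.pos_of_ne_zero hN)
  · intro d hd
    rw [Finset.mem_filter] at hd
    exact Nat.mul_div_cancel' hd.2
  · intro d _
    rfl

/-- `∑_{d ∣ m, N ∤ d} d = σ₁(m) - [N ∣ m] N σ₁(m / N)`. -/
theorem sum_divisors_filter_not_dvd {N m : ℕ} (hN : N ≠ 0) (hm : m ≠ 0) :
    ((∑ d ∈ m.divisors.filter (fun d => ¬ N ∣ d), d : ℕ) : ℂ)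
      = (σ 1 m : ℂ) - (if N ∣ m then (N : ℂ) * (σ 1 (m / N) : ℂ) else 0) := by
  have h1 : (σ 1 m : ℕ) = ∑ d ∈ m.divisors.filter (fun d => N ∣ d), d
      + ∑ d ∈ m.divisors.filter (fun d => ¬ N ∣ d), d := by
    rw [ArithmeticFunction.sigma_one_apply, Finset.sum_filter_add_sum_filter_not]
  rw [h1]
  split_ifs with h
  · rw [sum_divisors_filter_dvd hN hm h, ArithmeticFunction.sigma_one_apply]
    push_cast
    ring
  · have h0 : m.divisors.filter (fun d => N ∣ d) = ∅ := by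
      rw [Finset.filter_eq_empty_iff]
      intro d hd hNd
      exact h (hNd.trans (Nat.dvd_of_mem_divisors hd))
    rw [h0]
    simp

theorem eis2Coeff_of_ne_zero {N m : ℕ} (hN : N ≠ 0) (hm : m ≠ 0) :
    eis2Coeff N m = -24 * ((∑ d ∈ m.divisors.filter (fun d => ¬ N ∣ d), d : ℕ) : ℂ) := by
  rw [sum_divisors_filter_not_dvd hN hm, eis2Coeff, c2N, c2_of_ne_zero hm]
  split_ifs with h
  · have hq : m / N ≠ 0 := by
      obtain ⟨k, rfl⟩ := h
      rw [Nat.mul_div_cancel_left _ (Nat.pos_of_ne_zero hN)]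
      rintro rfl
      exact hm (mul_zero _)
    rw [c2_of_ne_zero hq]
    ring
  · ring

/-! ### The normalised form `E'` of level `p` and the form `α` of level 3 -/

/-- The Eisenstein series `E' = (p-1)/24 + ∑ σ'(n) qⁿ` of weight 2 and level `Γ₀(p)`
(here for any level `N ≠ 0`; `σ'(n)` = sum of the divisors of `n` not divisible by `N`). -/
def eisP (N : ℕ) [NeZero N] : ModularForm (Gamma0 N) 2 := (-1 / 24 : ℂ) • eis2 N

theorem coe_eisP (N : ℕ) [NeZero N] : (eisP N : ℍ → ℂ) = (-1 / 24 : ℂ) • eis2Fun N := rfl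

theorem qExpansion_smul_eis2_coeff (N : ℕ) [NeZero N] (a : ℂ) (m : ℕ) :
    (qExpansion 1 ((a • eis2 N : ModularForm (Gamma0 N) 2) : ℍ → ℂ)).coeff m
      = a * eis2Coeff N m := by
  rw [FunLike.coe_smul, ModularForm.qExpansion_smul one_pos
    (CongruenceSubgroup.one_mem_strictPeriods_Gamma0 N) a (eis2 N), PowerSeries.coeff_smul,
    qExpansion_eis2_coeff, smul_eq_mul]

theorem qCoeff_eisP_zero (N : ℕ) [NeZero N] :
    ModularFormClass.qCoeff (eisP N) 0 = ((N : ℂ) - 1) / 24 := by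
  rw [ModularFormClass.qCoeff, eisP, qExpansion_smul_eis2_coeff, eis2Coeff_zero]
  ring

theorem qCoeff_eisP (N : ℕ) [NeZero N] {n : ℕ} (hn : 0 < n) :
    ModularFormClass.qCoeff (eisP N) n
      = ((∑ d ∈ n.divisors.filter (fun d => ¬ N ∣ d), d : ℕ) : ℂ) := by
  rw [ModularFormClass.qCoeff, eisP, qExpansion_smul_eis2_coeff,
    eis2Coeff_of_ne_zero (NeZero.ne N) hn.ne']
  ring

/-- The form `α = (3 E₂(3z) - E₂(z))/2 = 1 + 12 ∑ (σ(n) - 3σ(n/3)) qⁿ` of weight 2 and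
level `Γ₀(3)`. -/
def alpha3 : ModularForm (Gamma0 3) 2 := (-1 / 2 : ℂ) • eis2 3

theorem qCoeff_alpha3_zero : ModularFormClass.qCoeff alpha3 0 = 1 := by
  rw [ModularFormClass.qCoeff, alpha3, qExpansion_smul_eis2_coeff, eis2Coeff_zero]
  norm_num

theorem qCoeff_alpha3 {n : ℕ} (hn : 0 < n) :
    ModularFormClass.qCoeff alpha3 n
      = 12 * ((∑ d ∈ n.divisors.filter (fun d => ¬ 3 ∣ d), d : ℕ) : ℂ) := by
  rw [ModularFormClass.qCoeff, alpha3, qExpansion_smul_eis2_coeff,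
    eis2Coeff_of_ne_zero (by norm_num) hn.ne']
  ring

theorem qCoeff_alpha3' {n : ℕ} (hn : 0 < n) :
    ModularFormClass.qCoeff alpha3 n
      = 12 * ((σ 1 n : ℂ) - (if 3 ∣ n then 3 * (σ 1 (n / 3) : ℂ) else 0)) := by
  rw [qCoeff_alpha3 hn, sum_divisors_filter_not_dvd (by norm_num) hn.ne']
  norm_num

/-- Uniform coefficient formula, in the shape of `UB2.Series3.coeff_a3'`. -/
theorem qCoeff_alpha3_eq (n : ℕ) :
    ModularFormClass.qCoeff alpha3 n = (if n = 0 then 1 else 0) +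
      12 * ((σ 1 n : ℂ) - 3 * (if 3 ∣ n then (σ 1 (n / 3) : ℂ) else 0)) := by
  rcases Nat.eq_zero_or_pos n with rfl | hn
  · rw [qCoeff_alpha3_zero]
    simp
  · rw [qCoeff_alpha3' hn, if_neg hn.ne']
    split_ifs <;> ring

/-- The `q`-expansion of `eis2 N` in closed form. -/
theorem qExpansion_eis2_coeff' (N : ℕ) [NeZero N] (n : ℕ) :
    (qExpansion 1 (eis2 N)).coeff n = if n = 0 then 1 - (N : ℂ) else
      -24 * ((σ 1 n : ℂ) - (if N ∣ n then (N : ℂ) * (σ 1 (n / N) : ℂ) else 0)) := by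
  rw [qExpansion_eis2_coeff]
  split_ifs with h0 h
  · rw [h0, eis2Coeff_zero]
  · rw [eis2Coeff_of_ne_zero (NeZero.ne N) h0, sum_divisors_filter_not_dvd (NeZero.ne N) h0,
      if_pos h]
  · rw [eis2Coeff_of_ne_zero (NeZero.ne N) h0, sum_divisors_filter_not_dvd (NeZero.ne N) h0,
      if_neg h]

end Fermat.Agent.S16.Eis2
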