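import Mathlib
import Fermat.Prelude.Def_ModularForm_HeckeOperator
import Fermat.Prelude.Thm_CongruenceSubgroup_one_mem_strictPeriods_Gamma0

/-!
# S16 / level raising `F(z) ↦ F(Nz)` from level one to `Γ₀(N)`

For a level-one modular form `F` of weight `k` and `N ≥ 1`:

* `incl N F : ModularForm (Gamma0 N) k` is `F` itself, viewed on the smaller group;
* `raise N F : ModularForm (Gamma0 N) k` is `z ↦ F(Nz)` (`raise_apply`, with
  `Nz = heckeDiagMatrix N • z`, `coe_heckeDiagMatrix_smul`);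
* `qExpansion_raise : qExpansion 1 (raise N F) = PowerSeries.expand N _ (qExpansion 1 F)` and the
  coefficient form `coeff_qExpansion_raise`;
* `restrict h f` is the restriction of a modular form to any smaller subgroup of `GL(2, ℝ)`.

The boundedness at all cusps comes for free from Mathlib's `ModularForm.translate`.
-/

set_option autoImplicit false

namespace Fermat.Agent.S16.LevelRaise

open UpperHalfPlane ModularForm CongruenceSubgroup Matrix.SpecialLinearGroup ModularFormClass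
open scoped MatrixGroups ModularForm Manifold Pointwise

variable {k : ℤ}

/-! ### Restriction to a smaller group -/

/-- Restriction of a modular form to a smaller group. -/
def restrict {Γ Γ' : Subgroup (GL (Fin 2) ℝ)} (h : Γ' ≤ Γ) (f : ModularForm Γ k) :
    ModularForm Γ' k where
  toFun := f
  slash_action_eq' γ hγ := f.slash_action_eq' γ (h hγ)
  holo' := f.holo'
  bdd_at_cusps' hc := f.bdd_at_cusps' (hc.mono h)

@[simp] theorem coe_restrict {Γ Γ' : Subgroup (GL (Fin 2) ℝ)} (h : Γ' ≤ Γ) (f : ModularForm Γ k) :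
    ⇑(restrict h f) = ⇑f := rfl

theorem restrict_apply {Γ Γ' : Subgroup (GL (Fin 2) ℝ)} (h : Γ' ≤ Γ) (f : ModularForm Γ k)
    (z : ℍ) : restrict h f z = f z := rfl

/-! ### `Γ₀(N) ⊆ diag(N,1)⁻¹ SL₂(ℤ) diag(N,1)` -/

theorem mapGL_apply (δ : SL(2, ℤ)) (i j : Fin 2) :
    ((mapGL ℝ δ : GL (Fin 2) ℝ) : Matrix (Fin 2) (Fin 2) ℝ) i j = ((δ i j : ℤ) : ℝ) := rfl

/-- The integral matrix `diag(N,1) γ diag(N,1)⁻¹` for `γ ∈ Γ₀(N)`. -/
def conjMat (N : ℕ) (γ : SL(2, ℤ)) (c' : ℤ) (hc : (γ 1 0 : ℤ) = N * c') : SL(2, ℤ) :=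
  ⟨!![γ 0 0, N * γ 0 1; c', γ 1 1], by
    have h := Matrix.det_fin_two γ.1
    rw [γ.2] at h
    rw [Matrix.det_fin_two_of]
    have : (γ 1 0 : ℤ) = γ.1 1 0 := rfl
    rw [this] at hc
    rw [hc] at h
    linarith [h]⟩

theorem conjMat_apply (N : ℕ) (γ : SL(2, ℤ)) (c' : ℤ) (hc : (γ 1 0 : ℤ) = N * c') (i j : Fin 2) :
    (conjMat N γ c' hc) i j =
      (!![γ 0 0, N * γ 0 1; c', γ 1 1] : Matrix (Fin 2) (Fin 2) ℤ) i j := rfl

theorem heckeDiag_mul (N : ℕ) (hN : N ≠ 0) (γ : SL(2, ℤ)) (c' : ℤ) (hc : (γ 1 0 : ℤ) = N * c') :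
    heckeDiagMatrix N * mapGL ℝ γ = mapGL ℝ (conjMat N γ c' hc) * heckeDiagMatrix N := by
  apply Units.ext
  simp only [Units.val_mul, val_heckeDiagMatrix hN]
  ext i j
  simp only [Matrix.mul_apply, Fin.sum_univ_two, mapGL_apply, conjMat_apply]
  fin_cases i <;> fin_cases j <;> simp [hc] <;> ring

theorem Gamma0_le_conj (N : ℕ) (hN : N ≠ 0) :
    (Gamma0 N : Subgroup (GL (Fin 2) ℝ)) ≤ ConjAct.toConjAct (heckeDiagMatrix N)⁻¹ • 𝒮ℒ := by
  rintro _ ⟨γ, hγ, rfl⟩
  rw [map_inv, Subgroup.mem_inv_pointwise_smul_iff, ConjAct.toConjAct_smul]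
  rw [SetLike.mem_coe, Gamma0_mem] at hγ
  obtain ⟨c', hc⟩ : (N : ℤ) ∣ γ 1 0 := by
    exact (ZMod.intCast_zmod_eq_zero_iff_dvd _ _).mp hγ
  rw [heckeDiag_mul N hN γ c' hc, mul_inv_cancel_right]
  exact ⟨_, rfl⟩

theorem Gamma0_le_SL (N : ℕ) : (Gamma0 N : Subgroup (GL (Fin 2) ℝ)) ≤ 𝒮ℒ := by
  rintro _ ⟨γ, -, rfl⟩
  exact ⟨γ, rfl⟩

/-! ### The two maps from level one to level `Γ₀(N)` -/

/-- A level-one form viewed as a form on `Γ₀(N)`. -/
def incl (N : ℕ) (F : ModularForm 𝒮ℒ k) : ModularForm (Gamma0 N) k :=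
  restrict (Gamma0_le_SL N) F

@[simp] theorem coe_incl (N : ℕ) (F : ModularForm 𝒮ℒ k) : ⇑(incl N F) = ⇑F := rfl

theorem incl_apply (N : ℕ) (F : ModularForm 𝒮ℒ k) (z : ℍ) : incl N F z = F z := rfl

theorem qExpansion_incl (N : ℕ) (F : ModularForm 𝒮ℒ k) :
    qExpansion 1 (incl N F) = qExpansion 1 F := rfl

variable (N : ℕ) [NeZero N]

/-- `z ↦ F(Nz)` as a modular form on `Γ₀(N)`, for `F` of level one. -/
noncomputable def raise (F : ModularForm 𝒮ℒ k) : ModularForm (Gamma0 N) k :=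
  ((N : ℂ) ^ (1 - k)) •
    restrict (Gamma0_le_conj N (NeZero.ne N)) (ModularForm.translate F (heckeDiagMatrix N))

theorem raise_apply (F : ModularForm 𝒮ℒ k) (z : ℍ) :
    raise N F z = F (heckeDiagMatrix N • z) := by
  have hN : (N : ℂ) ≠ 0 := by exact_mod_cast NeZero.ne N
  show (N : ℂ) ^ (1 - k) • (⇑F ∣[k] heckeDiagMatrix N) z = _
  rw [slash_heckeDiagMatrix_apply k (NeZero.ne N), smul_eq_mul, ← mul_assoc, ← zpow_add₀ hN]
  simp

/-- The point `heckeDiagMatrix N • z` is `N z`. -/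
theorem coe_diag_smul (z : ℍ) : ((heckeDiagMatrix N • z : ℍ) : ℂ) = (N : ℂ) * z :=
  coe_heckeDiagMatrix_smul (NeZero.ne N) z

theorem raise_add (F G : ModularForm 𝒮ℒ k) : raise N (F + G) = raise N F + raise N G := by
  ext z; simp [raise_apply]

theorem raise_sub (F G : ModularForm 𝒮ℒ k) : raise N (F - G) = raise N F - raise N G := by
  ext z; simp [raise_apply]

theorem raise_neg (F : ModularForm 𝒮ℒ k) : raise N (-F) = -raise N F := by
  ext z; simp [raise_apply]

theorem raise_smul (c : ℂ) (F : ModularForm 𝒮ℒ k) : raise N (c • F) = c • raise N F := by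
  ext z; simp [raise_apply]

theorem raise_zero : raise N (0 : ModularForm 𝒮ℒ k) = 0 := by
  ext z; simp [raise_apply]

theorem raise_mul {k₁ k₂ : ℤ} (F : ModularForm 𝒮ℒ k₁) (G : ModularForm 𝒮ℒ k₂) :
    raise N (F.mul G) = (raise N F).mul (raise N G) := by
  ext z; simp [raise_apply]

theorem incl_mul {k₁ k₂ : ℤ} (F : ModularForm 𝒮ℒ k₁) (G : ModularForm 𝒮ℒ k₂) :
    incl N (F.mul G) = (incl N F).mul (incl N G) := by
  ext z; simp [incl_apply]

/-! ### The `q`-expansion of `F(Nz)` -/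

theorem qParam_diag_smul (z : ℍ) :
    Function.Periodic.qParam 1 (heckeDiagMatrix N • z : ℍ) = Function.Periodic.qParam 1 z ^ N := by
  rw [coe_heckeDiagMatrix_smul (NeZero.ne N)]
  simp only [Function.Periodic.qParam, Complex.ofReal_one, div_one]
  rw [← Complex.exp_nat_mul]
  congr 1
  ring

theorem hasSum_raise (F : ModularForm 𝒮ℒ k) (z : ℍ) :
    HasSum (fun n : ℕ => (if N ∣ n then (qExpansion 1 F).coeff (n / N) else 0) •
      Function.Periodic.qParam 1 z ^ n) (raise N F z) := by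
  have h := ModularForm.hasSum_qExpansion (h := 1) F one_pos one_mem_strictPeriods_SL
    (heckeDiagMatrix N • z)
  rw [qParam_diag_smul, ← raise_apply] at h
  have hinj : Function.Injective (fun m : ℕ => N * m) := fun a b hab =>
    Nat.eq_of_mul_eq_mul_left (Nat.pos_of_ne_zero (NeZero.ne N)) hab
  rw [← hinj.hasSum_iff]
  · convert h using 2 with m
    simp only [Function.comp_apply, dvd_mul_right, if_true, pow_mul, smul_eq_mul,
      Nat.mul_div_cancel_left _ (Nat.pos_of_ne_zero (NeZero.ne N))]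
  · intro n hn
    have : ¬ N ∣ n := fun ⟨m, hm⟩ => hn ⟨m, hm.symm⟩
    simp [this]

/-- Coefficients of `F(Nz)`: `a_{n/N}` if `N ∣ n`, zero otherwise. -/
theorem coeff_qExpansion_raise (F : ModularForm 𝒮ℒ k) (n : ℕ) :
    (qExpansion 1 (raise N F)).coeff n =
      if N ∣ n then (qExpansion 1 F).coeff (n / N) else 0 :=
  (ModularFormClass.qExpansion_coeff_unique (h := 1) one_pos
    (CongruenceSubgroup.one_mem_strictPeriods_Gamma0 N) (hasSum_raise N F) n).symm

/-- The `q`-expansion of `F(Nz)` is the `q`-expansion of `F` with `q` replaced by `q^N`. -/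
theorem qExpansion_raise (F : ModularForm 𝒮ℒ k) :
    qExpansion 1 (raise N F) = PowerSeries.expand N (NeZero.ne N) (qExpansion 1 F) := by
  ext n
  rw [coeff_qExpansion_raise, PowerSeries.coeff_expand]

theorem coeff_qExpansion_raise_mul (F : ModularForm 𝒮ℒ k) (m : ℕ) :
    (qExpansion 1 (raise N F)).coeff (N * m) = (qExpansion 1 F).coeff m := by
  rw [qExpansion_raise, PowerSeries.coeff_expand_mul]

theorem coeff_qExpansion_raise_of_not_dvd (F : ModularForm 𝒮ℒ k) {n : ℕ} (h : ¬ N ∣ n) :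
    (qExpansion 1 (raise N F)).coeff n = 0 := by
  rw [coeff_qExpansion_raise, if_neg h]

end Fermat.Agent.S16.LevelRaise
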