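/-
PROJECT E (S16), slice E-UB3, algebraic core (helper28): ARTIN–SCHREIER ROOT COUNTING.

The `l = 3` upper bound uses the relation `s - s³ = Δ` in `𝔽₃⟦q⟧` (`s = ∑ σ(n) qⁿ`).  A polynomial
`P(Y)` with coefficients in `𝔽₃[Δ]` which vanishes at `s` also vanishes at `s + 1`, `s + 2`; but the
roots of the characteristic polynomial of a level-`p` form are one series in `q` and the `p`
conjugates `Ψ(ζʲ q^{1/p})`, which can carry at most ONE further root lying in `𝔽₃⟦q⟧`.

* `aeval_injective`    : a non-zero power series without constant term is transcendental;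
* `eval_shift`, `sum_shift` **(AS1)**: `P ∈ k[s - s³][Y]`, `P(s) = 0 ⟹ P(s + c) = 0` for `c³ = c`,
  `char k = 3` (via the substitution `X ↦ X + c` of `k[X]`, which fixes `X - X³`; no irreducibility);
* `rescale_eq_of_rescale_eq` **(AS2)**: if ONE conjugate `Ψ(ζʲ t)` is a series in `tᵖ`, then `Ψ` is
  a series in `tᵖ` and ALL conjugates coincide with it;
* `eq_of_prod_eq_zero` **(AS3)**: two series in `tᵖ` which are both roots of `∏ⱼ (Y - Ψ(ζʲ t))`
  are equal; `not_three_roots`: in characteristic `3` the three values `s`, `s + 1`, `s + 2` are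
  not all roots of `(Y - s) ∏ⱼ (Y - Ψ(ζʲ t))`.
-/
import Mathlib

set_option autoImplicit false

namespace Fermat.Agent.S16.ArtinSchreier

open Polynomial PowerSeries

/-! ### Transcendence of a power series without constant term -/

section Transcendental

variable {k : Type*} [CommRing k] [IsDomain k]

omit [IsDomain k] in
/-- The constant coefficient of `Q(s)` is `Q(s(0))`. -/
lemma constantCoeff_aeval (s : k⟦X⟧) (Q : k[X]) :
    PowerSeries.constantCoeff (Polynomial.aeval s Q) =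
      Q.eval (PowerSeries.constantCoeff s) := by
  have h := Polynomial.hom_eval₂ Q (algebraMap k k⟦X⟧) (PowerSeries.constantCoeff (R := k)) s
  rw [Polynomial.aeval_def, h]
  have h2 : (PowerSeries.constantCoeff (R := k)).comp (algebraMap k k⟦X⟧) = RingHom.id k := by
    ext a
    exact PowerSeries.constantCoeff_C a
  rw [h2, Polynomial.eval₂_id]

/-- **A non-zero power series without constant term is transcendental over the coefficients.** -/
theorem aeval_injective (s : k⟦X⟧) (hs0 : PowerSeries.constantCoeff s = 0) (hs : s ≠ 0) :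
    Function.Injective (Polynomial.aeval s : k[X] →ₐ[k] k⟦X⟧) := by
  rw [injective_iff_map_eq_zero]
  intro Q hQ
  by_contra hne
  obtain ⟨Q₁, hQQ₁, hndvd⟩ := Polynomial.exists_eq_pow_rootMultiplicity_mul_and_not_dvd Q hne 0
  rw [Polynomial.C_0, sub_zero] at hQQ₁ hndvd
  have h1 : Polynomial.aeval s Q = s ^ Q.rootMultiplicity 0 * Polynomial.aeval s Q₁ := by
    conv_lhs => rw [hQQ₁]
    rw [map_mul, map_pow, Polynomial.aeval_X]
  rw [h1] at hQ
  rcases mul_eq_zero.1 hQ with h | h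
  · exact hs (eq_zero_of_pow_eq_zero h)
  · apply hndvd
    rw [Polynomial.X_dvd_iff]
    have h2 := congrArg (PowerSeries.constantCoeff (R := k)) h
    rw [constantCoeff_aeval, hs0, map_zero] at h2
    rw [Polynomial.coeff_zero_eq_eval_zero]
    exact h2

end Transcendental

/-! ### (AS1): the shift `s ↦ s + c` -/

section Shift

/-- `(p.map f)(f r) = f (p(r))`. -/
lemma map_eval_apply {R S : Type*} [CommRing R] [CommRing S] (f : R →+* S) (p : R[X]) (r : R) :
    (p.map f).eval (f r) = f (p.eval r) := by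
  rw [Polynomial.eval_map, Polynomial.eval₂_at_apply]

variable {k : Type*} [CommRing k] [IsDomain k] [CharP k 3]

omit [IsDomain k] in
/-- In characteristic `3` the substitution `X ↦ X + c` fixes `X - X³` when `c³ = c`. -/
lemma comp_X_sub_X_cube (c : k) (hc : c ^ 3 = c) :
    ((Polynomial.X : k[X]) - Polynomial.X ^ 3).comp (Polynomial.X + Polynomial.C c) =
      Polynomial.X - Polynomial.X ^ 3 := by
  have h3k : (3 : k) = 0 := by exact_mod_cast CharP.cast_eq_zero k 3
  have h3 : (3 : k[X]) = 0 := by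
    rw [← map_ofNat (Polynomial.C (R := k)) 3, h3k, map_zero]
  have hc' : (Polynomial.C c : k[X]) ^ 3 = Polynomial.C c := by
    rw [← Polynomial.C_pow, hc]
  rw [Polynomial.sub_comp, Polynomial.X_comp, Polynomial.pow_comp, Polynomial.X_comp]
  have e : ((Polynomial.X : k[X]) + Polynomial.C c) ^ 3 =
      Polynomial.X ^ 3 + Polynomial.C c ^ 3 +
        3 * (Polynomial.X ^ 2 * Polynomial.C c + Polynomial.X * Polynomial.C c ^ 2) := by
    ring
  rw [e, h3, zero_mul, add_zero, hc']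
  ring

/-- **(AS1), polynomial form.**  Let `s` be a non-zero power series without constant term over a
domain `k` of characteristic `3`, `c ∈ k` with `c³ = c`, and `P(Y)` a polynomial whose coefficients
are polynomials in `Δ := s - s³`.  If `P(s) = 0` then `P(s + c) = 0`. -/
theorem eval_shift (s : k⟦X⟧) (hs0 : PowerSeries.constantCoeff s = 0) (hs : s ≠ 0) (c : k)
    (hc : c ^ 3 = c) (P : Polynomial (Polynomial k))
    (h : (P.map ((Polynomial.aeval (s - s ^ 3) : k[X] →ₐ[k] k⟦X⟧) : k[X] →+* k⟦X⟧)).eval s = 0) :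
    (P.map ((Polynomial.aeval (s - s ^ 3) : k[X] →ₐ[k] k⟦X⟧) : k[X] →+* k⟦X⟧)).eval
      (s + PowerSeries.C c) = 0 := by
  -- notation
  set D₀ : k[X] := Polynomial.X - Polynomial.X ^ 3 with hD₀
  let ι : k[X] →+* k⟦X⟧ := (Polynomial.aeval s : k[X] →ₐ[k] k⟦X⟧)
  let γ : k[X] →+* k[X] := Polynomial.compRingHom D₀
  let τ : k[X] →+* k[X] := Polynomial.compRingHom (Polynomial.X + Polynomial.C c)
  have hιγ : ι.comp γ = ((Polynomial.aeval (s - s ^ 3) : k[X] →ₐ[k] k⟦X⟧) : k[X] →+* k⟦X⟧) := by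
    refine RingHom.ext fun b => ?_
    change Polynomial.aeval s (b.comp D₀) = Polynomial.aeval (s - s ^ 3) b
    rw [Polynomial.aeval_comp, hD₀, map_sub, map_pow, Polynomial.aeval_X]
  have hτγ : τ.comp γ = γ := by
    refine RingHom.ext fun b => ?_
    change (b.comp D₀).comp (Polynomial.X + Polynomial.C c) = b.comp D₀
    rw [Polynomial.comp_assoc, hD₀, comp_X_sub_X_cube c hc]
  set P' : Polynomial (Polynomial k) := P.map γ with hP'
  have hmap : P.map ((Polynomial.aeval (s - s ^ 3) : k[X] →ₐ[k] k⟦X⟧) : k[X] →+* k⟦X⟧) =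
      P'.map ι := by
    rw [hP', Polynomial.map_map, hιγ]
  rw [hmap] at h ⊢
  -- `P'(X) = 0` in `k[X]`
  have hιX : ι Polynomial.X = s := Polynomial.aeval_X s
  have h1 : ι (P'.eval Polynomial.X) = 0 := by
    rw [← map_eval_apply ι P' Polynomial.X, hιX]
    exact h
  have h2 : P'.eval Polynomial.X = 0 :=
    (injective_iff_map_eq_zero ι).1 (aeval_injective s hs0 hs) _ h1
  -- apply `τ`
  have h3 : P'.eval (Polynomial.X + Polynomial.C c) = 0 := by
    have h4 : τ (P'.eval Polynomial.X) = (P'.map τ).eval (τ Polynomial.X) :=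
      (map_eval_apply τ P' Polynomial.X).symm
    have h5 : P'.map τ = P' := by
      rw [hP', Polynomial.map_map, hτγ]
    have h6 : τ Polynomial.X = Polynomial.X + Polynomial.C c := Polynomial.X_comp
    rw [h5, h6, h2, map_zero] at h4
    exact h4.symm
  -- apply `ι`
  have h7 : ι (Polynomial.X + Polynomial.C c) = s + PowerSeries.C c := by
    rw [map_add, hιX]
    congr 1
    exact Polynomial.aeval_C s c
  rw [← h7, map_eval_apply ι P' (Polynomial.X + Polynomial.C c), h3, map_zero]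

/-- **(AS1), sum form.** -/
theorem sum_shift (s : k⟦X⟧) (hs0 : PowerSeries.constantCoeff s = 0) (hs : s ≠ 0) (c : k)
    (hc : c ^ 3 = c) (n : ℕ) (b : ℕ → k[X])
    (h : ∑ i ∈ Finset.range n, Polynomial.aeval (s - s ^ 3) (b i) * s ^ i = 0) :
    ∑ i ∈ Finset.range n, Polynomial.aeval (s - s ^ 3) (b i) * (s + PowerSeries.C c) ^ i = 0 := by
  let P : Polynomial (Polynomial k) :=
    ∑ i ∈ Finset.range n, Polynomial.C (b i) * Polynomial.X ^ i
  have hP : ∀ y : k⟦X⟧,
      (P.map ((Polynomial.aeval (s - s ^ 3) : k[X] →ₐ[k] k⟦X⟧) : k[X] →+* k⟦X⟧)).eval y =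
        ∑ i ∈ Finset.range n, Polynomial.aeval (s - s ^ 3) (b i) * y ^ i := by
    intro y
    simp only [P, Polynomial.map_sum, Polynomial.eval_finsetSum, Polynomial.map_mul,
      Polynomial.map_C, Polynomial.map_pow, Polynomial.map_X, Polynomial.eval_mul,
      Polynomial.eval_C, Polynomial.eval_pow, Polynomial.eval_X]
    rfl
  rw [← hP] at h ⊢
  exact eval_shift s hs0 hs c hc P h

end Shift

/-! ### (AS2), (AS3): the conjugates `Ψ(ζʲ t)` -/

section Conjugates

variable {F : Type*} [CommRing F]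

/-- `u` is a power series in `tᵖ`: only the coefficients of index divisible by `p` are non-zero. -/
def OnlyPow (p : ℕ) (u : F⟦X⟧) : Prop := ∀ n : ℕ, ¬ p ∣ n → PowerSeries.coeff n u = 0

lemma OnlyPow.add {p : ℕ} {u v : F⟦X⟧} (hu : OnlyPow p u) (hv : OnlyPow p v) :
    OnlyPow p (u + v) := fun n hn => by
  rw [map_add, hu n hn, hv n hn, add_zero]

lemma OnlyPow.sub {p : ℕ} {u v : F⟦X⟧} (hu : OnlyPow p u) (hv : OnlyPow p v) :
    OnlyPow p (u - v) := fun n hn => by
  rw [map_sub, hu n hn, hv n hn, sub_zero]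

lemma onlyPow_C (p : ℕ) (c : F) : OnlyPow p (PowerSeries.C c) := fun n hn => by
  rw [PowerSeries.coeff_C, if_neg]
  rintro rfl
  exact hn (dvd_zero p)

lemma OnlyPow.mul {p : ℕ} {u v : F⟦X⟧} (hu : OnlyPow p u) (hv : OnlyPow p v) :
    OnlyPow p (u * v) := fun n hn => by
  rw [PowerSeries.coeff_mul]
  refine Finset.sum_eq_zero fun ij hij => ?_
  by_cases h1 : p ∣ ij.1
  · have hsum : ij.1 + ij.2 = n := by simpa using hij
    have h2 : ¬ p ∣ ij.2 := fun h2 => hn (by
      rw [← hsum]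
      exact dvd_add h1 h2)
    rw [hv _ h2, mul_zero]
  · rw [hu _ h1, zero_mul]

lemma OnlyPow.pow {p : ℕ} {u : F⟦X⟧} (hu : OnlyPow p u) (m : ℕ) : OnlyPow p (u ^ m) := by
  induction m with
  | zero =>
    rw [pow_zero, ← map_one (PowerSeries.C (R := F))]
    exact onlyPow_C p 1
  | succ m ih =>
    rw [pow_succ]
    exact ih.mul hu

/-- A series in `tᵖ` is fixed by `t ↦ ζʲ t` when `ζᵖ = 1`. -/
lemma OnlyPow.rescale_eq {p : ℕ} {ζ : F} (hζ : ζ ^ p = 1) {Ψ : F⟦X⟧} (hΨ : OnlyPow p Ψ) (j : ℕ) :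
    PowerSeries.rescale (ζ ^ j) Ψ = Ψ := by
  ext n
  rw [PowerSeries.coeff_rescale]
  by_cases hn : p ∣ n
  · obtain ⟨m, rfl⟩ := hn
    rw [← pow_mul, mul_comm j, mul_assoc, pow_mul, hζ, one_pow, one_mul]
  · rw [hΨ n hn, mul_zero]

variable [IsDomain F]

/-- **(AS2)**: if one conjugate `Ψ(ζʲ t)` is a series in `tᵖ`, so is `Ψ`. -/
theorem onlyPow_of_rescale_eq {p : ℕ} (hp : 0 < p) {ζ : F} (hζ : ζ ^ p = 1) {Ψ u : F⟦X⟧}
    (hu : OnlyPow p u) (j : ℕ) (h : PowerSeries.rescale (ζ ^ j) Ψ = u) : OnlyPow p Ψ := by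
  have hζ0 : ζ ≠ 0 := by
    rintro rfl
    rw [zero_pow hp.ne'] at hζ
    exact zero_ne_one hζ
  intro n hn
  have h1 := congrArg (PowerSeries.coeff n) h
  rw [PowerSeries.coeff_rescale, hu n hn] at h1
  rcases mul_eq_zero.1 h1 with h2 | h2
  · exact absurd (eq_zero_of_pow_eq_zero (eq_zero_of_pow_eq_zero h2)) hζ0
  · exact h2

/-- **(AS2)**: if one conjugate `Ψ(ζʲ t)` equals a series `u` in `tᵖ`, all conjugates equal `u`
(and `Ψ = u`). -/
theorem rescale_eq_of_rescale_eq {p : ℕ} (hp : 0 < p) {ζ : F} (hζ : ζ ^ p = 1) {Ψ u : F⟦X⟧}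
    (hu : OnlyPow p u) (j : ℕ) (h : PowerSeries.rescale (ζ ^ j) Ψ = u) (j' : ℕ) :
    PowerSeries.rescale (ζ ^ j') Ψ = u := by
  have hΨ := onlyPow_of_rescale_eq hp hζ hu j h
  rw [hΨ.rescale_eq hζ j', ← h, hΨ.rescale_eq hζ j]

/-- **(AS3)**: a root of `∏ⱼ (Y - Ψ(ζʲ t))` which is a series in `tᵖ` is the only root of this
polynomial. -/
theorem eq_of_prod_eq_zero {p : ℕ} (hp : 0 < p) {ζ : F} (hζ : ζ ^ p = 1) {Ψ u₁ u₂ : F⟦X⟧}
    (h₁ : OnlyPow p u₁)
    (hprod₁ : ∏ j ∈ Finset.range p, (u₁ - PowerSeries.rescale (ζ ^ j) Ψ) = 0)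
    (hprod₂ : ∏ j ∈ Finset.range p, (u₂ - PowerSeries.rescale (ζ ^ j) Ψ) = 0) : u₁ = u₂ := by
  obtain ⟨j₁, -, hj₁⟩ := Finset.prod_eq_zero_iff.1 hprod₁
  obtain ⟨j₂, -, hj₂⟩ := Finset.prod_eq_zero_iff.1 hprod₂
  have e₁ : PowerSeries.rescale (ζ ^ j₁) Ψ = u₁ := (sub_eq_zero.1 hj₁).symm
  have e₂ : PowerSeries.rescale (ζ ^ j₂) Ψ = u₂ := (sub_eq_zero.1 hj₂).symm
  rw [← e₂]
  exact (rescale_eq_of_rescale_eq hp hζ h₁ j₁ e₁ j₂).symm

/-- For distinct constants `c₁ ≠ c₂` the series `s + c₁`, `s + c₂` (`s` a series in `tᵖ`) are not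
both roots of `∏ⱼ (Y - Ψ(ζʲ t))`: the `p` conjugates carry at most one root of this shape. -/
theorem not_two_shifted_roots {p : ℕ} (hp : 0 < p) {ζ : F} (hζ : ζ ^ p = 1) {Ψ s : F⟦X⟧}
    (hs : OnlyPow p s) {c₁ c₂ : F} (hc : c₁ ≠ c₂)
    (hprod₁ : ∏ j ∈ Finset.range p, (s + PowerSeries.C c₁ - PowerSeries.rescale (ζ ^ j) Ψ) = 0)
    (hprod₂ : ∏ j ∈ Finset.range p, (s + PowerSeries.C c₂ - PowerSeries.rescale (ζ ^ j) Ψ) = 0) :
    False := by
  have h := eq_of_prod_eq_zero hp hζ (hs.add (onlyPow_C p c₁)) hprod₁ hprod₂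
  have h2 : PowerSeries.C c₁ = PowerSeries.C c₂ := add_left_cancel h
  apply hc
  have h3 := congrArg (PowerSeries.constantCoeff (R := F)) h2
  rwa [PowerSeries.constantCoeff_C, PowerSeries.constantCoeff_C] at h3

end Conjugates

/-! ### The Artin–Schreier contradiction -/

section Final

variable {F : Type*} [CommRing F] [IsDomain F] [CharP F 3]

/-- The "characteristic polynomial" `(Y - s) ∏ⱼ (Y - Ψ(ζʲ t))` over `F⟦t⟧`. -/
noncomputable def charPoly (p : ℕ) (ζ : F) (s Ψ : F⟦X⟧) : Polynomial F⟦X⟧ :=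
  (Polynomial.X - Polynomial.C s) *
    ∏ j ∈ Finset.range p, (Polynomial.X - Polynomial.C (PowerSeries.rescale (ζ ^ j) Ψ))

omit [IsDomain F] [CharP F 3] in
lemma eval_charPoly (p : ℕ) (ζ : F) (s Ψ y : F⟦X⟧) :
    (charPoly p ζ s Ψ).eval y =
      (y - s) * ∏ j ∈ Finset.range p, (y - PowerSeries.rescale (ζ ^ j) Ψ) := by
  simp only [charPoly, Polynomial.eval_mul, Polynomial.eval_sub, Polynomial.eval_X,
    Polynomial.eval_C, Polynomial.eval_prod]

/-- **The Artin–Schreier contradiction** (`l = 3`, `p ≡ 2 mod 3` step of the Eisenstein upper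
bound).  Over a domain `F` of characteristic `3` with `ζᵖ = 1`: let `s` be a non-zero series in `tᵖ`
without constant term and `Ψ` any series.  Then the coefficients of
`(Y - s) ∏_{j<p} (Y - Ψ(ζʲ t))` cannot all be polynomials in `Δ = s - s³`. -/
theorem false_of_coeff_mem_range {p : ℕ} (hp : 0 < p) {ζ : F} (hζ : ζ ^ p = 1) (s Ψ : F⟦X⟧)
    (hs0 : PowerSeries.constantCoeff s = 0) (hs : s ≠ 0) (hsp : OnlyPow p s)
    (hcoeff : ∀ n : ℕ, (charPoly p ζ s Ψ).coeff n ∈
      Set.range ((Polynomial.aeval (s - s ^ 3) : F[X] →ₐ[F] F⟦X⟧) : F[X] →+* F⟦X⟧)) : False := by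
  obtain ⟨P, hP⟩ := (Polynomial.mem_lifts _).1
    ((Polynomial.lifts_iff_coeff_lifts _).2 hcoeff)
  have h3 : (3 : F) = 0 := by exact_mod_cast CharP.cast_eq_zero F 3
  have h12 : (1 : F) ≠ 2 := by
    intro h
    have h1 : (1 : F) = 0 := by
      have : (2 : F) + 1 = 0 := by rw [← h3]; norm_num
      rw [← h] at this
      have h2 : (1 : F) + 1 + 1 = 0 := by rw [← h3]; norm_num
      calc (1 : F) = (1 + 1 + 1) - (1 + 1) := by ring
        _ = 0 := by rw [h2, this, sub_zero]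
    exact one_ne_zero h1
  have hroot : (P.map ((Polynomial.aeval (s - s ^ 3) : F[X] →ₐ[F] F⟦X⟧) : F[X] →+* F⟦X⟧)).eval s
      = 0 := by
    rw [hP, eval_charPoly, sub_self, zero_mul]
  have key : ∀ c : F, c ^ 3 = c → c ≠ 0 →
      ∏ j ∈ Finset.range p, (s + PowerSeries.C c - PowerSeries.rescale (ζ ^ j) Ψ) = 0 := by
    intro c hc hc0
    have h := eval_shift s hs0 hs c hc P hroot
    rw [hP, eval_charPoly, add_sub_cancel_left] at h
    rcases mul_eq_zero.1 h with h | h
    · have := congrArg (PowerSeries.constantCoeff (R := F)) h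
      rw [PowerSeries.constantCoeff_C, map_zero] at this
      exact absurd this hc0
    · exact h
  have h2c : (2 : F) ^ 3 = 2 := by
    have : (2 : F) ^ 3 = 2 + 2 * 3 := by norm_num
    rw [this, h3, mul_zero, add_zero]
  have h20 : (2 : F) ≠ 0 := by
    intro h
    apply h12
    have : (1 : F) = 3 - 2 := by norm_num
    rw [this, h3, h, sub_zero]
  exact not_two_shifted_roots hp hζ hsp h12 (key 1 (one_pow 3) one_ne_zero) (key 2 h2c h20)

end Final

end Fermat.Agent.S16.ArtinSchreier
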