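import Mathlib

/-!
# PROJECT E (S16): elementary congruences between divisor sums

`σ_a(n) ≡ σ_b(n) (mod m)` whenever `d ^ a ≡ d ^ b (mod m)` for all `d`, with the instances used by
the `l = 2` and `l = 3` cases of the upper bound:

* `sigma_modEq_two` : `σ_k(n) ≡ σ_1(n) (mod 2)` for `k ≥ 1` (in particular `σ_3 ≡ σ_1`);
* `sigma_three_modEq_six` : `σ_3(n) ≡ σ_1(n) (mod 6)`;
* `sigma_five_modEq_twentyFour` : `σ_5(n) ≡ σ_3(n) (mod 24)` (hence mod `8`, mod `3`);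
* `sigma_five_modEq_thirty` : `σ_5(n) ≡ σ_1(n) (mod 30)`;
* `sigma_seven_modEq` : `σ_7(n) ≡ σ_3(n) (mod 120)`, `σ_7(n) ≡ σ_1(n) (mod 42)`;
* integer (`ℤ`) and `ZMod` forms.
-/

set_option autoImplicit false

namespace Fermat.Agent.S16.SigmaCongr

open ArithmeticFunction Finset

/-- Termwise congruence of divisor sums. -/
theorem sigma_modEq_of_pow_modEq {a b m : ℕ} (h : ∀ d : ℕ, d ^ a ≡ d ^ b [MOD m]) (n : ℕ) :
    sigma a n ≡ sigma b n [MOD m] := by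
  rw [sigma_apply, sigma_apply]
  unfold Nat.ModEq
  rw [Finset.sum_nat_mod, Finset.sum_nat_mod (f := fun d => d ^ b)]
  congr 1
  exact Finset.sum_congr rfl fun d _ => h d

/-- A congruence of powers can be checked on residues. -/
theorem pow_modEq_of_forall_lt {a b m : ℕ} (h : ∀ r < m, r ^ a ≡ r ^ b [MOD m]) (hm : 0 < m)
    (d : ℕ) : d ^ a ≡ d ^ b [MOD m] := by
  have h1 : d ^ a ≡ (d % m) ^ a [MOD m] := ((Nat.mod_modEq d m).pow a).symm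
  have h2 : d ^ b ≡ (d % m) ^ b [MOD m] := ((Nat.mod_modEq d m).pow b).symm
  exact h1.trans ((h _ (Nat.mod_lt d hm)).trans h2.symm)

theorem pow_modEq_two (k : ℕ) (hk : 1 ≤ k) (d : ℕ) : d ^ k ≡ d ^ 1 [MOD 2] := by
  rcases Nat.even_or_odd d with hd | hd
  · have h0 : d ≡ 0 [MOD 2] := (Nat.modEq_zero_iff_dvd).2 hd.two_dvd
    have h1 : d ^ k ≡ 0 ^ k [MOD 2] := h0.pow k
    rw [zero_pow (by omega)] at h1
    rw [pow_one]
    exact h1.trans h0.symm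
  · have h0 : d ≡ 1 [MOD 2] := Nat.odd_iff.1 hd
    have h1 : d ^ k ≡ 1 ^ k [MOD 2] := h0.pow k
    rw [one_pow] at h1
    rw [pow_one]
    exact h1.trans h0.symm

/-- `σ_k(n) ≡ σ_1(n) (mod 2)` for `k ≥ 1`. -/
theorem sigma_modEq_two (k : ℕ) (hk : 1 ≤ k) (n : ℕ) : sigma k n ≡ sigma 1 n [MOD 2] :=
  sigma_modEq_of_pow_modEq (pow_modEq_two k hk) n

/-- `σ_3(n) ≡ σ_1(n) (mod 2)`. -/
theorem sigma_three_modEq_two (n : ℕ) : sigma 3 n ≡ sigma 1 n [MOD 2] := sigma_modEq_two 3 (by norm_num) n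

theorem pow_three_modEq_six (d : ℕ) : d ^ 3 ≡ d ^ 1 [MOD 6] :=
  pow_modEq_of_forall_lt (by decide) (by norm_num) d

/-- `σ_3(n) ≡ σ_1(n) (mod 6)`. -/
theorem sigma_three_modEq_six (n : ℕ) : sigma 3 n ≡ sigma 1 n [MOD 6] :=
  sigma_modEq_of_pow_modEq pow_three_modEq_six n

theorem pow_five_modEq_twentyFour (d : ℕ) : d ^ 5 ≡ d ^ 3 [MOD 24] :=
  pow_modEq_of_forall_lt (by decide) (by norm_num) d

/-- `σ_5(n) ≡ σ_3(n) (mod 24)`. -/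
theorem sigma_five_modEq_twentyFour (n : ℕ) : sigma 5 n ≡ sigma 3 n [MOD 24] :=
  sigma_modEq_of_pow_modEq pow_five_modEq_twentyFour n

/-- `σ_5(n) ≡ σ_3(n) (mod 8)`. -/
theorem sigma_five_modEq_eight (n : ℕ) : sigma 5 n ≡ sigma 3 n [MOD 8] :=
  (sigma_five_modEq_twentyFour n).of_dvd (by norm_num)

/-- `σ_5(n) ≡ σ_3(n) (mod 3)`. -/
theorem sigma_five_modEq_three (n : ℕ) : sigma 5 n ≡ sigma 3 n [MOD 3] :=
  (sigma_five_modEq_twentyFour n).of_dvd (by norm_num)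

theorem pow_five_modEq_thirty (d : ℕ) : d ^ 5 ≡ d ^ 1 [MOD 30] :=
  pow_modEq_of_forall_lt (by decide) (by norm_num) d

/-- `σ_5(n) ≡ σ_1(n) (mod 30)`. -/
theorem sigma_five_modEq_thirty (n : ℕ) : sigma 5 n ≡ sigma 1 n [MOD 30] :=
  sigma_modEq_of_pow_modEq pow_five_modEq_thirty n

theorem pow_seven_modEq_oneTwenty (d : ℕ) : d ^ 7 ≡ d ^ 3 [MOD 120] :=
  pow_modEq_of_forall_lt (by decide) (by norm_num) d

/-- `σ_7(n) ≡ σ_3(n) (mod 120)`. -/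
theorem sigma_seven_modEq_oneTwenty (n : ℕ) : sigma 7 n ≡ sigma 3 n [MOD 120] :=
  sigma_modEq_of_pow_modEq pow_seven_modEq_oneTwenty n

theorem pow_seven_modEq_fortyTwo (d : ℕ) : d ^ 7 ≡ d ^ 1 [MOD 42] :=
  pow_modEq_of_forall_lt (by decide) (by norm_num) d

/-- `σ_7(n) ≡ σ_1(n) (mod 42)`. -/
theorem sigma_seven_modEq_fortyTwo (n : ℕ) : sigma 7 n ≡ sigma 1 n [MOD 42] :=
  sigma_modEq_of_pow_modEq pow_seven_modEq_fortyTwo n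

/-- Fermat: `d ^ (k + (l - 1)) ≡ d ^ k (mod l)` for `l` prime, `k ≥ 1`. -/
theorem pow_add_pred_modEq_prime {l : ℕ} (hl : l.Prime) (k : ℕ) (hk : 1 ≤ k) (d : ℕ) :
    d ^ (k + (l - 1)) ≡ d ^ k [MOD l] := by
  have := Fact.mk hl
  rw [← ZMod.natCast_eq_natCast_iff]
  push_cast
  by_cases hd : (d : ZMod l) = 0
  · rw [hd, zero_pow (by omega), zero_pow (by omega)]
  · rw [pow_add, ZMod.pow_card_sub_one_eq_one hd, mul_one]

/-- `σ_{k + (l - 1)}(n) ≡ σ_k(n) (mod l)` for `l` prime, `k ≥ 1`. -/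
theorem sigma_add_pred_modEq_prime {l : ℕ} (hl : l.Prime) (k : ℕ) (hk : 1 ≤ k) (n : ℕ) :
    sigma (k + (l - 1)) n ≡ sigma k n [MOD l] :=
  sigma_modEq_of_pow_modEq (pow_add_pred_modEq_prime hl k hk) n

/-! ### Integer and `ZMod` forms -/

theorem int_modEq_of_nat_modEq {a b m : ℕ} (h : a ≡ b [MOD m]) : (a : ℤ) ≡ (b : ℤ) [ZMOD (m : ℤ)] :=
  Int.natCast_modEq_iff.2 h

theorem dvd_sub_of_nat_modEq {a b m : ℕ} (h : a ≡ b [MOD m]) : (m : ℤ) ∣ (a : ℤ) - (b : ℤ) :=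
  (Int.modEq_iff_dvd.1 (int_modEq_of_nat_modEq h).symm)

/-- `8 ∣ σ_5(n) - σ_3(n)` in `ℤ`. -/
theorem eight_dvd_sigma_five_sub (n : ℕ) : (8 : ℤ) ∣ (sigma 5 n : ℤ) - (sigma 3 n : ℤ) :=
  dvd_sub_of_nat_modEq (sigma_five_modEq_eight n)

/-- `24 ∣ σ_5(n) - σ_3(n)` in `ℤ`. -/
theorem twentyFour_dvd_sigma_five_sub (n : ℕ) : (24 : ℤ) ∣ (sigma 5 n : ℤ) - (sigma 3 n : ℤ) :=
  dvd_sub_of_nat_modEq (sigma_five_modEq_twentyFour n)

/-- `2 ∣ σ_3(n) - σ_1(n)` in `ℤ`. -/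
theorem two_dvd_sigma_three_sub (n : ℕ) : (2 : ℤ) ∣ (sigma 3 n : ℤ) - (sigma 1 n : ℤ) :=
  dvd_sub_of_nat_modEq (sigma_three_modEq_two n)

/-- `(σ_3(n) : ZMod 2) = σ_1(n)`. -/
theorem sigma_three_zmod_two (n : ℕ) : ((sigma 3 n : ℕ) : ZMod 2) = ((sigma 1 n : ℕ) : ZMod 2) :=
  (ZMod.natCast_eq_natCast_iff _ _ _).2 (sigma_three_modEq_two n)

/-- `(σ_5(n) : ZMod 8) = σ_3(n)`. -/
theorem sigma_five_zmod_eight (n : ℕ) : ((sigma 5 n : ℕ) : ZMod 8) = ((sigma 3 n : ℕ) : ZMod 8) :=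
  (ZMod.natCast_eq_natCast_iff _ _ _).2 (sigma_five_modEq_eight n)

end Fermat.Agent.S16.SigmaCongr
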