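import Mathlib
import Fermat.Agent.S16.PowerSeriesNorm

/-!
# PROJECT E (S16), E-UB-gen: algebraic core for the case `l ≥ 5`, `l ∣ p + 1`

`R` a commutative ring (think `ℤ_(l)`), `φ : R →+* κ` a reduction to a field of characteristic
`l`, `ι : R →+* ℂ`.  `g ψ : R⟦X⟧` with `g ≡ ψ ≡ c` (constants) modulo `φ`; `p + 1 = l ^ s * m`.

* `coeff_X_sub_C_pow_char` : in characteristic `l`, the coefficient of `Y ^ (l^s (m-1))` in
  `(Y - c) ^ (l^s m)` is `- m c ^ (l^s)` (Frobenius; replaces Lucas' congruence);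
* `map_coeff_normPoly` : the coefficient of `Y ^ (l^s (m-1))` in
  `(Y - g) * charpoly (mulMatrix p ψ)` reduces to the constant `- m c ^ (l^s)`;
* `exists_const_lift` : descent of the complex identity: if `e : ℂ⟦X⟧` is (up to the sign
  `(-1)^(l^s)`) that coefficient of the complex polynomial, then `e` has a model over `R`
  which reduces to a constant, non-zero if `c ≠ 0` and `l ∤ m`.
* `false_of_dvd` : `(l - 1) ∣ 2 l^s` is impossible for `l ≥ 5`.
-/

set_option autoImplicit false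

namespace Fermat.Agent.S16.UBGenCore

open PowerSeries Fermat.Agent.S16.PowerSeriesNorm

/-- Frobenius instead of Lucas: the coefficient of `Y ^ (l^s (m-1))` in `(Y - c) ^ (l^s m)` -/
theorem coeff_X_sub_C_pow_char {κ : Type*} [Field κ] (l : ℕ) [Fact l.Prime] [CharP κ l]
    (s m : ℕ) (hm : 0 < m) (c : κ) :
    ((Polynomial.X - Polynomial.C c : Polynomial κ) ^ (l ^ s * m)).coeff (l ^ s * (m - 1)) =
      -(m : κ) * c ^ (l ^ s) := by
  have h1 : (Polynomial.X - Polynomial.C c : Polynomial κ) ^ (l ^ s * m) =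
      Polynomial.expand κ (l ^ s) ((Polynomial.X - Polynomial.C (c ^ l ^ s)) ^ m) := by
    rw [pow_mul, sub_pow_char_pow, map_pow, map_sub, Polynomial.expand_X, Polynomial.expand_C,
      ← Polynomial.C_pow]
  rw [h1, Polynomial.coeff_expand_mul' (pow_pos (Fact.out : l.Prime).pos s)]
  rw [sub_eq_add_neg, ← Polynomial.C_neg, Polynomial.coeff_X_add_C_pow]
  have h2 : m - (m - 1) = 1 := by omega
  have h3 : m.choose (m - 1) = m := by
    obtain ⟨k, rfl⟩ : ∃ k, m = k + 1 := ⟨m - 1, by omega⟩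
    simp
  rw [h2, pow_one, h3]
  ring

variable {R κ : Type*} [CommRing R] [Field κ]

/-- the polynomial of the `p + 1` conjugates reduces to `(Y - c) ^ (p + 1)` -/
theorem map_normPoly (φ : R →+* κ) (p : ℕ) (hp : p ≠ 0) (g ψ : R⟦X⟧) (c : κ)
    (hg : g.map φ = C c) (hψ : ψ.map φ = C c) :
    ((Polynomial.X - Polynomial.C g) * (mulMatrix p ψ).charpoly).map (PowerSeries.map φ) =
      ((Polynomial.X - Polynomial.C c : Polynomial κ) ^ (p + 1)).map (C : κ →+* κ⟦X⟧) := by
  have h1 : PowerSeries.map φ ψ = PowerSeries.expand p hp (C c) := by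
    rw [hψ]
    ext n
    rw [PowerSeries.coeff_expand, coeff_C, coeff_C]
    by_cases hn : n = 0
    · subst hn
      simp
    · rw [if_neg hn]
      split_ifs with h2 h3
      · exfalso
        obtain ⟨k, rfl⟩ := h2
        rw [Nat.mul_div_cancel_left _ (Nat.pos_of_ne_zero hp)] at h3
        exact hn (by rw [h3, mul_zero])
      · rfl
      · rfl
  rw [Polynomial.map_mul, charpoly_map_of_map_eq_expand p hp φ ψ (C c) h1, Polynomial.map_sub,
    Polynomial.map_X, Polynomial.map_C, hg, Polynomial.map_pow, Polynomial.map_sub,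
    Polynomial.map_X, Polynomial.map_C, pow_succ, mul_comm]

/-- the coefficient of `Y ^ (l^s (m-1))` of the polynomial of the conjugates reduces to the
constant `- m c ^ (l^s)` -/
theorem map_coeff_normPoly (φ : R →+* κ) (l : ℕ) [Fact l.Prime] [CharP κ l] (p : ℕ) (hp : p ≠ 0)
    (s m : ℕ) (hm : 0 < m) (hpm : p + 1 = l ^ s * m) (g ψ : R⟦X⟧) (c : κ)
    (hg : g.map φ = C c) (hψ : ψ.map φ = C c) :
    PowerSeries.map φ
        (((Polynomial.X - Polynomial.C g) * (mulMatrix p ψ).charpoly).coeff (l ^ s * (m - 1))) =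
      C (-(m : κ) * c ^ (l ^ s)) := by
  rw [← Polynomial.coeff_map, map_normPoly φ p hp g ψ c hg hψ, Polynomial.coeff_map, hpm,
    coeff_X_sub_C_pow_char l s m hm c]

/-- **descent**: a complex series `e` which is `(-1)^(l^s)` times the coefficient of
`Y ^ (l^s (m-1))` of the complex polynomial of the conjugates has a model over `R` reducing to a
constant. -/
theorem exists_const_lift (ι : R →+* ℂ) (φ : R →+* κ) (l : ℕ) [Fact l.Prime] [CharP κ l]
    (p : ℕ) (hp : p ≠ 0) (s m : ℕ) (hm : 0 < m) (hpm : p + 1 = l ^ s * m) (g ψ : R⟦X⟧) (c : κ)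
    (hg : g.map φ = C c) (hψ : ψ.map φ = C c) (e : ℂ⟦X⟧)
    (he : ((Polynomial.X - Polynomial.C (g.map ι)) * (mulMatrix p (ψ.map ι)).charpoly).coeff
        (l ^ s * (m - 1)) = (-1) ^ (l ^ s) * e) :
    ∃ f : R⟦X⟧, f.map ι = e ∧ f.map φ = C ((-1) ^ (l ^ s) * (-(m : κ) * c ^ (l ^ s))) := by
  refine ⟨(-1) ^ (l ^ s) *
    ((Polynomial.X - Polynomial.C g) * (mulMatrix p ψ).charpoly).coeff (l ^ s * (m - 1)), ?_, ?_⟩
  · have h1 : ((Polynomial.X - Polynomial.C (g.map ι)) * (mulMatrix p (ψ.map ι)).charpoly) =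
        ((Polynomial.X - Polynomial.C g) * (mulMatrix p ψ).charpoly).map (PowerSeries.map ι) := by
      rw [Polynomial.map_mul, Polynomial.map_sub, Polynomial.map_X, Polynomial.map_C,
        charpoly_mulMatrix_map]
    rw [h1, Polynomial.coeff_map] at he
    rw [map_mul, he, map_pow, map_neg, map_one, ← mul_assoc, ← mul_pow]
    simp
  · rw [map_mul, map_coeff_normPoly φ l p hp s m hm hpm g ψ c hg hψ, map_pow, map_neg, map_one,
      map_mul (C (R := κ)) ((-1) ^ (l ^ s)), map_pow, map_neg, map_one]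

/-- the constant of `exists_const_lift` is non-zero -/
theorem const_ne_zero (l : ℕ) [Fact l.Prime] [CharP κ l] (s m : ℕ) (hlm : ¬ l ∣ m) (c : κ)
    (hc : c ≠ 0) : (-1) ^ (l ^ s) * (-(m : κ) * c ^ (l ^ s)) ≠ 0 := by
  have h1 : (m : κ) ≠ 0 := by
    intro h
    exact hlm ((CharP.cast_eq_zero_iff κ l m).mp h)
  have h2 : ((-1 : κ)) ^ (l ^ s) ≠ 0 := pow_ne_zero _ (neg_ne_zero.mpr one_ne_zero)
  exact mul_ne_zero h2 (mul_ne_zero (neg_ne_zero.mpr h1) (pow_ne_zero _ hc))

/-- `(l - 1) ∣ 2 l^s` is impossible for `l ≥ 5` -/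
theorem false_of_dvd (l : ℕ) (h5 : 5 ≤ l) (s : ℕ)
    (h : ((l : ℤ) - 1) ∣ ((2 * l ^ s : ℕ) : ℤ)) : False := by
  have h1 : ((l - 1 : ℕ) : ℤ) = (l : ℤ) - 1 := by
    rw [Nat.cast_sub (by omega)]; simp
  rw [← h1, Int.natCast_dvd_natCast] at h
  have h2 : Nat.Coprime (l - 1) (l ^ s) := by
    apply Nat.Coprime.pow_right
    have h3 : Nat.Coprime (l - 1) (l - 1 + 1) := by simp
    rwa [Nat.sub_add_cancel (by omega)] at h3
  have h4 : (l - 1) ∣ 2 := (Nat.Coprime.dvd_mul_right h2).mp h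
  have := Nat.le_of_dvd (by norm_num) h4
  omega

end Fermat.Agent.S16.UBGenCore
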