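import Mathlib

/-!
# PROJECT E (S16): a Mathlib-only model of `ℤ_(l)` with its maps to `ℂ` and to `ZMod l`

`Zl l := Localization (primeTo l)` (`primeTo l` = the integers prime to `l`), with
* `iota l : Zl l →+* ℂ` injective (`iota_injective`), `iota_comp_intCast`;
* `phi l : Zl l →+* ZMod l`, `phi_comp_intCast`, `phi_natCast_self`;
* `isUnit_natCast_of_not_dvd`, `isUnit_intCast_of_not_dvd`: integers prime to `l` are units;
* `map_map_iota`, `map_map_phi`: base change of integral power series.

This is the triple `(R, ι, φ)` consumed by the weight theorem `WT` and by `UBGenCore`.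
-/

set_option autoImplicit false

noncomputable section

namespace Fermat.Agent.S16.ZlModel

variable (l : ℕ) [hl : Fact l.Prime]

/-- the multiplicative set of the integers prime to `l` -/
def primeTo : Submonoid ℤ where
  carrier := {n | ¬ (l : ℤ) ∣ n}
  one_mem' := by
    intro h
    have h1 : l ∣ 1 := Int.natCast_dvd_natCast.mp (by simpa using h)
    exact hl.out.one_lt.ne' (Nat.dvd_one.mp h1)
  mul_mem' := by
    intro a b ha hb h
    rcases (Nat.prime_iff_prime_int.mp hl.out).dvd_or_dvd h with h1 | h1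
    · exact ha h1
    · exact hb h1

theorem mem_primeTo (n : ℤ) : n ∈ primeTo l ↔ ¬ (l : ℤ) ∣ n := Iff.rfl

/-- the model of `ℤ_(l)` -/
abbrev Zl : Type := Localization (primeTo l)

theorem isUnit_algebraMap_of_not_dvd (n : ℤ) (hn : ¬ (l : ℤ) ∣ n) :
    IsUnit (algebraMap ℤ (Zl l) n) :=
  IsLocalization.map_units (Zl l) (⟨n, hn⟩ : primeTo l)

theorem isUnit_intCast_of_not_dvd (n : ℤ) (hn : ¬ (l : ℤ) ∣ n) : IsUnit ((n : ℤ) : Zl l) := by
  have := isUnit_algebraMap_of_not_dvd l n hn
  rwa [eq_intCast] at this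

theorem isUnit_natCast_of_not_dvd (n : ℕ) (hn : ¬ l ∣ n) : IsUnit (n : Zl l) := by
  have := isUnit_intCast_of_not_dvd l (n : ℤ) (fun h => hn (Int.natCast_dvd_natCast.mp h))
  rwa [Int.cast_natCast] at this

/-- the embedding `ℤ_(l) → ℂ` -/
def iota : Zl l →+* ℂ :=
  IsLocalization.lift (M := primeTo l) (g := Int.castRingHom ℂ) (fun s => by
    have hs : ¬ (l : ℤ) ∣ (s : ℤ) := s.2
    rw [eq_intCast]
    have h0 : ((s : ℤ) : ℂ) ≠ 0 := by
      intro h
      rw [Int.cast_eq_zero] at h
      exact hs (h ▸ dvd_zero _)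
    exact IsUnit.mk0 _ h0)

theorem iota_algebraMap (n : ℤ) : iota l (algebraMap ℤ (Zl l) n) = (n : ℂ) := by
  rw [iota, IsLocalization.lift_eq, eq_intCast]

theorem algebraMap_injective : Function.Injective (algebraMap ℤ (Zl l)) := by
  apply IsLocalization.injective (Zl l) (M := primeTo l)
  intro s hs
  exact mem_nonZeroDivisors_of_ne_zero (fun h0 => hs (h0 ▸ dvd_zero _))

theorem iota_injective : Function.Injective (iota l) := by
  rw [iota, IsLocalization.lift_injective_iff]
  intro x y
  constructor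
  · intro h
    rw [algebraMap_injective l h]
  · intro h
    have h1 : x = y := by
      have h2 : ((x : ℤ) : ℂ) = ((y : ℤ) : ℂ) := by simpa using h
      exact_mod_cast h2
    rw [h1]

theorem iota_comp_intCast : (iota l).comp (Int.castRingHom (Zl l)) = Int.castRingHom ℂ :=
  RingHom.ext_int _ _

/-- reduction modulo `l` -/
def phi : Zl l →+* ZMod l :=
  IsLocalization.lift (M := primeTo l) (g := Int.castRingHom (ZMod l)) (fun s => by
    have hs : ¬ (l : ℤ) ∣ (s : ℤ) := s.2
    rw [eq_intCast]
    have h0 : ((s : ℤ) : ZMod l) ≠ 0 := fun h =>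
      hs ((ZMod.intCast_zmod_eq_zero_iff_dvd (s : ℤ) l).1 h)
    exact IsUnit.mk0 _ h0)

theorem phi_comp_intCast : (phi l).comp (Int.castRingHom (Zl l)) = Int.castRingHom (ZMod l) :=
  RingHom.ext_int _ _

theorem phi_natCast_self : phi l (l : Zl l) = 0 := by
  rw [map_natCast]; exact ZMod.natCast_self l

open PowerSeries in
theorem map_map_iota (f : ℤ⟦X⟧) :
    (f.map (Int.castRingHom (Zl l))).map (iota l) = f.map (Int.castRingHom ℂ) := by
  ext n
  rw [coeff_map, coeff_map, coeff_map, ← RingHom.comp_apply, iota_comp_intCast]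

open PowerSeries in
theorem map_map_phi (f : ℤ⟦X⟧) :
    (f.map (Int.castRingHom (Zl l))).map (phi l) = f.map (Int.castRingHom (ZMod l)) := by
  ext n
  rw [coeff_map, coeff_map, coeff_map, ← RingHom.comp_apply, phi_comp_intCast]

end Fermat.Agent.S16.ZlModel
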