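import Mathlib
import Fermat.Agent.S16.RedDefs
import Fermat.Agent.S16.PowerSeriesNorm
import Fermat.Agent.S16.UBGenCore
import Fermat.Agent.S16.ZlModel
import Fermat.Agent.S16.TraceQ

/-!
# PROJECT E (S16), E-UB-gen: the case `l ≥ 5`, `l ∣ p + 1` of the upper bound

`ubgen_of` : for a prime `l ≥ 5` dividing `p + 1`, `¬ EisensteinCongruence p l`, from the three
inputs (as hypotheses, in the exact shapes announced by their owners):

* `hE`  : the weight two Eisenstein series `E` of level `p` (`a_0 = (p-1)/24`, `a_n = σ'(n)`);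
* `hQ`  : the level one coefficient forms of the polynomial of the `p + 1` conjugates
  (`ConjExpansion` (Q3), coefficientwise);
* `hWT` : the weight theorem (`WT`): a level one form of weight `k` with `l`-integral
  `q`-expansion congruent to a non-zero constant has `(l - 1) ∣ k`.

Proof: `G := 24 (E - f₀)` has integral coefficients and `G ≡ p - 1 ≡ -2 (mod l)`; its conjugates
`-(1/p) U_p G ≡ -2` as well, so the polynomial of the conjugates is `≡ (Y + 2)^(p+1)`; for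
`p + 1 = l^s m`, `l ∤ m`, the coefficient of `Y^(l^s (m-1))` is the non-zero constant
`- m (-2)^(l^s)`: the level one form `e_(l^s)` of weight `2 l^s` is congruent to a non-zero
constant, hence `(l - 1) ∣ 2 l^s`, absurd for `l ≥ 5`.
-/

set_option autoImplicit false

noncomputable section

namespace Fermat.Agent.S16.UBGen

open UpperHalfPlane CongruenceSubgroup ModularForm ModularFormClass PowerSeries
open Fermat.Agent.S16.Reduction Fermat.Agent.S16.PowerSeriesNorm Fermat.Agent.S16.UBGenCore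
  Fermat.Agent.S16.ZlModel Fermat.Agent.S23.QRing Fermat.Agent.S16.Trace

open scoped ModularForm MatrixGroups

/-- the integral `q`-expansion of `24 (E - f₀)` -/
def gZ (p : ℕ) (a : ℕ → ℤ) : ℤ⟦X⟧ :=
  PowerSeries.mk fun n => if n = 0 then ((p : ℤ) - 1) - 24 * a 0 else 24 * ((sigmaP p n : ℤ) - a n)

theorem coeff_gZ (p : ℕ) (a : ℕ → ℤ) (n : ℕ) :
    coeff n (gZ p a) =
      if n = 0 then ((p : ℤ) - 1) - 24 * a 0 else 24 * ((sigmaP p n : ℤ) - a n) := by
  rw [gZ, coeff_mk]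

theorem sigmaP_zero' (p : ℕ) : sigmaP p 0 = 0 := by
  simp [sigmaP]

/-- `gZ ≡ p - 1` modulo `l` -/
theorem map_gZ (p l : ℕ) (a : ℕ → ℤ) (ha : ∀ n, (l : ℤ) ∣ a n - sigmaP p n) :
    (gZ p a).map (Int.castRingHom (ZMod l)) = C ((p : ZMod l) - 1) := by
  ext n
  rw [coeff_map, coeff_gZ, coeff_C]
  have h1 : ∀ n, ((a n : ℤ) : ZMod l) = ((sigmaP p n : ℕ) : ZMod l) := by
    intro n
    have := (ZMod.intCast_zmod_eq_zero_iff_dvd _ l).mpr (ha n)
    rw [Int.cast_sub, sub_eq_zero] at this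
    rw [this, Int.cast_natCast]
  by_cases hn : n = 0
  · rw [if_pos hn, if_pos hn, eq_intCast, Int.cast_sub, Int.cast_mul, h1 0, sigmaP_zero']
    simp
  · rw [if_neg hn, if_neg hn, eq_intCast, Int.cast_mul, Int.cast_sub, h1 n, Int.cast_natCast,
      sub_self, mul_zero]

section TestForm

variable {p : ℕ} [hp : Fact p.Prime]

/-- the test form `G = 24 (E - f₀)` -/
def testForm (E : ModularForm (Gamma0 p) 2) (f0 : CuspForm (Gamma0 p) 2) :
    ModularForm (Gamma0 p) 2 :=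
  (24 : ℂ) • (E - CuspForm.toModularFormₗ f0)

theorem coe_testForm (E : ModularForm (Gamma0 p) 2) (f0 : CuspForm (Gamma0 p) 2) :
    (⇑(testForm E f0) : ℍ → ℂ) = (24 : ℂ) • ((⇑E : ℍ → ℂ) - ⇑f0) := rfl

theorem qx_testForm (E : ModularForm (Gamma0 p) 2) (f0 : CuspForm (Gamma0 p) 2) (a : ℕ → ℤ)
    (hE0 : qCoeff E 0 = ((p : ℂ) - 1) / 24) (hE : ∀ n, 0 < n → qCoeff E n = (sigmaP p n : ℂ))
    (ha : ∀ n, qCoeff f0 n = (a n : ℂ)) :
    qx (testForm E f0) = (gZ p a).map (Int.castRingHom ℂ) := by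
  have hEQ : IsQ (⇑E : ℍ → ℂ) := isQ_of_modularForm E
  have hfQ : IsQ (⇑f0 : ℍ → ℂ) := isQ_of_cuspForm f0
  rw [coe_testForm, qx_smul _ (hEQ.sub hfQ), qx_sub hEQ hfQ]
  ext n
  rw [coeff_map, coeff_gZ, PowerSeries.coeff_smul, map_sub, qx_coeff, qx_coeff, ha n, smul_eq_mul,
    eq_intCast]
  by_cases hn : n = 0
  · subst hn
    rw [if_pos rfl, hE0]
    push_cast
    ring
  · rw [if_neg hn, hE n (Nat.pos_of_ne_zero hn)]
    push_cast
    ring

end TestForm

section Psi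

variable {p : ℕ} [hp : Fact p.Prime] (l : ℕ) [hl : Fact l.Prime]

/-- the `l`-integral model of `ψ = -(1/p) qx (U_p G)` (`u = p` as a unit of `ℤ_(l)`) -/
def psiR (p : ℕ) (u : (Zl l)ˣ) (g : (Zl l)⟦X⟧) : (Zl l)⟦X⟧ :=
  C (-((u⁻¹ : (Zl l)ˣ) : Zl l)) * sect p 0 g

theorem coeff_psiR (u : (Zl l)ˣ) (g : (Zl l)⟦X⟧) (n : ℕ) :
    coeff n (psiR l p u g) = -((u⁻¹ : (Zl l)ˣ) : Zl l) * coeff (p * n) g := by
  rw [psiR, coeff_C_mul, coeff_sect, add_zero]

theorem map_iota_psiR (u : (Zl l)ˣ) (hu : (u : Zl l) = (p : Zl l)) (g : (Zl l)⟦X⟧)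
    (G : ModularForm (Gamma0 p) 2) (hg : g.map (iota l) = qx G) :
    (psiR l p u g).map (iota l) = -(p : ℂ)⁻¹ • qx (heckeU 2 p G) := by
  have hGQ : IsQ (⇑G : ℍ → ℂ) := isQ_of_modularForm G
  ext n
  rw [coeff_map, coeff_psiR, PowerSeries.coeff_smul, qx_coeff,
    qCoeff_heckeU_of_isQ hGQ 2 hp.out.ne_zero n, ← qx_coeff, ← hg, coeff_map, map_mul, map_neg,
    smul_eq_mul, mul_comm n p]
  congr 2
  have h1 : iota l ((u⁻¹ : (Zl l)ˣ) : Zl l) * iota l (u : Zl l) = 1 := by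
    rw [← map_mul, Units.inv_mul, map_one]
  rw [hu, map_natCast] at h1
  exact eq_inv_of_mul_eq_one_left h1

theorem map_phi_psiR (hlp : l ∣ p + 1) (u : (Zl l)ˣ) (hu : (u : Zl l) = (p : Zl l))
    (g : (Zl l)⟦X⟧) (c : ZMod l) (hg : g.map (phi l) = C c) :
    (psiR l p u g).map (phi l) = C c := by
  have hp1 : (p : ZMod l) = -1 := by
    have h1 : ((p + 1 : ℕ) : ZMod l) = 0 := (ZMod.natCast_eq_zero_iff _ _).mpr hlp
    rw [Nat.cast_add, Nat.cast_one] at h1
    exact eq_neg_of_add_eq_zero_left h1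
  have h2 : phi l ((u⁻¹ : (Zl l)ˣ) : Zl l) = -1 := by
    have h1 : phi l ((u⁻¹ : (Zl l)ˣ) : Zl l) * phi l (u : Zl l) = 1 := by
      rw [← map_mul, Units.inv_mul, map_one]
    rw [hu, map_natCast, hp1, mul_neg, mul_one] at h1
    rw [← h1, neg_neg]
  ext n
  rw [coeff_map, coeff_psiR, map_mul, map_neg, h2, neg_neg, one_mul, ← coeff_map, hg, coeff_C,
    coeff_C]
  have h3 : p * n = 0 ↔ n = 0 := by
    constructor
    · intro h
      rcases Nat.mul_eq_zero.mp h with h | h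
      · exact absurd h hp.out.ne_zero
      · exact h
    · intro h
      rw [h, mul_zero]
  simp only [h3]

end Psi

/-- **E-UB-gen from its three inputs** (`hE0`/`hE`: the Eisenstein series of level `p`;
`hQ`: the level one coefficient forms of the polynomial of the conjugates; `hWT`: the weight
theorem). -/
theorem ubgen_of (p : ℕ) [hp : Fact p.Prime] (l : ℕ) [hl : Fact l.Prime] (h5 : 5 ≤ l)
    (hlp : l ∣ p + 1)
    (E : ModularForm (Gamma0 p) 2) (hE0 : qCoeff E 0 = ((p : ℂ) - 1) / 24)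
    (hE : ∀ n, 0 < n → qCoeff E n = (sigmaP p n : ℂ))
    (hQ : ∀ (F : ModularForm (Gamma0 p) 2) (i : ℕ), i ≤ p + 1 →
      ∃ e : ModularForm 𝒮ℒ ((2 : ℤ) * (i : ℤ)),
        ((Polynomial.X - Polynomial.C (qx F)) *
          (mulMatrix p (-(p : ℂ)⁻¹ • qx (heckeU 2 p F))).charpoly).coeff (p + 1 - i) =
            (-1) ^ i * qx e)
    (hWT : ∀ {k : ℤ} (F : ModularForm 𝒮ℒ k) (f : (Zl l)⟦X⟧), f.map (iota l) = qExpansion 1 F →
      ∀ c : ZMod l, c ≠ 0 → f.map (phi l) = C c → ((l : ℤ) - 1) ∣ k) :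
    ¬ EisensteinCongruence p l := by
  rintro ⟨f0, hf0⟩
  choose a ha hda using hf0
  obtain ⟨s, m, hlm, hpm⟩ :=
    Nat.exists_eq_pow_mul_and_not_dvd (n := p + 1) (by omega) l hl.out.ne_one
  have hm : 0 < m := by
    rcases Nat.eq_zero_or_pos m with rfl | h
    · simp at hpm
    · exact h
  have hlnp : ¬ l ∣ p := fun h => by
    have : l ∣ 1 := (Nat.dvd_add_right h).mp hlp
    exact hl.out.one_lt.ne' (Nat.dvd_one.mp this)
  obtain ⟨u, hu⟩ := isUnit_natCast_of_not_dvd l p hlnp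
  have hgι : ((gZ p a).map (Int.castRingHom (Zl l))).map (iota l) = qx (testForm E f0) := by
    rw [map_map_iota, qx_testForm E f0 a hE0 hE ha]
  have hgφ : ((gZ p a).map (Int.castRingHom (Zl l))).map (phi l) = C ((p : ZMod l) - 1) := by
    rw [map_map_phi, map_gZ p l a hda]
  have hc : (p : ZMod l) - 1 ≠ 0 := by
    have hp1 : (p : ZMod l) = -1 := by
      have h1 : ((p + 1 : ℕ) : ZMod l) = 0 := (ZMod.natCast_eq_zero_iff _ _).mpr hlp
      rw [Nat.cast_add, Nat.cast_one] at h1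
      exact eq_neg_of_add_eq_zero_left h1
    rw [hp1]
    intro h
    have h2 : ((2 : ℕ) : ZMod l) = 0 := by
      have : (-1 - 1 : ZMod l) = -((2 : ℕ) : ZMod l) := by push_cast; ring
      rw [this, neg_eq_zero] at h
      exact h
    have h3 : l ∣ 2 := (ZMod.natCast_eq_zero_iff _ _).mp h2
    have := Nat.le_of_dvd (by norm_num) h3
    omega
  have hψι := map_iota_psiR l u hu _ (testForm E f0) hgι
  have hψφ := map_phi_psiR l hlp u hu _ _ hgφ
  have hi : l ^ s ≤ p + 1 := by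
    rw [hpm]
    exact Nat.le_mul_of_pos_right _ hm
  obtain ⟨e, he⟩ := hQ (testForm E f0) (l ^ s) hi
  have hidx : p + 1 - l ^ s = l ^ s * (m - 1) := by rw [hpm, Nat.mul_sub_one]
  rw [hidx, ← hgι, ← hψι] at he
  obtain ⟨f, hfι, hfφ⟩ := exists_const_lift (iota l) (phi l) l p hp.out.ne_zero s m hm hpm _
    (psiR l p u _) _ hgφ hψφ (qx e) he
  have hdvd := hWT e f hfι _ (const_ne_zero l s m hlm _ hc) hfφ
  refine false_of_dvd l h5 s ?_
  push_cast
  push_cast at hdvd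
  exact hdvd

end Fermat.Agent.S16.UBGen
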