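import Mathlib
import Fermat.Agent.S16.UBGenOf
import Fermat.Agent.S16.Eis2
import Fermat.Agent.S16.ConjExpansion
import Fermat.Agent.S16.WT.Main

/-!
# PROJECT E (S16), E-UB-gen: `ubgen`

For a prime `l ≥ 5` dividing `p + 1`: `¬ EisensteinCongruence p l`, unconditionally:
`UBGenOf.ubgen_of` with the Eisenstein series `Eis2.eisP p`, the level one characteristic
polynomial `ConjExpansion.qx_esymmForm` and the weight theorem `WT.weight_dvd_of_const` over
`ℤ_(l)` (`ZlModel`).
-/

set_option autoImplicit false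

namespace Fermat.Agent.S16.UBGen

open UpperHalfPlane CongruenceSubgroup ModularForm
open Fermat.Agent.S20 Fermat.Agent.S16.Reduction Fermat.Agent.S16.ZlModel
  Fermat.Agent.S23.QRing Fermat.Agent.S23.CharPoly Fermat.Agent.S16.ConjExpansion

open scoped ModularForm MatrixGroups

/-- **E-UB-gen**: the special case `l ≥ 5`, `l ∣ p + 1` of the upper bound. -/
theorem ubgen (p : ℕ) [Fact p.Prime] :
    ∀ l : ℕ, l.Prime → 5 ≤ l → l ∣ p + 1 → ¬ EisensteinCongruence p l := by
  intro l hl h5 hlp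
  haveI : Fact l.Prime := ⟨hl⟩
  refine ubgen_of p l h5 hlp (Eis2.eisP p) (Eis2.qCoeff_eisP_zero p)
    (fun n hn => Eis2.qCoeff_eisP p hn) ?_ ?_
  · intro F i hi
    refine ⟨esymmForm 𝒮ℒ F i, ?_⟩
    rw [← psiOf_two (IsMF.coe F), qx_esymmForm F hi, ← mul_assoc, ← pow_add, ← two_mul, pow_mul]
    simp
  · intro k F f hf c hc hfc
    exact WT.weight_dvd_of_const (iota l) (iota_injective l) (phi l) l h5
      (isUnit_natCast_of_not_dvd l) F f hf c hc hfc

end Fermat.Agent.S16.UBGen
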