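import Mathlib

namespace Fermat.Agent.S16.UBArith

/-- **Lucas**: `binom(l^s m, l^s) ≡ m (mod l)`. -/
theorem choose_pow_mul_modEq (l s m : ℕ) (hl : l.Prime) :
    Nat.choose (l ^ s * m) (l ^ s) ≡ m [MOD l] := by
  have : Fact l.Prime := ⟨hl⟩
  have h := Choose.choose_pow_mul_pow_mul_modEq_choose_nat (p := l) (k := s) (a := m) (b := 1)
  simpa using h

theorem padicValNat_two_twentyFour : padicValNat 2 24 = 3 := by
  have : Fact (Nat.Prime 2) := ⟨Nat.prime_two⟩
  rw [show (24 : ℕ) = 2 ^ 3 * 3 by norm_num, padicValNat.mul (by norm_num) (by norm_num),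
    padicValNat.prime_pow]
  simp [padicValNat.eq_zero_of_not_dvd]

theorem padicValNat_two_twelve : padicValNat 2 12 = 2 := by
  have : Fact (Nat.Prime 2) := ⟨Nat.prime_two⟩
  rw [show (12 : ℕ) = 2 ^ 2 * 3 by norm_num, padicValNat.mul (by norm_num) (by norm_num),
    padicValNat.prime_pow]
  simp [padicValNat.eq_zero_of_not_dvd]

theorem padicValNat_three_twentyFour : padicValNat 3 24 = 1 := by
  have : Fact (Nat.Prime 3) := ⟨Nat.prime_three⟩
  rw [show (24 : ℕ) = 3 ^ 1 * 8 by norm_num, padicValNat.mul (by norm_num) (by norm_num),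
    padicValNat.prime_pow]
  simp [padicValNat.eq_zero_of_not_dvd]

theorem padicValNat_three_twelve : padicValNat 3 12 = 1 := by
  have : Fact (Nat.Prime 3) := ⟨Nat.prime_three⟩
  rw [show (12 : ℕ) = 3 ^ 1 * 4 by norm_num, padicValNat.mul (by norm_num) (by norm_num),
    padicValNat.prime_pow]
  simp [padicValNat.eq_zero_of_not_dvd]

theorem not_dvd_twentyFour_of_five_le (l : ℕ) (hl : l.Prime) (h5 : 5 ≤ l) : ¬ l ∣ 24 := by
  intro h
  have hle : l ≤ 24 := Nat.le_of_dvd (by norm_num) h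
  interval_cases l <;> simp_all (config := {decide := true})

theorem padicValNat_twentyFour_of_five_le (l : ℕ) (hl : l.Prime) (h5 : 5 ≤ l) :
    padicValNat l 24 = 0 :=
  padicValNat.eq_zero_of_not_dvd (not_dvd_twentyFour_of_five_le l hl h5)

theorem padicValNat_twelve_of_five_le (l : ℕ) (hl : l.Prime) (h5 : 5 ≤ l) :
    padicValNat l 12 = 0 :=
  padicValNat.eq_zero_of_not_dvd fun h =>
    not_dvd_twentyFour_of_five_le l hl h5 (h.trans ⟨2, by norm_num⟩)

/-- Cancellation of `gcd(N, 12)`: if `l^(a + v_l(12)) ∣ N` then `l^a ∣ N / gcd(N, 12)`. -/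
theorem pow_dvd_div_gcd_twelve (N l a : ℕ) (hl : l.Prime)
    (h : l ^ (a + padicValNat l 12) ∣ N) : l ^ a ∣ N / Nat.gcd N 12 := by
  have : Fact l.Prime := ⟨hl⟩
  set e := padicValNat l 12 with he
  have hg12 : Nat.gcd N 12 ∣ 12 := Nat.gcd_dvd_right _ _
  have hg0 : 0 < Nat.gcd N 12 := Nat.gcd_pos_of_pos_right _ (by norm_num)
  obtain ⟨n, hn⟩ : Nat.gcd N 12 ∣ N := Nat.gcd_dvd_left _ _
  have hdiv : N / Nat.gcd N 12 = n := Nat.div_eq_of_eq_mul_right hg0 hn
  rw [hdiv]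
  obtain ⟨c, hc⟩ : l ^ e ∣ 12 := pow_padicValNat_dvd
  have hcop : Nat.Coprime (l ^ a) c := by
    apply Nat.Coprime.pow_left
    rw [Nat.Prime.coprime_iff_not_dvd hl]
    intro hlc
    have h12 : l ^ (e + 1) ∣ 12 := by
      rw [pow_succ]; conv_rhs => rw [hc]
      exact mul_dvd_mul_left _ hlc
    exact pow_succ_padicValNat_not_dvd (by norm_num) h12
  have h1 : l ^ e * l ^ a ∣ l ^ e * (c * n) := by
    have h' : l ^ (a + e) ∣ Nat.gcd N 12 * n := by rw [← hn]; exact h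
    have h3 : Nat.gcd N 12 * n ∣ 12 * n := Nat.mul_dvd_mul_right hg12 n
    have h4 : 12 * n = l ^ e * (c * n) := by rw [hc]; ring
    rw [← pow_add, add_comm e a, ← h4]
    exact h'.trans h3
  have h2 : l ^ a ∣ c * n := Nat.dvd_of_mul_dvd_mul_left (pow_pos hl.pos e) h1
  exact hcop.dvd_of_dvd_mul_left h2

/-- helper29's bookkeeping lemma for `hUB_of_special`. -/
theorem pow_dvd_eisNum (p l a : ℕ) (hp : p.Prime) (hl : l.Prime) (ha : 0 < a)
    (hdvd : l ^ (a + padicValNat l 24) ∣ (p - 1) * (p + 1))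
    (h2 : l = 2 → p % 8 ≠ 7) (h3 : l = 3 → p % 3 ≠ 2) (hgen : 5 ≤ l → ¬ l ∣ p + 1) :
    l ^ a ∣ (p - 1) / Nat.gcd (p - 1) 12 := by
  apply pow_dvd_div_gcd_twelve _ _ _ hl
  have hl2 := hl.two_le
  have hp2 := hp.two_le
  have hcases : l = 2 ∨ l = 3 ∨ 5 ≤ l := by
    rcases Nat.lt_or_ge l 5 with h | h
    · interval_cases l
      · exact Or.inl rfl
      · exact Or.inr (Or.inl rfl)
      · exact absurd hl (by decide)
    · exact Or.inr (Or.inr h)
  rcases hcases with rfl | rfl | h5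
  · -- `l = 2`
    rw [padicValNat_two_twelve]
    rw [padicValNat_two_twentyFour] at hdvd
    have h7 := h2 rfl
    have hmod : p % 8 = 0 ∨ p % 8 = 1 ∨ p % 8 = 2 ∨ p % 8 = 3 ∨ p % 8 = 4 ∨ p % 8 = 5 ∨
        p % 8 = 6 := by omega
    have h2dvd : 2 ∣ (p - 1) * (p + 1) := (dvd_pow_self 2 (by omega)).trans hdvd
    have hodd : p % 2 = 1 := by
      rcases (Nat.Prime.dvd_mul Nat.prime_two).mp h2dvd with h | h <;> omega
    by_cases h4 : p % 4 = 1
    · -- `p + 1 = 2 k`, `k` odd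
      obtain ⟨k, hk, hkodd⟩ : ∃ k, p + 1 = 2 * k ∧ k % 2 = 1 := ⟨(p + 1) / 2, by omega, by omega⟩
      rw [hk, show a + 3 = (a + 2) + 1 by ring, pow_succ, mul_comm (2 ^ (a + 2)) 2,
        show (p - 1) * (2 * k) = 2 * ((p - 1) * k) by ring] at hdvd
      have h5 : 2 ^ (a + 2) ∣ (p - 1) * k := Nat.dvd_of_mul_dvd_mul_left (by norm_num) hdvd
      have hcop : Nat.Coprime (2 ^ (a + 2)) k := by
        apply Nat.Coprime.pow_left
        rw [Nat.Prime.coprime_iff_not_dvd Nat.prime_two]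
        omega
      exact hcop.dvd_of_dvd_mul_right h5
    · -- `p % 8 = 3`: impossible
      exfalso
      have h83 : p % 8 = 3 := by omega
      obtain ⟨j, hj, hjodd⟩ : ∃ j, p - 1 = 2 * j ∧ j % 2 = 1 := ⟨(p - 1) / 2, by omega, by omega⟩
      obtain ⟨k, hk, hkodd⟩ : ∃ k, p + 1 = 4 * k ∧ k % 2 = 1 := ⟨(p + 1) / 4, by omega, by omega⟩
      rw [hj, hk, show a + 3 = 3 + a by ring, pow_add,
        show 2 * j * (4 * k) = 2 ^ 3 * (j * k) by ring] at hdvd
      have h5 : 2 ^ a ∣ j * k := Nat.dvd_of_mul_dvd_mul_left (by norm_num) hdvd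
      have h6 : 2 ∣ j * k := (dvd_pow_self 2 (by omega)).trans h5
      rcases (Nat.Prime.dvd_mul Nat.prime_two).mp h6 with h | h <;> omega
  · -- `l = 3`
    rw [padicValNat_three_twelve]
    rw [padicValNat_three_twentyFour] at hdvd
    have h32 := h3 rfl
    have hcop : Nat.Coprime (3 ^ (a + 1)) (p + 1) := by
      apply Nat.Coprime.pow_left
      rw [Nat.Prime.coprime_iff_not_dvd Nat.prime_three]
      omega
    exact hcop.dvd_of_dvd_mul_right hdvd
  · -- `5 ≤ l`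
    rw [padicValNat_twelve_of_five_le l hl h5]
    rw [padicValNat_twentyFour_of_five_le l hl h5] at hdvd
    have hcop : Nat.Coprime (l ^ (a + 0)) (p + 1) := by
      apply Nat.Coprime.pow_left
      rw [Nat.Prime.coprime_iff_not_dvd hl]
      exact hgen h5
    exact hcop.dvd_of_dvd_mul_right hdvd

end Fermat.Agent.S16.UBArith
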