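import Fermat.Agent.S16.UBFinal
import Fermat.Agent.S16.UBArith
import Fermat.Agent.S16.Eis2

/-!
# S16 (PROJECT E), slice E-UB-gen: the upper bound, given the Eisenstein series

`hUB_of_special_of_eis`: the hypothesis `hUB` of `Reduction.result_of` from the three special
cases, for any model `B : EisAPI p` of the weight two Eisenstein series of level `p`.
-/

set_option autoImplicit false

noncomputable section

namespace Fermat.Agent.S16.UBMaster

open ModularCurve Fermat.Agent.S16.Reduction

/-- The upper bound `(UB)` from the master identity and the three special cases. -/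
theorem hUB_of_special_of_eis (p : ℕ) [hp : Fact p.Prime] (B : EisAPI p)
    (ub2 : p % 8 = 7 → ¬ EisensteinCongruence p 2)
    (ub3 : p % 3 = 2 → ¬ EisensteinCongruence p 3)
    (ubgen : ∀ l : ℕ, l.Prime → 5 ≤ l → l ∣ p + 1 → ¬ EisensteinCongruence p l) :
    ∀ l a : ℕ, l.Prime → 0 < a → EisensteinCongruence p (l ^ a) →
      l ^ a ∣ eisensteinNumerator p :=
  hUB_of_special_aux p (traceAPI p) B
    (fun l a hl ha h h2 h3 hg => UBArith.pow_dvd_eisNum p l a hp.out hl ha h h2 h3 hg)
    ub2 ub3 ubgen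

/-- The Eisenstein series `Eis2.eisP p` is a model of `EisAPI p`. -/
def eisAPI (p : ℕ) [Fact p.Prime] : EisAPI p where
  E := Eis2.eisP p
  coeff_zero := Eis2.qCoeff_eisP_zero p
  coeff_pos _ hn := Eis2.qCoeff_eisP p hn

end Fermat.Agent.S16.UBMaster

namespace Fermat.Agent.S16.MasterIdentity

open ModularCurve Fermat.Agent.S16.Reduction

/-- **The upper bound `(UB)` of `Reduction.result_of`** from the three special cases
(`ℓ = 2`, `p ≡ 7 mod 8`; `ℓ = 3`, `p ≡ 2 mod 3`; `ℓ ≥ 5`, `ℓ ∣ p + 1`); all other cases are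
handled by the master identity. -/
theorem hUB_of_special (p : ℕ) [Fact p.Prime]
    (ub2 : p % 8 = 7 → ¬ EisensteinCongruence p 2)
    (ub3 : p % 3 = 2 → ¬ EisensteinCongruence p 3)
    (ubgen : ∀ l : ℕ, l.Prime → 5 ≤ l → l ∣ p + 1 → ¬ EisensteinCongruence p l) :
    ∀ l a : ℕ, l.Prime → 0 < a → EisensteinCongruence p (l ^ a) →
      l ^ a ∣ eisensteinNumerator p :=
  UBMaster.hUB_of_special_of_eis p (UBMaster.eisAPI p) ub2 ub3 ubgen

end Fermat.Agent.S16.MasterIdentity
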