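/-
PROJECT E (S16), slice E-TR (helper23): EVALUATING THE LEVEL-ONE CHARACTERISTIC POLYNOMIAL at a
`1`-periodic function `A` (a level-one or level-`3` form, a constant, ...).

For `F : ModularForm (Γ₀(p)) k` and `A` with `IsQ A`:

  `N_A := ∏_{q ∈ SL(2,ℤ)/Γ₀(p)} (A - tr k F q) = (A - F) ∏_{j<p} (A - F ∣ S T^j)`

is `1`-periodic with `qx N_A = (qx A - qx F) * normP p (expand p (qx A) - ψ)`,
`ψ = psiOf k p F` (`normP` = the formal norm of `S16/PowerSeriesNorm`).
-/
import Mathlib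
import Fermat.Agent.S16.ConjExpansion

set_option autoImplicit false
set_option linter.unusedSectionVars false

noncomputable section

namespace Fermat.Agent.S16.ConjNorm

open UpperHalfPlane SlashInvariantForm CongruenceSubgroup ModularGroup ModularForm Polynomial
open Fermat.Agent.S20 Fermat.Agent.S16.Trace Fermat.Agent.S16.Conjugates
open Fermat.Agent.S23.QRing Fermat.Agent.S16.PowerSeriesNorm Fermat.Agent.S23.CharPoly
open Fermat.Agent.S16.ConjExpansion

open scoped ModularForm Manifold MatrixGroups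

/-! ### Formal part -/

section Formal

variable {R : Type*} [CommRing R] (p : ℕ) (hp : p ≠ 0)

theorem mulMatrix_sub (g h : PowerSeries R) :
    mulMatrix p (g - h) = mulMatrix p g - mulMatrix p h := by
  have h1 := mulMatrix_add p (g - h) h
  rw [sub_add_cancel] at h1
  rw [h1, add_sub_cancel_right]

include hp in
/-- **Evaluating the characteristic polynomial of multiplication by `ψ` at a series in `X^p`**:
`charpoly(mulMatrix ψ)(K) = normP (K(X^p) - ψ)`. -/
theorem eval_charpoly_mulMatrix (K ψ : PowerSeries R) :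
    (mulMatrix p ψ).charpoly.eval K = normP p (PowerSeries.expand p hp K - ψ) := by
  rw [Matrix.eval_charpoly, normP, mulMatrix_sub, mulMatrix_expand p hp]
  rfl

end Formal

/-! ### The norm `∏_q (A - tr k F q)` -/

section Norm

variable {p : ℕ} [hp : Fact p.Prime] {k : ℤ}

/-- The characteristic polynomial with coefficients in `qRing`. -/
def PsiR (F : ModularForm (G0 p) k) : Polynomial qRing :=
  (X - C (⟨⇑F, isQ_of_isMF (IsMF.coe F)⟩ : qRing)) *
    chiR k p (conjH k p ⇑F) (isQ_conjH (IsMF.coe F))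

theorem map_val_PsiR (F : ModularForm (G0 p) k) :
    (PsiR F).map ((qRing.val : qRing →ₐ[ℂ] (ℍ → ℂ)) : qRing →+* (ℍ → ℂ)) = PsiU k p ⇑F := by
  rw [PsiR, Polynomial.map_mul, map_val_chiR, Polynomial.map_sub, Polynomial.map_X,
    Polynomial.map_C]
  rfl

theorem map_qxHom_PsiR (F : ModularForm (G0 p) k) :
    (PsiR F).map ((qxHom : qRing →ₐ[ℂ] PowerSeries ℂ) : qRing →+* PowerSeries ℂ)
      = (X - C (qx ⇑F)) * (mulMatrix p (psiOf k p ⇑F)).charpoly := by
  rw [PsiR, Polynomial.map_mul, map_qxHom_chiR, Polynomial.map_sub, Polynomial.map_X,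
    Polynomial.map_C, chiQ_eq_charpoly (isQ_conjH (IsMF.coe F))]
  rfl

/-- `∏_q (A - tr k F q)` is the value at `A` of the characteristic polynomial. -/
theorem prod_sub_tr_eq_eval (F : ModularForm (G0 p) k) (A : ℍ → ℂ) :
    ∏ q : Q p, (A - tr k ⇑F q) = (PsiU k p ⇑F).eval A := by
  rw [prod_tr (p := p) (fun g => A - g) (IsMF.coe F), PsiU, Polynomial.eval_mul,
    Polynomial.eval_sub, Polynomial.eval_X, Polynomial.eval_C, chiU, Polynomial.eval_prod]
  congr 1
  refine Finset.prod_congr rfl fun j _ => ?_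
  rw [Polynomial.eval_sub, Polynomial.eval_X, Polynomial.eval_C, slash_ST_eq_conjF]

theorem prod_sub_tr_eq_val (F : ModularForm (G0 p) k) {A : ℍ → ℂ} (hA : IsQ A) :
    ∏ q : Q p, (A - tr k ⇑F q) = (((PsiR F).eval (⟨A, hA⟩ : qRing) : qRing) : ℍ → ℂ) := by
  rw [prod_sub_tr_eq_eval, ← map_val_PsiR, Polynomial.eval_map]
  exact (Polynomial.eval₂_at_apply
    ((qRing.val : qRing →ₐ[ℂ] (ℍ → ℂ)) : qRing →+* (ℍ → ℂ)) (⟨A, hA⟩ : qRing)).trans rfl

/-- **The norm is `1`-periodic.** -/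
theorem isQ_prod_sub_tr (F : ModularForm (G0 p) k) {A : ℍ → ℂ} (hA : IsQ A) :
    IsQ (∏ q : Q p, (A - tr k ⇑F q)) := by
  rw [prod_sub_tr_eq_val F hA]
  exact ((PsiR F).eval (⟨A, hA⟩ : qRing)).2

/-- **`q`-expansion of the norm** `∏_{q ∈ SL(2,ℤ)/Γ₀(p)} (A - tr k F q)`. -/
theorem qx_prod_sub_tr (F : ModularForm (G0 p) k) {A : ℍ → ℂ} (hA : IsQ A) :
    qx (∏ q : Q p, (A - tr k ⇑F q))
      = (qx A - qx ⇑F) *
          normP p (PowerSeries.expand p hp.out.ne_zero (qx A) - psiOf k p ⇑F) := by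
  rw [prod_sub_tr_eq_val F hA]
  have h1 : qx (((PsiR F).eval (⟨A, hA⟩ : qRing) : qRing) : ℍ → ℂ)
      = ((PsiR F).map ((qxHom : qRing →ₐ[ℂ] PowerSeries ℂ) : qRing →+* PowerSeries ℂ)).eval
          (qx A) := by
    rw [Polynomial.eval_map]
    exact (Polynomial.eval₂_at_apply
      ((qxHom : qRing →ₐ[ℂ] PowerSeries ℂ) : qRing →+* PowerSeries ℂ) (⟨A, hA⟩ : qRing)).symm
  rw [h1, map_qxHom_PsiR, Polynomial.eval_mul, Polynomial.eval_sub, Polynomial.eval_X,
    Polynomial.eval_C, eval_charpoly_mulMatrix p hp.out.ne_zero]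

variable {R : Type*} [CommRing R] (ι : R →+* ℂ)

/-- **Base ring version**: if `qx A`, `qx F`, `ψ` come from `R⟦X⟧`, so does the `q`-expansion of
the norm, computed by the formal norm over `R`. -/
theorem qx_prod_sub_tr_map (F : ModularForm (G0 p) k) {A : ℍ → ℂ} (hA : IsQ A)
    (a f ψR : PowerSeries R) (ha : a.map ι = qx A) (hf : f.map ι = qx ⇑F)
    (hψ : ψR.map ι = psiOf k p ⇑F) :
    qx (∏ q : Q p, (A - tr k ⇑F q))
      = PowerSeries.map ι ((a - f) * normP p (PowerSeries.expand p hp.out.ne_zero a - ψR)) := by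
  rw [qx_prod_sub_tr F hA, map_mul, map_sub, ← normP_map, map_sub, ha, hf, hψ]
  congr 3
  rw [← ha]
  exact (PowerSeries.map_expand p hp.out.ne_zero ι a).symm

/-- The scaled norm `∏_q c • (tr k F q - A)` (the shape of `Trace.prod_tr_sub_slash`). -/
theorem prod_smul_tr_sub_eq (F : ModularForm (G0 p) k) (A : ℍ → ℂ) (c : ℂ) :
    ∏ q : Q p, c • (tr k ⇑F q - A) = ((-c) ^ (p + 1)) • ∏ q : Q p, (A - tr k ⇑F q) := by
  have h1 : ∀ q : Q p, c • (tr k ⇑F q - A) = (fun _ : ℍ => -c) * (A - tr k ⇑F q) := by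
    intro q
    ext τ
    simp only [Pi.smul_apply, Pi.sub_apply, Pi.mul_apply, smul_eq_mul]
    ring
  rw [Finset.prod_congr rfl fun q _ => h1 q, Finset.prod_mul_distrib, Finset.prod_const,
    card_univ_Q]
  ext τ
  simp [Pi.pow_apply]

theorem isQ_prod_smul_tr_sub (F : ModularForm (G0 p) k) {A : ℍ → ℂ} (hA : IsQ A) (c : ℂ) :
    IsQ (∏ q : Q p, c • (tr k ⇑F q - A)) := by
  rw [prod_smul_tr_sub_eq]
  exact (isQ_prod_sub_tr F hA).smul _

theorem qx_prod_smul_tr_sub (F : ModularForm (G0 p) k) {A : ℍ → ℂ} (hA : IsQ A) (c : ℂ) :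
    qx (∏ q : Q p, c • (tr k ⇑F q - A))
      = ((-c) ^ (p + 1)) • ((qx A - qx ⇑F) *
          normP p (PowerSeries.expand p hp.out.ne_zero (qx A) - psiOf k p ⇑F)) := by
  rw [prod_smul_tr_sub_eq, qx_smul _ (isQ_prod_sub_tr F hA), qx_prod_sub_tr F hA]

end Norm

end Fermat.Agent.S16.ConjNorm
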