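import Mathlib
import Fermat.Prelude.Def_ModularForm_HeckeOperatorForms
import Fermat.Prelude.Def_FLTPrelim_Modularity
import Fermat.Prelude.Thm_ModularFormClass_qCoeff_heckeU
import Fermat.Prelude.Thm_CongruenceSubgroup_one_mem_strictPeriods_Gamma0

/-!
# S16 (PROJECT E), slice E-UB-gen: the master identity

For `G ∈ M₂(Γ₀(p))` and `f ∈ S₂(Γ₀(p))` (`p` prime) the trace of `G f` to level one is a cusp form
of weight `4`, hence zero.  Written out with the trace formula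
`Tr F = F + p^(2-k) U_p (w_p F)` and `w_p = -U_p` in weight two, this is the *exact* identity

`p • (G f) + U_p (U_p G · U_p f) = 0`.

In `q`-coefficients: `p ∑_{i+j=n} a_i(G) a_j(f) + ∑_{i+j=pn} a_{pi}(G) a_{pj}(f) = 0`.

Consequence (`mi_cong`): if `G` and `f` have integer coefficients and `G ≡ c mod M`
(any modulus `M`), then `M ∣ c (p a_n(f) + a_{p² n}(f))` for all `n`.

The three facts from the trace slice (E-TR) are consumed through the structure `TraceAPI`.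
-/

set_option autoImplicit false

noncomputable section

namespace Fermat.Agent.S16.MasterIdentity

open UpperHalfPlane ModularFormClass CongruenceSubgroup ModularForm
open scoped ModularForm MatrixGroups

/-- The facts about the Fricke operator `w_p` and the trace to level one which the master
identity consumes (provided by the E-TR slice). -/
structure TraceAPI (p : ℕ) [NeZero p] where
  /-- the Fricke operator `f ↦ f ∣[k] [[0,-1],[p,0]]` at function level -/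
  wp : ℤ → (ℍ → ℂ) → ℍ → ℂ
  /-- multiplicativity of `w_p` -/
  wp_mul : ∀ (k k' : ℤ) (f g : ℍ → ℂ), wp (k + k') (f * g) = (p : ℂ) • (wp k f * wp k' g)
  /-- the trace formula -/
  coe_trace : ∀ (k : ℤ) (f : ModularForm (Gamma0 p) k),
    ⇑(ModularForm.trace 𝒮ℒ f) = ⇑f + ((p : ℂ) ^ (2 - k)) • heckeU k p (wp k ⇑f)
  /-- `w_p = -U_p` in weight two -/
  wp_two : ∀ f : ModularForm (Gamma0 p) 2, wp 2 ⇑f = -heckeU 2 p ⇑f

variable {p : ℕ} [NeZero p]

/-- A cusp form of level one and weight four vanishes. -/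
theorem cuspForm_four_eq_zero (T : CuspForm 𝒮ℒ (2 + 2)) : T = 0 := by
  have hlt : (2 : ℤ) + 2 < 12 := by norm_num
  exact rank_zero_iff_forall_zero.mp (CuspForm.rank_eq_zero_of_weight_lt_twelve hlt) T

/-- **Master identity, function level.** -/
theorem mi_fun (A : TraceAPI p) (G : ModularForm (Gamma0 p) 2) (f : CuspForm (Gamma0 p) 2) :
    (p : ℂ) • ((⇑f : ℍ → ℂ) * ⇑G) + heckeU (2 + 2) p (heckeU 2 p ⇑f * heckeU 2 p ⇑G) = 0 := by
  have hp : (p : ℂ) ≠ 0 := Nat.cast_ne_zero.mpr (NeZero.ne p)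
  set P : CuspForm (Gamma0 p) (2 + 2) := f.mulModularForm G with hP
  have hT : CuspForm.trace 𝒮ℒ P = 0 := cuspForm_four_eq_zero _
  have h1 : (⇑(CuspForm.trace 𝒮ℒ P) : ℍ → ℂ) = ⇑(ModularForm.trace 𝒮ℒ (modularForm P)) := by
    rw [CuspForm.coe_trace, ModularForm.coe_trace]
    rfl
  have h2 := A.coe_trace (2 + 2) (modularForm P)
  have h3 : (⇑(modularForm P) : ℍ → ℂ) = ⇑f * ⇑G := by
    ext τ
    rfl
  have h4 : (⇑(modularForm (f : CuspForm (Gamma0 p) 2)) : ℍ → ℂ) = ⇑f := rfl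
  have h5 : A.wp 2 ⇑f = -heckeU 2 p ⇑f := by
    have := A.wp_two (modularForm f)
    rwa [h4] at this
  rw [h3, A.wp_mul, A.wp_two, h5, ← h1, hT] at h2
  have h6 : (⇑(0 : CuspForm 𝒮ℒ (2 + 2)) : ℍ → ℂ) = 0 := rfl
  rw [h6, neg_mul_neg, heckeU_smul, smul_smul] at h2
  have h7 : (p : ℂ) ^ ((2 : ℤ) - (2 + 2)) * (p : ℂ) = (p : ℂ)⁻¹ := by
    have : ((2 : ℤ) - (2 + 2)) = -2 := by norm_num
    rw [this, zpow_neg, zpow_ofNat]
    field_simp
  rw [h7] at h2
  have h8 := congrArg (fun F : ℍ → ℂ => (p : ℂ) • F) h2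
  simp only [smul_zero, smul_add, smul_smul, mul_inv_cancel₀ hp, one_smul] at h8
  exact h8.symm

/-- **Master identity, coefficient form** (an exact identity). -/
theorem mi_exact (A : TraceAPI p) (G : ModularForm (Gamma0 p) 2) (f : CuspForm (Gamma0 p) 2)
    (n : ℕ) :
    (p : ℂ) * ∑ x ∈ Finset.HasAntidiagonal.antidiagonal n, qCoeff ⇑f x.1 * qCoeff ⇑G x.2 +
      ∑ x ∈ Finset.HasAntidiagonal.antidiagonal (n * p), qCoeff ⇑f (x.1 * p) * qCoeff ⇑G (x.2 * p) = 0 := by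
  have hΓ := one_mem_strictPeriods_Gamma0 p
  have hp0 : p ≠ 0 := NeZero.ne p
  set UG : ModularForm (Gamma0 p) 2 := ModularForm.heckeULin 2 (dvd_refl p) G with hUG
  set Uf : CuspForm (Gamma0 p) 2 := CuspForm.heckeULin 2 (dvd_refl p) f with hUf
  set P1 : CuspForm (Gamma0 p) (2 + 2) := f.mulModularForm G with hP1
  set P2 : CuspForm (Gamma0 p) (2 + 2) :=
    CuspForm.heckeULin (2 + 2) (dvd_refl p) (Uf.mulModularForm UG) with hP2
  have hfun : (⇑((p : ℂ) • P1) : ℍ → ℂ) + ⇑P2 = 0 := by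
    have := mi_fun A G f
    exact this
  have hq : qExpansion 1 ((⇑((p : ℂ) • P1) : ℍ → ℂ) + ⇑P2) = 0 := by
    rw [hfun, qExpansion_zero]
  rw [ModularForm.qExpansion_add one_pos hΓ ((p : ℂ) • P1) P2] at hq
  have hc := congrArg (PowerSeries.coeff n) hq
  rw [map_add, map_zero] at hc
  -- first summand
  have e1 : PowerSeries.coeff n (qExpansion 1 ⇑((p : ℂ) • P1)) =
      (p : ℂ) * ∑ x ∈ Finset.HasAntidiagonal.antidiagonal n, qCoeff ⇑f x.1 * qCoeff ⇑G x.2 := by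
    have h1 : (⇑((p : ℂ) • P1) : ℍ → ℂ) = (p : ℂ) • ⇑P1 := rfl
    rw [h1, ModularForm.qExpansion_smul one_pos hΓ (p : ℂ) P1]
    have h2 : (⇑P1 : ℍ → ℂ) = ⇑f * ⇑G := by
      ext τ
      rfl
    rw [h2, ModularForm.qExpansion_mul_coe one_pos hΓ f G, PowerSeries.coeff_smul,
      PowerSeries.coeff_mul, smul_eq_mul]
    rfl
  -- second summand
  have e2 : PowerSeries.coeff n (qExpansion 1 ⇑P2) =
      ∑ x ∈ Finset.HasAntidiagonal.antidiagonal (n * p), qCoeff ⇑f (x.1 * p) * qCoeff ⇑G (x.2 * p) := by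
    have h1 : (⇑P2 : ℍ → ℂ) = heckeU (2 + 2) p ⇑(Uf.mulModularForm UG) := rfl
    have h2 : PowerSeries.coeff n (qExpansion 1 ⇑P2) = qCoeff (⇑P2) n := rfl
    rw [h2, h1, ModularFormClass.qCoeff_heckeU (Uf.mulModularForm UG) hΓ hp0 n,
      coeffHeckeU_apply]
    have h3 : (⇑(Uf.mulModularForm UG) : ℍ → ℂ) = ⇑Uf * ⇑UG := by
      ext τ
      rfl
    have h4 : qCoeff (⇑(Uf.mulModularForm UG)) (n * p) =
        PowerSeries.coeff (n * p) (qExpansion 1 ((⇑Uf : ℍ → ℂ) * ⇑UG)) := by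
      rw [h3]
      rfl
    rw [h4, ModularForm.qExpansion_mul_coe one_pos hΓ Uf UG, PowerSeries.coeff_mul]
    refine Finset.sum_congr rfl fun x _ => ?_
    have h5 : PowerSeries.coeff x.1 (qExpansion 1 ⇑Uf) = qCoeff ⇑f (x.1 * p) := by
      have : (⇑Uf : ℍ → ℂ) = heckeU 2 p ⇑f := rfl
      rw [this]
      exact (ModularFormClass.qCoeff_heckeU f hΓ hp0 x.1).trans (coeffHeckeU_apply _ _ _)
    have h6 : PowerSeries.coeff x.2 (qExpansion 1 ⇑UG) = qCoeff ⇑G (x.2 * p) := by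
      have : (⇑UG : ℍ → ℂ) = heckeU 2 p ⇑G := rfl
      rw [this]
      exact (ModularFormClass.qCoeff_heckeU G hΓ hp0 x.2).trans (coeffHeckeU_apply _ _ _)
    rw [h5, h6]
  rw [e1, e2] at hc
  exact hc

/-- Congruence for a Cauchy product with a series which is constant modulo `M`. -/
theorem dvd_sum_antidiagonal_sub (M c : ℤ) (F g : ℕ → ℤ) (h0 : M ∣ g 0 - c)
    (hpos : ∀ j, 0 < j → M ∣ g j) (N : ℕ) :
    M ∣ (∑ x ∈ Finset.HasAntidiagonal.antidiagonal N, F x.1 * g x.2) - F N * c := by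
  have haux : ∑ x ∈ Finset.HasAntidiagonal.antidiagonal N,
      F x.1 * (if x.2 = 0 then c else 0) = F N * c := by
    rw [Finset.sum_eq_single (N, 0)]
    · simp
    · rintro ⟨i, j⟩ hx hne
      have hij : i + j = N := by simpa using hx
      have hj : j ≠ 0 := by
        rintro rfl
        apply hne
        simp only [add_zero] at hij
        rw [hij]
      simp [hj]
    · intro h
      exact absurd (by simp) h
  rw [← haux, ← Finset.sum_sub_distrib]
  refine Finset.dvd_sum fun x _ => ?_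
  rw [← mul_sub]
  refine Dvd.dvd.mul_left ?_ _
  by_cases hx : x.2 = 0
  · rw [if_pos hx, hx]
    exact h0
  · rw [if_neg hx, sub_zero]
    exact hpos _ (Nat.pos_of_ne_zero hx)

/-- **Master congruence.** If `G ∈ M₂(Γ₀(p))` and `f ∈ S₂(Γ₀(p))` have integer `q`-expansions
`g`, `φ` and `G ≡ c mod M`, then `M ∣ c (p φ_n + φ_{n p²})` for all `n`.  No condition on `M`. -/
theorem mi_cong (A : TraceAPI p) (G : ModularForm (Gamma0 p) 2) (f : CuspForm (Gamma0 p) 2)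
    (g φ : ℕ → ℤ) (hg : ∀ n, qCoeff ⇑G n = (g n : ℂ)) (hφ : ∀ n, qCoeff ⇑f n = (φ n : ℂ))
    (M c : ℤ) (h0 : M ∣ g 0 - c) (hpos : ∀ j, 0 < j → M ∣ g j) (n : ℕ) :
    M ∣ c * ((p : ℤ) * φ n + φ (n * p * p)) := by
  have hp0 : p ≠ 0 := NeZero.ne p
  have hex := mi_exact A G f n
  simp only [hg, hφ] at hex
  have hZ : (p : ℤ) * ∑ x ∈ Finset.HasAntidiagonal.antidiagonal n, φ x.1 * g x.2 +
      ∑ x ∈ Finset.HasAntidiagonal.antidiagonal (n * p), φ (x.1 * p) * g (x.2 * p) = 0 := by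
    have : (((p : ℤ) * ∑ x ∈ Finset.HasAntidiagonal.antidiagonal n, φ x.1 * g x.2 +
      ∑ x ∈ Finset.HasAntidiagonal.antidiagonal (n * p), φ (x.1 * p) * g (x.2 * p) : ℤ) : ℂ)
        = 0 := by
      push_cast
      exact hex
    exact_mod_cast this
  have d1 := dvd_sum_antidiagonal_sub M c φ g h0 hpos n
  have d2 := dvd_sum_antidiagonal_sub M c (fun i => φ (i * p)) (fun j => g (j * p))
    (by simpa using h0) (fun j hj => hpos _ (Nat.mul_pos hj (Nat.pos_of_ne_zero hp0))) (n * p)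
  have d3 := (Dvd.dvd.mul_left d1 (p : ℤ)).add d2
  have e : (p : ℤ) * ((∑ x ∈ Finset.HasAntidiagonal.antidiagonal n, φ x.1 * g x.2) - φ n * c) +
      ((∑ x ∈ Finset.HasAntidiagonal.antidiagonal (n * p), φ (x.1 * p) * g (x.2 * p)) -
        φ (n * p * p) * c) = -(c * ((p : ℤ) * φ n + φ (n * p * p))) := by
    linear_combination hZ
  rw [e] at d3
  exact (dvd_neg.mp d3)

/-- A cusp form of level one and weight two vanishes. -/
theorem cuspForm_two_eq_zero (T : CuspForm 𝒮ℒ 2) : T = 0 := by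
  have hlt : (2 : ℤ) < 12 := by norm_num
  exact rank_zero_iff_forall_zero.mp (CuspForm.rank_eq_zero_of_weight_lt_twelve hlt) T

/-- `U_p² = 1` on `S₂(Γ₀(p))`. -/
theorem heckeU_heckeU (A : TraceAPI p) (f : CuspForm (Gamma0 p) 2) :
    heckeU 2 p (heckeU 2 p ⇑f) = ⇑f := by
  have hT : CuspForm.trace 𝒮ℒ f = 0 := cuspForm_two_eq_zero _
  have h1 : (⇑(CuspForm.trace 𝒮ℒ f) : ℍ → ℂ) = ⇑(ModularForm.trace 𝒮ℒ (modularForm f)) := by
    rw [CuspForm.coe_trace, ModularForm.coe_trace]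
    rfl
  have h2 := A.coe_trace 2 (modularForm f)
  have h4 : (⇑(modularForm (f : CuspForm (Gamma0 p) 2)) : ℍ → ℂ) = ⇑f := rfl
  rw [A.wp_two, ← h1, hT, h4] at h2
  have h6 : (⇑(0 : CuspForm 𝒮ℒ 2) : ℍ → ℂ) = 0 := rfl
  rw [h6, sub_self, zpow_zero, one_smul, heckeU_neg] at h2
  have h7 : (⇑f : ℍ → ℂ) - heckeU 2 p (heckeU 2 p ⇑f) = 0 := by
    rw [sub_eq_add_neg]
    exact h2.symm
  exact (sub_eq_zero.mp h7).symm

/-- `a_{n p²}(f) = a_n(f)` for `f ∈ S₂(Γ₀(p))`. -/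
theorem qCoeff_mul_sq (A : TraceAPI p) (f : CuspForm (Gamma0 p) 2) (n : ℕ) :
    qCoeff ⇑f (n * p * p) = qCoeff ⇑f n := by
  have hΓ := one_mem_strictPeriods_Gamma0 p
  have hp0 : p ≠ 0 := NeZero.ne p
  set Uf : CuspForm (Gamma0 p) 2 := CuspForm.heckeULin 2 (dvd_refl p) f with hUf
  have h1 : (⇑Uf : ℍ → ℂ) = heckeU 2 p ⇑f := rfl
  have h2 : qCoeff (heckeU 2 p ⇑Uf) n = qCoeff ⇑Uf (n * p) :=
    (ModularFormClass.qCoeff_heckeU Uf hΓ hp0 n).trans (coeffHeckeU_apply _ _ _)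
  have h3 : qCoeff ⇑Uf (n * p) = qCoeff ⇑f (n * p * p) := by
    rw [h1]
    exact (ModularFormClass.qCoeff_heckeU f hΓ hp0 (n * p)).trans (coeffHeckeU_apply _ _ _)
  rw [← h3, ← h2, h1, heckeU_heckeU A f]

/-- **Master congruence, final form**: `M ∣ c (p + 1) φ_n`. -/
theorem mi_cong' (A : TraceAPI p) (G : ModularForm (Gamma0 p) 2) (f : CuspForm (Gamma0 p) 2)
    (g φ : ℕ → ℤ) (hg : ∀ n, qCoeff ⇑G n = (g n : ℂ)) (hφ : ∀ n, qCoeff ⇑f n = (φ n : ℂ))
    (M c : ℤ) (h0 : M ∣ g 0 - c) (hpos : ∀ j, 0 < j → M ∣ g j) (n : ℕ) :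
    M ∣ c * (((p : ℤ) + 1) * φ n) := by
  have h := mi_cong A G f g φ hg hφ M c h0 hpos n
  have e : φ (n * p * p) = φ n := by
    have := qCoeff_mul_sq A f n
    rw [hφ, hφ] at this
    exact_mod_cast this
  rw [e] at h
  have e2 : c * ((p : ℤ) * φ n + φ n) = c * (((p : ℤ) + 1) * φ n) := by ring
  rwa [e2] at h

end Fermat.Agent.S16.MasterIdentity
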