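import Mathlib

/-!
# PROJECT E (S16), E-RED: the abstract duality `L = Hom_ℤ(T, ℤ)`

`L` a finite free `ℤ`-module ("the lattice of cusp forms with integral `q`-expansion"),
`T ⊆ End_ℤ L` a commutative subalgebra ("the Hecke algebra"), `a k : L →ₗ[ℤ] ℤ` the `k`-th
coefficient, `t k ∈ T` an operator with `a 1 (t k f) = a k f`.  If `f ↦ (a k f)_k` is injective
("`q`-expansion principle") and `L` is saturated ("all coefficients divisible by `m` ⇒ divisible
by `m` in `L`"), then every `ℤ`-linear form on `T` is `s ↦ a 1 (s f)` for some `f ∈ L`.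
-/

set_option autoImplicit false

namespace Fermat.Agent.S16.Pairing

open Module

variable {L : Type*} [AddCommGroup L]

/-- `f ↦ (s ↦ a₁ (s f))` -/
def toDualT (T : Subalgebra ℤ (Module.End ℤ L)) (a1 : L →ₗ[ℤ] ℤ) : L →ₗ[ℤ] (↥T →ₗ[ℤ] ℤ) where
  toFun f :=
    { toFun := fun s => a1 ((s : Module.End ℤ L) f)
      map_add' := fun s u => by
        rw [Subalgebra.coe_add, LinearMap.add_apply, map_add]
      map_smul' := fun m s => by
        rw [Subalgebra.coe_smul, LinearMap.smul_apply, map_smul, RingHom.id_apply] }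
  map_add' f g := by
    ext s
    change a1 ((s : Module.End ℤ L) (f + g)) = a1 ((s : Module.End ℤ L) f) + a1 ((s : Module.End ℤ L) g)
    rw [map_add, map_add]
  map_smul' m f := by
    ext s
    change a1 ((s : Module.End ℤ L) (m • f)) = m • a1 ((s : Module.End ℤ L) f)
    rw [map_smul, map_smul]

@[simp]
theorem toDualT_apply (T : Subalgebra ℤ (Module.End ℤ L)) (a1 : L →ₗ[ℤ] ℤ) (f : L) (s : ↥T) :
    toDualT T a1 f s = a1 ((s : Module.End ℤ L) f) := rfl

/-- `s ↦ (f ↦ a₁ (s f))` -/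
def toDualL (T : Subalgebra ℤ (Module.End ℤ L)) (a1 : L →ₗ[ℤ] ℤ) : ↥T →ₗ[ℤ] (L →ₗ[ℤ] ℤ) where
  toFun s := a1 ∘ₗ (s : Module.End ℤ L)
  map_add' s u := by
    ext f
    change a1 (((s + u : ↥T) : Module.End ℤ L) f) = a1 ((s : Module.End ℤ L) f) + a1 ((u : Module.End ℤ L) f)
    rw [Subalgebra.coe_add, LinearMap.add_apply, map_add]
  map_smul' m s := by
    ext f
    change a1 (((m • s : ↥T) : Module.End ℤ L) f) = m • a1 ((s : Module.End ℤ L) f)
    rw [Subalgebra.coe_smul, LinearMap.smul_apply, map_smul]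

@[simp]
theorem toDualL_apply (T : Subalgebra ℤ (Module.End ℤ L)) (a1 : L →ₗ[ℤ] ℤ) (s : ↥T) (f : L) :
    toDualL T a1 s f = a1 ((s : Module.End ℤ L) f) := rfl

section

variable (T : Subalgebra ℤ (Module.End ℤ L))
  (hcomm : ∀ s ∈ T, ∀ u ∈ T, s * u = u * s)
  (a : ℕ → L →ₗ[ℤ] ℤ) (t : ℕ → Module.End ℤ L) (ht : ∀ k, 0 < k → t k ∈ T)
  (hat : ∀ k, 0 < k → ∀ f, a 1 (t k f) = a k f)
  (hinj : ∀ f, (∀ k, 0 < k → a k f = 0) → f = 0)

include ht hat hinj in
theorem toDualT_injective : Function.Injective (toDualT T (a 1)) := by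
  rw [injective_iff_map_eq_zero]
  intro f hf
  refine hinj f fun k hk => ?_
  rw [← hat k hk f]
  exact LinearMap.congr_fun hf ⟨t k, ht k hk⟩

include hcomm ht hat hinj in
theorem toDualL_injective : Function.Injective (toDualL T (a 1)) := by
  rw [injective_iff_map_eq_zero]
  intro s hs
  apply Subtype.ext
  refine LinearMap.ext fun f => ?_
  change (s : Module.End ℤ L) f = 0
  refine hinj _ fun k hk => ?_
  rw [← hat k hk]
  have h1 : t k ((s : Module.End ℤ L) f) = (s : Module.End ℤ L) (t k f) := by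
    have := hcomm (t k) (ht k hk) s s.2
    exact LinearMap.congr_fun this f
  rw [h1]
  exact LinearMap.congr_fun hs (t k f)

variable [Module.Free ℤ L] [Module.Finite ℤ L]

include hcomm ht hat hinj in
/-- **`L = Hom_ℤ(T, ℤ)`** -/
theorem exists_rep_of_saturated
    (hsat : ∀ (m : ℤ) (f : L), m ≠ 0 → (∀ k, 0 < k → m ∣ a k f) → ∃ g, m • g = f)
    (φ : ↥T →ₗ[ℤ] ℤ) : ∃ f : L, ∀ s : ↥T, φ s = a 1 ((s : Module.End ℤ L) f) := by
  have : Module.Finite ℤ ↥T := Module.Finite.of_injective (Subalgebra.toSubmodule T).subtype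
    Subtype.val_injective
  have : Module.Free ℤ ↥T := by
    change Module.Free ℤ ↥(Subalgebra.toSubmodule T)
    infer_instance
  have hΦ := toDualT_injective T a t ht hat hinj
  have hΨ := toDualL_injective T hcomm a t ht hat hinj
  -- ranks
  have r1 : finrank ℤ L ≤ finrank ℤ ↥T := by
    have := LinearMap.finrank_le_finrank_of_injective hΦ
    rwa [Module.finrank_linearMap_self] at this
  have r2 : finrank ℤ ↥T ≤ finrank ℤ L := by
    have := LinearMap.finrank_le_finrank_of_injective hΨ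
    rwa [Module.finrank_linearMap_self] at this
  have r3 : finrank ℤ ↥T = finrank ℤ L := le_antisymm r2 r1
  -- the cokernel is torsion
  set N : Submodule ℤ (↥T →ₗ[ℤ] ℤ) := LinearMap.range (toDualT T (a 1)) with hN
  have r4 : finrank ℤ ((↥T →ₗ[ℤ] ℤ) ⧸ N) = 0 := by
    have h1 := N.finrank_quotient_add_finrank
    have h2 : finrank ℤ ↥N = finrank ℤ L := LinearMap.finrank_range_of_inj hΦ
    have h3 : finrank ℤ (↥T →ₗ[ℤ] ℤ) = finrank ℤ ↥T := Module.finrank_linearMap_self ℤ ℤ ↥T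
    omega
  have r5 : Module.IsTorsion ℤ ((↥T →ₗ[ℤ] ℤ) ⧸ N) := Module.finrank_eq_zero_iff_isTorsion.mp r4
  obtain ⟨⟨m, hm⟩, hmφ⟩ := @r5 (N.mkQ φ)
  have hm0 : m ≠ 0 := nonZeroDivisors.ne_zero hm
  change m • N.mkQ φ = 0 at hmφ
  rw [← map_smul, Submodule.mkQ_apply, Submodule.Quotient.mk_eq_zero] at hmφ
  obtain ⟨f, hf⟩ := hmφ
  have hf' : ∀ s : ↥T, a 1 ((s : Module.End ℤ L) f) = m * φ s := by
    intro s
    have := LinearMap.congr_fun hf s
    rwa [toDualT_apply, LinearMap.smul_apply, smul_eq_mul] at this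
  obtain ⟨g, hg⟩ := hsat m f hm0 (fun k hk => by
    rw [← hat k hk f, hf' ⟨t k, ht k hk⟩]
    exact dvd_mul_right _ _)
  refine ⟨g, fun s => ?_⟩
  have h2 := hf' s
  rw [← hg, map_smul, map_smul, smul_eq_mul] at h2
  exact (mul_left_cancel₀ hm0 h2).symm

end

end Fermat.Agent.S16.Pairing
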