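/-
PROJECT E (S16), slice E-TR (helper27), complements to `S16/Trace.lean`:

* `traceAPI p : MasterIdentity.TraceAPI p` — the instance helper29's master identity consumes;
* `exists_slash_eq_cosetRep` : every `SL(2, ℤ)`-translate of a `Γ₀(p)`-invariant `f` is one of
  `f`, `f ∣ S T^j` (input of the cusp criterion (TR6));
* `w_p` through `S` and `diag(p, 1)`: `wp_eq_slash_S_diag`, `wp_slash_diag`, and for level-one
  forms: `wp_levelOne` (`w_p F = F ∣ diag(p,1) = p^(k-1) F(p ·)`), `wp_slash_diag_levelOne`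
  (`w_p (F ∣ diag(p,1)) = p^(k-2) F`), pointwise forms `wp_levelOne_apply`, `wp_Vp_levelOne`.
-/
import Mathlib
import Fermat.Agent.S16.TraceQ
import Fermat.Agent.S16.MasterIdentity

set_option autoImplicit false

noncomputable section

namespace Fermat.Agent.S16.Trace

open UpperHalfPlane SlashInvariantForm CongruenceSubgroup ModularGroup ModularForm
  ModularFormClass
open Fermat.Agent.S20 Fermat.Agent.S20.CountBridge

open scoped ModularForm Manifold MatrixGroups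

/-- The E-TR instance of helper29's `TraceAPI`. -/
def traceAPI (p : ℕ) [hp : Fact p.Prime] : Fermat.Agent.S16.MasterIdentity.TraceAPI p where
  wp := fun k => wp k p
  wp_mul := fun k k' f g => wp_mul k k' hp.out.ne_zero f g
  coe_trace := fun _ f => coe_trace_eq_heckeU f
  wp_two := fun f => wp_two_eq_neg_heckeU (IsMF.coe f)

@[simp] theorem traceAPI_wp (p : ℕ) [Fact p.Prime] (k : ℤ) : (traceAPI p).wp k = wp k p := rfl

/-- Every `SL(2, ℤ)`-translate of a `Γ₀(p)`-invariant function is `f` or some `f ∣ S T^j`. -/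
theorem exists_slash_eq_cosetRep {p : ℕ} [Fact p.Prime] {k : ℤ} {f : ℍ → ℂ}
    (hf : IsMF (G0 p) k f) (γ : SL(2, ℤ)) :
    ∃ c : Option (Fin p), f ∣[k] γ = f ∣[k] (cosetRep p c)⁻¹ := by
  have h0 : tr k f (QuotientGroup.mk (1 : 𝒮ℒ) : Q p) = f := tr_one_coset hf
  have h1 : f ∣[k] γ = tr k f ((sl γ)⁻¹ • (QuotientGroup.mk (1 : 𝒮ℒ) : Q p)) := by
    rw [← tr_slash hf, h0]
  obtain ⟨c, hc⟩ := (cosetEquiv p).surjective ((sl γ)⁻¹ • (QuotientGroup.mk (1 : 𝒮ℒ) : Q p))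
  exact ⟨c, by rw [h1, ← hc, tr_cosetEquiv hf]⟩

/-- Every `SL(2, ℤ)`-translate of a `Γ₀(p)`-invariant function is `f` or some `f ∣ S T^j`. -/
theorem slash_eq_self_or_exists {p : ℕ} [Fact p.Prime] {k : ℤ} {f : ℍ → ℂ}
    (hf : IsMF (G0 p) k f) (γ : SL(2, ℤ)) :
    f ∣[k] γ = f ∨ ∃ j : Fin p, f ∣[k] γ = f ∣[k] (S * T ^ (j : ℕ) : SL(2, ℤ)) := by
  obtain ⟨c, hc⟩ := exists_slash_eq_cosetRep hf γ
  rcases c with _ | j
  · left
    rw [hc, cosetRep_none, inv_one, SlashAction.slash_one]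
  · right
    exact ⟨j, by rw [hc, cosetRep_some, inv_inv]⟩

/-! ### `w_p` through `S` and `diag(p, 1)` -/

/-- `W = S · diag(p, 1)`. -/
theorem Wp_eq_S_mul_diag {p : ℕ} (hp : p ≠ 0) :
    Wp p = ((S : SL(2, ℤ)) : GL (Fin 2) ℝ) * heckeDiagMatrix p := by
  apply Matrix.GeneralLinearGroup.ext
  intro a b
  rw [Matrix.GeneralLinearGroup.coe_mul, val_Wp hp, val_heckeDiagMatrix hp]
  have h1 : (((S : SL(2, ℤ)) : GL (Fin 2) ℝ) : Matrix (Fin 2) (Fin 2) ℝ) =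
      ((S : SL(2, ℤ)) : Matrix (Fin 2) (Fin 2) ℤ).map (algebraMap ℤ ℝ) :=
    Matrix.SpecialLinearGroup.mapGL_coe_matrix _
  rw [h1]
  fin_cases a <;> fin_cases b <;> simp [S, Matrix.mul_apply, Fin.sum_univ_two]

/-- `diag(p, 1) · W = p · S`. -/
theorem diag_mul_Wp {p : ℕ} (hp : p ≠ 0) :
    heckeDiagMatrix p * Wp p = scalarP p * ((S : SL(2, ℤ)) : GL (Fin 2) ℝ) := by
  apply Matrix.GeneralLinearGroup.ext
  intro a b
  rw [Matrix.GeneralLinearGroup.coe_mul, Matrix.GeneralLinearGroup.coe_mul, val_Wp hp,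
    val_heckeDiagMatrix hp, val_scalarP hp]
  have h1 : (((S : SL(2, ℤ)) : GL (Fin 2) ℝ) : Matrix (Fin 2) (Fin 2) ℝ) =
      ((S : SL(2, ℤ)) : Matrix (Fin 2) (Fin 2) ℤ).map (algebraMap ℤ ℝ) :=
    Matrix.SpecialLinearGroup.mapGL_coe_matrix _
  rw [h1]
  fin_cases a <;> fin_cases b <;> simp [S, Matrix.mul_apply, Fin.sum_univ_two]

theorem wp_eq_slash_S_diag (k : ℤ) {p : ℕ} (hp : p ≠ 0) (f : ℍ → ℂ) :
    wp k p f = (f ∣[k] (S : SL(2, ℤ))) ∣[k] heckeDiagMatrix p := by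
  rw [wp, Wp_eq_S_mul_diag hp, SlashAction.slash_mul, ← ModularForm.SL_slash]

theorem wp_slash_diag (k : ℤ) {p : ℕ} (hp : p ≠ 0) (f : ℍ → ℂ) :
    wp k p (f ∣[k] heckeDiagMatrix p) = ((p : ℂ) ^ (k - 2)) • (f ∣[k] (S : SL(2, ℤ))) := by
  rw [wp, ← SlashAction.slash_mul, diag_mul_Wp hp, SlashAction.slash_mul, slash_scalarP k hp,
    ← ModularForm.SL_slash, ModularForm.SL_smul_slash]

/-- `w_p` of a level-one form: `w_p F = F ∣ diag(p, 1)`. -/
theorem wp_levelOne {k : ℤ} {p : ℕ} (hp : p ≠ 0) (F : ModularForm 𝒮ℒ k) :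
    wp k p ⇑F = (⇑F) ∣[k] heckeDiagMatrix p := by
  rw [wp_eq_slash_S_diag k hp, ModularForm.SL_slash]
  congr 1
  exact SlashInvariantFormClass.slash_action_eq F _ ⟨S, rfl⟩

/-- `w_p F (τ) = p^(k-1) F(p τ)` for a level-one form `F`. -/
theorem wp_levelOne_apply {k : ℤ} {p : ℕ} (hp : p ≠ 0) (F : ModularForm 𝒮ℒ k) (τ : ℍ) :
    wp k p ⇑F τ = (p : ℂ) ^ (k - 1) * F (heckeDiagMatrix p • τ) := by
  rw [wp_levelOne hp, slash_heckeDiagMatrix_apply k hp]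

/-- `w_p (F ∣ diag(p, 1)) = p^(k-2) F` for a level-one form `F`. -/
theorem wp_slash_diag_levelOne {k : ℤ} {p : ℕ} (hp : p ≠ 0) (F : ModularForm 𝒮ℒ k) :
    wp k p ((⇑F) ∣[k] heckeDiagMatrix p) = ((p : ℂ) ^ (k - 2)) • ⇑F := by
  rw [wp_slash_diag k hp, ModularForm.SL_slash]
  congr 1
  exact SlashInvariantFormClass.slash_action_eq F _ ⟨S, rfl⟩

/-- `w_p (V_p F) = p⁻¹ F` for a level-one form `F`, `V_p F (τ) = F (p τ)`. -/
theorem wp_Vp_levelOne {k : ℤ} {p : ℕ} (hp : p ≠ 0) (F : ModularForm 𝒮ℒ k) :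
    wp k p (fun τ => F (heckeDiagMatrix p • τ)) = ((p : ℂ)⁻¹) • ⇑F := by
  have hp' : (p : ℂ) ≠ 0 := by exact_mod_cast hp
  have h1 : (fun τ => F (heckeDiagMatrix p • τ)) =
      ((p : ℂ) ^ (1 - k)) • ((⇑F) ∣[k] heckeDiagMatrix p) := by
    ext τ
    rw [Pi.smul_apply, slash_heckeDiagMatrix_apply k hp, smul_eq_mul, ← mul_assoc,
      ← zpow_add₀ hp']
    simp
  rw [h1, wp_smul k hp, wp_slash_diag_levelOne hp, smul_smul, ← zpow_add₀ hp']
  congr 1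
  rw [show (1 - k + (k - 2) : ℤ) = -1 by ring, zpow_neg_one]

end Fermat.Agent.S16.Trace
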