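import Fermat.Statements.S16
import Fermat.Agent.S20
import Fermat.Agent.S23.FinDim

/-!
# S16, trivial cases: `p ∈ {2, 3, 5, 7, 13}` (genus zero)

If `S₂(Γ₀(p)) = 0` then the Hecke lattice algebra is the zero ring, so the index of (the image of)
the Eisenstein ideal is `1 = eisensteinNumerator p`.  The vanishing of `S₂(Γ₀(p))` for
`p ∈ {2, 3, 5, 7, 13}` comes from the dimension formula `S20`.

* `card_quotient_eq_one_of_forall_eq_zero` : the abstract statement, any level `N`, any `S`;
* `forall_eq_zero_of_genusFormula_eq_zero` : `genusFormula N = 0 ⇒ S₂(Γ₀(N)) = 0`;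
* `genusFormula_two`, `_three`, `_five`, `_seven`, `_thirteen`;
* `result_of_genusFormula_eq_zero`, `result_of_mem` : the frozen statement S16 VERBATIM for these `p`.
-/

set_option autoImplicit false
open ModularCurve CuspForm

namespace Fermat.Agent.S16.Trivial

/-- If there are no nonzero weight-2 cusp forms of level `Γ₀(N)`, every quotient of the Hecke
lattice algebra is trivial. -/
theorem card_quotient_eq_one_of_forall_eq_zero (N : ℕ) [NeZero N] (S : Set ℕ)
    (h : ∀ f : CuspForm (CongruenceSubgroup.Gamma0 N) 2, f = 0)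
    (I : Ideal ↥(heckeLatticeAlgebra N S)) :
    Nat.card (↥(heckeLatticeAlgebra N S) ⧸ I) = 1 := by
  have h1 : Subsingleton ↥(intLattice N 2) :=
    ⟨fun a b => Subtype.ext ((h a.1).trans (h b.1).symm)⟩
  have h2 : Subsingleton (Module.End ℤ ↥(intLattice N 2)) :=
    ⟨fun a b => LinearMap.ext fun x => Subsingleton.elim _ _⟩
  have h3 : Subsingleton ↥(heckeLatticeAlgebra N S) :=
    ⟨fun a b => Subtype.ext (Subsingleton.elim _ _)⟩
  have h4 : Subsingleton (↥(heckeLatticeAlgebra N S) ⧸ I) :=
    ⟨fun a b => by
      obtain ⟨a, rfl⟩ := Ideal.Quotient.mk_surjective a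
      obtain ⟨b, rfl⟩ := Ideal.Quotient.mk_surjective b
      rw [Subsingleton.elim a b]⟩
  exact Nat.card_unique

theorem nuTwo_eq (N : ℕ) [NeZero N] :
    nuTwo N = (Finset.univ.filter (fun x : ZMod N => x ^ 2 + 1 = 0)).card := by
  rw [nuTwo, Nat.card_eq_fintype_card, Fintype.card_subtype]

theorem nuThree_eq (N : ℕ) [NeZero N] :
    nuThree N = (Finset.univ.filter (fun x : ZMod N => x ^ 2 + x + 1 = 0)).card := by
  rw [nuThree, Nat.card_eq_fintype_card, Fintype.card_subtype]

theorem dedekindPsi_prime {p : ℕ} (hp : p.Prime) : dedekindPsi p = p + 1 := by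
  rw [dedekindPsi, hp.divisors, Finset.filter_true_of_mem, Finset.sum_pair hp.one_lt.ne,
    Nat.div_one, Nat.div_self hp.pos]
  intro d hd
  rw [Finset.mem_insert, Finset.mem_singleton] at hd
  rcases hd with rfl | rfl
  · exact squarefree_one
  · exact hp.squarefree

theorem cuspCount_prime {p : ℕ} (hp : p.Prime) : cuspCount p = 2 := by
  rw [cuspCount, hp.divisors, Finset.sum_pair hp.one_lt.ne, Nat.div_one, Nat.div_self hp.pos]
  simp

theorem genusFormula_two : genusFormula 2 = 0 := by
  have h1 : dedekindPsi 2 = 3 := dedekindPsi_prime (by norm_num)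
  have h2 : nuTwo 2 = 1 := by rw [nuTwo_eq]; decide
  have h3 : nuThree 2 = 0 := by rw [nuThree_eq]; decide
  have h4 : cuspCount 2 = 2 := cuspCount_prime (by norm_num)
  rw [genusFormula, h1, h2, h3, h4]; norm_num

theorem genusFormula_three : genusFormula 3 = 0 := by
  have h1 : dedekindPsi 3 = 4 := dedekindPsi_prime (by norm_num)
  have h2 : nuTwo 3 = 0 := by rw [nuTwo_eq]; decide
  have h3 : nuThree 3 = 1 := by rw [nuThree_eq]; decide
  have h4 : cuspCount 3 = 2 := cuspCount_prime (by norm_num)
  rw [genusFormula, h1, h2, h3, h4]; norm_num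

theorem genusFormula_five : genusFormula 5 = 0 := by
  have h1 : dedekindPsi 5 = 6 := dedekindPsi_prime (by norm_num)
  have h2 : nuTwo 5 = 2 := by rw [nuTwo_eq]; decide
  have h3 : nuThree 5 = 0 := by rw [nuThree_eq]; decide
  have h4 : cuspCount 5 = 2 := cuspCount_prime (by norm_num)
  rw [genusFormula, h1, h2, h3, h4]; norm_num

theorem genusFormula_seven : genusFormula 7 = 0 := by
  have h1 : dedekindPsi 7 = 8 := dedekindPsi_prime (by norm_num)
  have h2 : nuTwo 7 = 0 := by rw [nuTwo_eq]; decide
  have h3 : nuThree 7 = 2 := by rw [nuThree_eq]; decide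
  have h4 : cuspCount 7 = 2 := cuspCount_prime (by norm_num)
  rw [genusFormula, h1, h2, h3, h4]; norm_num

theorem genusFormula_thirteen : genusFormula 13 = 0 := by
  have h1 : dedekindPsi 13 = 14 := dedekindPsi_prime (by norm_num)
  have h2 : nuTwo 13 = 2 := by rw [nuTwo_eq]; decide
  have h3 : nuThree 13 = 2 := by rw [nuThree_eq]; decide
  have h4 : cuspCount 13 = 2 := cuspCount_prime (by norm_num)
  rw [genusFormula, h1, h2, h3, h4]; norm_num


/-- Genus zero implies that there are no weight-2 cusp forms (dimension formula `S20`). -/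
theorem forall_eq_zero_of_genusFormula_eq_zero (N : ℕ) [NeZero N] (h : genusFormula N = 0)
    (f : CuspForm (CongruenceSubgroup.Gamma0 N) 2) : f = 0 := by
  have hfd := Fermat.Agent.S23.FinDim.finiteDimensional_cuspForm N 2
  have h0 : Module.finrank ℂ (CuspForm (CongruenceSubgroup.Gamma0 N) 2) = 0 := by
    have h1 := Fermat.Agent.S20.result N
    rw [h] at h1
    exact_mod_cast h1
  have hsub : Subsingleton (CuspForm (CongruenceSubgroup.Gamma0 N) 2) :=
    Module.finrank_zero_iff.mp h0
  exact Subsingleton.elim _ _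

/-- The frozen statement S16 for a prime of genus zero with `eisensteinNumerator p = 1`. -/
theorem result_of_genusFormula_eq_zero (p : ℕ) [Fact p.Prime] (h : genusFormula p = 0)
    (h1 : eisensteinNumerator p = 1) :
    Nat.card (↥(heckeLatticeAlgebra p ∅) ⧸
        Ideal.map ((latticeRestrictHom p ∅).toRingHom.comp (heckeEvalForms p 2))
          (eisensteinIdeal p)) =
      eisensteinNumerator p := by
  rw [h1]
  exact card_quotient_eq_one_of_forall_eq_zero p ∅
    (forall_eq_zero_of_genusFormula_eq_zero p h) _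

/-- **S16 for `p ∈ {2, 3, 5, 7, 13}`.** -/
theorem result_of_mem (p : ℕ) [Fact p.Prime] (hp : p ∈ ({2, 3, 5, 7, 13} : Finset ℕ)) :
    Nat.card (↥(heckeLatticeAlgebra p ∅) ⧸
        Ideal.map ((latticeRestrictHom p ∅).toRingHom.comp (heckeEvalForms p 2))
          (eisensteinIdeal p)) =
      eisensteinNumerator p := by
  simp only [Finset.mem_insert, Finset.mem_singleton] at hp
  rcases hp with rfl | rfl | rfl | rfl | rfl
  · exact result_of_genusFormula_eq_zero 2 genusFormula_two (by decide)
  · exact result_of_genusFormula_eq_zero 3 genusFormula_three (by decide)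
  · exact result_of_genusFormula_eq_zero 5 genusFormula_five (by decide)
  · exact result_of_genusFormula_eq_zero 7 genusFormula_seven (by decide)
  · exact result_of_genusFormula_eq_zero 13 genusFormula_thirteen (by decide)

/-- For a prime `p ∉ {2, 3, 5, 7, 13}` one has `p = 11` or `17 ≤ p`. -/
theorem eleven_or_seventeen_le {p : ℕ} (hp : p.Prime) (h : p ∉ ({2, 3, 5, 7, 13} : Finset ℕ)) :
    p = 11 ∨ 17 ≤ p := by
  simp only [Finset.mem_insert, Finset.mem_singleton, not_or] at h
  by_contra hcon
  push Not at hcon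
  obtain ⟨h11, h17⟩ := hcon
  interval_cases p <;> simp_all (config := { decide := true })

end Fermat.Agent.S16.Trivial
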