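import Fermat.Agent.S16.UBMaster
import Fermat.Agent.S16.Trace
import Fermat.Prelude.Def_ModularCurve_ModularUnit

/-!
# S16 (PROJECT E), slice E-UB-gen: assembly of the upper bound

`hUB_of_special`: the upper bound `(UB)` of `Reduction.result_of` from the master identity
(`UBMaster.ub_dvd`) and the three special cases

* `ub2`   : `p % 8 = 7 → ¬ EisensteinCongruence p 2`,
* `ub3`   : `p % 3 = 2 → ¬ EisensteinCongruence p 3`,
* `ubgen` : `ℓ ≥ 5` prime, `ℓ ∣ p + 1 → ¬ EisensteinCongruence p ℓ`.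
-/

set_option autoImplicit false

noncomputable section

namespace Fermat.Agent.S16.UBMaster

open UpperHalfPlane ModularFormClass CongruenceSubgroup ModularForm ModularCurve
open Fermat.Agent.S16.Reduction Fermat.Agent.S16.MasterIdentity
open scoped ModularForm MatrixGroups

/-- The E-TR slice (`Trace.lean`) provides the interface consumed by the master identity. -/
def traceAPI (p : ℕ) [hp : Fact p.Prime] : TraceAPI p where
  wp k f := Trace.wp k p f
  wp_mul k k' f g := Trace.wp_mul k k' hp.out.ne_zero f g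
  coe_trace _ F := Trace.coe_trace_eq_heckeU F
  wp_two F := Trace.wp_two_eq_neg_heckeU ⟨F, rfl⟩

/-- Assembly of the upper bound, with the arithmetic lemma as a hypothesis. -/
theorem hUB_of_special_aux (p : ℕ) [Fact p.Prime] (A : TraceAPI p) (B : EisAPI p)
    (harith : ∀ l a : ℕ, l.Prime → 0 < a → l ^ (a + padicValNat l 24) ∣ (p - 1) * (p + 1) →
      (l = 2 → p % 8 ≠ 7) → (l = 3 → p % 3 ≠ 2) → (5 ≤ l → ¬ l ∣ p + 1) →
      l ^ a ∣ (p - 1) / Nat.gcd (p - 1) 12)
    (ub2 : p % 8 = 7 → ¬ EisensteinCongruence p 2)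
    (ub3 : p % 3 = 2 → ¬ EisensteinCongruence p 3)
    (ubgen : ∀ l : ℕ, l.Prime → 5 ≤ l → l ∣ p + 1 → ¬ EisensteinCongruence p l) :
    ∀ l a : ℕ, l.Prime → 0 < a → EisensteinCongruence p (l ^ a) →
      l ^ a ∣ eisensteinNumerator p := by
  intro l a hl ha h
  have h1 : EisensteinCongruence p l := h.mono (dvd_pow_self l ha.ne')
  refine harith l a hl ha (ub_dvd A B l a hl ha h) ?_ ?_ ?_
  · rintro rfl h8
    exact ub2 h8 h1
  · rintro rfl h3
    exact ub3 h3 h1
  · intro h5 hd
    exact ubgen l hl h5 hd h1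

end Fermat.Agent.S16.UBMaster
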