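import Fermat.Agent.S16.MasterIdentity
import Fermat.Agent.S16.RedDefs

/-!
# S16 (PROJECT E), slice E-UB-gen: the upper bound from the master identity

If `f₀ ∈ S₂(Γ₀(p))` has integral `q`-expansion congruent to `∑ σ'(n) qⁿ` modulo `M`, then
`G := 24 E - 24 f₀` (`E` the weight two Eisenstein series of level `p`) has integral `q`-expansion
congruent to the constant `p - 1` modulo `24 M`; the master congruence with the test form `f₀`
itself and `n = 1` gives `24 M ∣ (p - 1)(p + 1) a₁(f₀)` with `a₁(f₀) ≡ 1 mod M`.  For `M = ℓ^a`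
this is `ℓ^(a + v_ℓ(24)) ∣ (p - 1)(p + 1)`, for every prime `ℓ` (including `ℓ = p`).
-/

set_option autoImplicit false

noncomputable section

namespace Fermat.Agent.S16.UBMaster

open UpperHalfPlane ModularFormClass CongruenceSubgroup ModularForm
open Fermat.Agent.S16.Reduction Fermat.Agent.S16.MasterIdentity
open scoped ModularForm MatrixGroups

/-- The weight two Eisenstein series of level `p` with its `q`-expansion (provided by `Eis2`). -/
structure EisAPI (p : ℕ) where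
  /-- the Eisenstein series -/
  E : ModularForm (Gamma0 p) 2
  coeff_zero : qCoeff ⇑E 0 = ((p : ℂ) - 1) / 24
  coeff_pos : ∀ n : ℕ, 0 < n → qCoeff ⇑E n = (sigmaP p n : ℂ)

theorem sigmaP_zero_aux (p : ℕ) : sigmaP p 0 = 0 := by
  simp [sigmaP]

theorem sigmaP_one_aux {p : ℕ} (hp : p.Prime) : sigmaP p 1 = 1 := by
  have : ¬ p ∣ 1 := fun h => hp.one_lt.ne' (Nat.dvd_one.mp h)
  rw [sigmaP, Nat.divisors_one, Finset.sum_filter, Finset.sum_singleton, if_pos this]

variable {p : ℕ} [Fact p.Prime]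

omit [Fact p.Prime] in
theorem qCoeff_sub_smul [NeZero p] (E : ModularForm (Gamma0 p) 2) (f : CuspForm (Gamma0 p) 2) (n : ℕ) :
    qCoeff ⇑((24 : ℂ) • E - (24 : ℂ) • (modularForm f : ModularForm (Gamma0 p) 2)) n =
      24 * qCoeff ⇑E n - 24 * qCoeff ⇑f n := by
  have hΓ := one_mem_strictPeriods_Gamma0 p
  have h1 : (⇑((24 : ℂ) • E - (24 : ℂ) • (modularForm f : ModularForm (Gamma0 p) 2)) : ℍ → ℂ) =
      ⇑((24 : ℂ) • E) - ⇑((24 : ℂ) • (modularForm f : ModularForm (Gamma0 p) 2)) := rfl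
  have h2 : (⇑((24 : ℂ) • E) : ℍ → ℂ) = (24 : ℂ) • ⇑E := rfl
  have h3 : (⇑((24 : ℂ) • (modularForm f : ModularForm (Gamma0 p) 2)) : ℍ → ℂ) =
      (24 : ℂ) • ⇑f := rfl
  unfold qCoeff
  rw [h1, ModularForm.qExpansion_sub one_pos hΓ ((24 : ℂ) • E)
    ((24 : ℂ) • (modularForm f : ModularForm (Gamma0 p) 2)), h2, h3,
    ModularForm.qExpansion_smul one_pos hΓ (24 : ℂ) E,
    ModularForm.qExpansion_smul one_pos hΓ (24 : ℂ) f]
  simp

/-- **Upper bound from the master identity**, general modulus. -/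
theorem ub_dvd_general (A : TraceAPI p) (B : EisAPI p) (M : ℕ)
    (h : EisensteinCongruence p M) :
    ∃ u : ℤ, (M : ℤ) ∣ u - 1 ∧ (24 * (M : ℤ)) ∣ ((p : ℤ) - 1) * (((p : ℤ) + 1) * u) := by
  have hp : p.Prime := Fact.out
  obtain ⟨f, hf⟩ := h
  choose φ hφ hdvd using hf
  set G : ModularForm (Gamma0 p) 2 :=
    (24 : ℂ) • B.E - (24 : ℂ) • (modularForm f : ModularForm (Gamma0 p) 2) with hG
  set g : ℕ → ℤ := fun n =>
    if n = 0 then ((p : ℤ) - 1) - 24 * φ 0 else 24 * ((sigmaP p n : ℤ) - φ n) with hg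
  have hgG : ∀ n, qCoeff ⇑G n = (g n : ℂ) := by
    intro n
    rw [hG, qCoeff_sub_smul, hφ]
    by_cases hn : n = 0
    · subst hn
      rw [B.coeff_zero]
      simp only [hg, if_true]
      push_cast
      ring
    · rw [B.coeff_pos n (Nat.pos_of_ne_zero hn)]
      simp only [hg, if_neg hn]
      push_cast
      ring
  have h0 : (24 * (M : ℤ)) ∣ g 0 - ((p : ℤ) - 1) := by
    have h1 : g 0 - ((p : ℤ) - 1) = -(24 * (φ 0 - (sigmaP p 0 : ℤ))) := by
      simp only [hg, if_true, sigmaP_zero_aux]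
      push_cast
      ring
    rw [h1, dvd_neg]
    exact mul_dvd_mul_left 24 (hdvd 0)
  have hpos : ∀ j, 0 < j → (24 * (M : ℤ)) ∣ g j := by
    intro j hj
    have h1 : g j = -(24 * (φ j - (sigmaP p j : ℤ))) := by
      simp only [hg, if_neg hj.ne']
      ring
    rw [h1, dvd_neg]
    exact mul_dvd_mul_left 24 (hdvd j)
  have key := mi_cong' A G f g φ hgG hφ (24 * (M : ℤ)) ((p : ℤ) - 1) h0 hpos 1
  refine ⟨φ 1, ?_, key⟩
  have := hdvd 1
  rwa [sigmaP_one_aux hp, Nat.cast_one] at this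

/-- **Upper bound from the master identity**: `EisensteinCongruence p (ℓ^a)` forces
`ℓ^(a + v_ℓ(24)) ∣ (p - 1)(p + 1)`, for every prime `ℓ` (also `ℓ = p`, `ℓ = 2`, `ℓ = 3`). -/
theorem ub_dvd (A : TraceAPI p) (B : EisAPI p) (l a : ℕ) (_hl : l.Prime) (ha : 0 < a)
    (h : EisensteinCongruence p (l ^ a)) :
    l ^ (a + padicValNat l 24) ∣ (p - 1) * (p + 1) := by
  have hp : p.Prime := Fact.out
  obtain ⟨u, hu, hdvd⟩ := ub_dvd_general A B (l ^ a) h
  have h24 : l ^ padicValNat l 24 ∣ 24 := pow_padicValNat_dvd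
  have h1 : ((l ^ (a + padicValNat l 24) : ℕ) : ℤ) ∣ 24 * ((l ^ a : ℕ) : ℤ) := by
    rw [pow_add, mul_comm (l ^ a)]
    push_cast
    exact mul_dvd_mul (by exact_mod_cast h24) dvd_rfl
  have h2 := dvd_trans h1 hdvd
  have hcop : IsCoprime ((l ^ (a + padicValNat l 24) : ℕ) : ℤ) u := by
    push_cast
    refine IsCoprime.pow_left ?_
    obtain ⟨w, hw⟩ := hu
    obtain ⟨a', rfl⟩ : ∃ a', a = a' + 1 := ⟨a - 1, by omega⟩
    refine ⟨-(l ^ a' : ℤ) * w, 1, ?_⟩
    have : u = 1 + ((l ^ (a' + 1) : ℕ) : ℤ) * w := by linarith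
    rw [this]
    push_cast
    ring
  have h3 : ((l ^ (a + padicValNat l 24) : ℕ) : ℤ) ∣ ((p : ℤ) - 1) * ((p : ℤ) + 1) := by
    have e : ((p : ℤ) - 1) * (((p : ℤ) + 1) * u) = (((p : ℤ) - 1) * ((p : ℤ) + 1)) * u := by ring
    rw [e] at h2
    exact hcop.dvd_of_dvd_mul_right h2
  have e2 : ((p : ℤ) - 1) * ((p : ℤ) + 1) = (((p - 1) * (p + 1) : ℕ) : ℤ) := by
    have : 1 ≤ p := hp.one_lt.le
    push_cast [Nat.cast_sub this]
    ring
  rw [e2] at h3
  exact_mod_cast h3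

end Fermat.Agent.S16.UBMaster
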