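import Mathlib

/-!
# S16 (PROJECT E): the coefficient ring `ℤ_(l)` with its maps to `ℂ` and `ZMod l`

`R l := Localization.AtPrime (span {l})`, the embedding `iotaC l : R l →+* ℂ`, the reduction
`phi l : R l →+* ZMod l`, and power series over `R l` with prescribed images: for integers `g n`
and a denominator `d` prime to `l` there is `s : (R l)⟦X⟧` with image `∑ (g n / d) Xⁿ` in `ℂ⟦X⟧`
and `∑ (g n / d) Xⁿ` in `(ZMod l)⟦X⟧`.
-/

set_option autoImplicit false

noncomputable section

namespace Fermat.Agent.S16.ZLoc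

open PowerSeries

variable (l : ℕ) [hl : Fact l.Prime]

/-- The prime ideal `(l)` of `ℤ`. -/
abbrev pIdeal : Ideal ℤ := Ideal.span {(l : ℤ)}

instance isPrime_pIdeal : (pIdeal l).IsPrime :=
  (Ideal.span_singleton_prime (by exact_mod_cast hl.out.ne_zero)).mpr
    (Nat.prime_iff_prime_int.mp hl.out)

/-- The local ring `ℤ_(l)`. -/
abbrev R : Type := Localization.AtPrime (pIdeal l)

theorem mem_primeCompl_iff (y : ℤ) : y ∈ (pIdeal l).primeCompl ↔ ¬ (l : ℤ) ∣ y := by
  rw [Ideal.mem_primeCompl_iff, Ideal.mem_span_singleton]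

theorem isUnit_castC (y : (pIdeal l).primeCompl) : IsUnit (Int.castRingHom ℂ (y : ℤ)) := by
  rw [isUnit_iff_ne_zero]
  have h := (mem_primeCompl_iff l (y : ℤ)).mp y.2
  have h0 : (y : ℤ) ≠ 0 := by
    rintro h0
    exact h (h0 ▸ dvd_zero _)
  simpa using h0

theorem isUnit_castZMod (y : (pIdeal l).primeCompl) :
    IsUnit (Int.castRingHom (ZMod l) (y : ℤ)) := by
  rw [isUnit_iff_ne_zero]
  have h := (mem_primeCompl_iff l (y : ℤ)).mp y.2
  intro h0
  exact h ((ZMod.intCast_zmod_eq_zero_iff_dvd (y : ℤ) l).mp (by simpa using h0))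

/-- The embedding `ℤ_(l) → ℂ`. -/
def iotaC : R l →+* ℂ := IsLocalization.lift (M := (pIdeal l).primeCompl) (isUnit_castC l)

/-- The reduction `ℤ_(l) → ZMod l`. -/
def phi : R l →+* ZMod l := IsLocalization.lift (M := (pIdeal l).primeCompl) (isUnit_castZMod l)

@[simp] theorem iotaC_algebraMap (x : ℤ) : iotaC l (algebraMap ℤ (R l) x) = (x : ℂ) := by
  simp [iotaC]

@[simp] theorem phi_algebraMap (x : ℤ) : phi l (algebraMap ℤ (R l) x) = (x : ZMod l) := by
  simp [phi]

theorem iotaC_injective : Function.Injective (iotaC l) := by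
  unfold iotaC
  rw [IsLocalization.lift_injective_iff]
  intro x y
  have hinj : Function.Injective (algebraMap ℤ (R l)) :=
    IsLocalization.injective (R l) (Ideal.primeCompl_le_nonZeroDivisors (pIdeal l))
  constructor
  · intro h
    rw [hinj h]
  · intro h
    have : x = y := (Int.cast_injective (α := ℂ)) (by simpa using h)
    rw [this]

/-- Integers prime to `l` are units of `ℤ_(l)`. -/
theorem isUnit_natCast (n : ℕ) (h : ¬ l ∣ n) : IsUnit ((n : ℕ) : R l) := by
  have hn : ((n : ℤ)) ∈ (pIdeal l).primeCompl := by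
    rw [mem_primeCompl_iff]
    exact_mod_cast h
  have := IsLocalization.map_units (R l) (⟨(n : ℤ), hn⟩ : (pIdeal l).primeCompl)
  simpa using this

/-- A power series over `ℤ_(l)` with prescribed numerators and a common denominator prime
to `l`. -/
theorem exists_series (g : ℕ → ℤ) (d : ℕ) (hd : ¬ l ∣ d) :
    ∃ s : PowerSeries (R l),
      s.map (iotaC l) = PowerSeries.mk (fun n => (g n : ℂ) / (d : ℂ)) ∧
      s.map (phi l) = PowerSeries.mk (fun n => (g n : ZMod l) / (d : ZMod l)) := by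
  obtain ⟨u, hu⟩ := isUnit_natCast l d hd
  refine ⟨PowerSeries.mk (fun n => algebraMap ℤ (R l) (g n) * ((u⁻¹ : (R l)ˣ) : R l)), ?_, ?_⟩
  · ext n
    rw [coeff_map, coeff_mk, coeff_mk, map_mul, iotaC_algebraMap, div_eq_mul_inv]
    congr 1
    have h1 : iotaC l (u : R l) = (d : ℂ) := by rw [hu]; simp
    have h2 : iotaC l (u : R l) * iotaC l ((u⁻¹ : (R l)ˣ) : R l) = 1 := by
      rw [← map_mul, Units.mul_inv, map_one]
    rw [h1] at h2
    exact eq_inv_of_mul_eq_one_right h2
  · ext n
    rw [coeff_map, coeff_mk, coeff_mk, map_mul, phi_algebraMap, div_eq_mul_inv]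
    congr 1
    have h1 : phi l (u : R l) = (d : ZMod l) := by rw [hu]; simp
    have h2 : phi l (u : R l) * phi l ((u⁻¹ : (R l)ˣ) : R l) = 1 := by
      rw [← map_mul, Units.mul_inv, map_one]
    rw [h1] at h2
    exact eq_inv_of_mul_eq_one_right h2

/-- If all higher numerators are divisible by `l`, the reduction is a constant. -/
theorem mk_div_eq_C (g : ℕ → ℤ) (d : ℕ) (hg : ∀ n, 0 < n → (l : ℤ) ∣ g n) :
    PowerSeries.mk (fun n => (g n : ZMod l) / (d : ZMod l)) =
      PowerSeries.C ((g 0 : ZMod l) / (d : ZMod l)) := by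
  ext n
  rw [coeff_mk, coeff_C]
  by_cases hn : n = 0
  · rw [if_pos hn, hn]
  · rw [if_neg hn]
    have : ((g n : ℤ) : ZMod l) = 0 :=
      (ZMod.intCast_zmod_eq_zero_iff_dvd (g n) l).mpr (hg n (Nat.pos_of_ne_zero hn))
    rw [this, zero_div]

end Fermat.Agent.S16.ZLoc
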